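import Mathlib
import Fermat.Prelude.Def_FLTPrelim_Modularity
import Fermat.Agent.S52.Iface
import Fermat.Agent.MU.F1.Final

section MergeWrap_S52_ShortModel -- from S52/ShortModel.lean

set_option autoImplicit false

open WeierstrassCurve WeierstrassCurve.Affine

namespace Fermat.Agent.S52

section Field

variable {F : Type*} [Field F] (W : WeierstrassCurve F)

/-- The short model `y² = x³ - 27 c₄ x - 54 c₆` of a Weierstrass curve. -/
def shortModel : WeierstrassCurve F := shortW (-27 * W.c₄) (-54 * W.c₆)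

/-- `x`-coordinate of the image of a point on the short model. -/
def toShortX (x : F) : F := 36 * x + 3 * W.b₂

/-- `y`-coordinate of the image of a point on the short model. -/
def toShortY (x y : F) : F := 108 * (2 * y + W.a₁ * x + W.a₃)

/-- `x`-coordinate of the preimage of a point of the short model. -/
noncomputable def ofShortX (X : F) : F := (X - 3 * W.b₂) / 36

/-- `y`-coordinate of the preimage of a point of the short model. -/
noncomputable def ofShortY (X Y : F) : F := (Y / 108 - W.a₁ * ofShortX W X - W.a₃) / 2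

variable {W}

lemma shortModel_equation_iff (X Y : F) :
    (shortModel W).toAffine.Equation X Y ↔ Y ^ 2 = X ^ 3 + (-27 * W.c₄) * X + (-54 * W.c₆) := by
  rw [Affine.equation_iff]
  simp [shortModel, shortW]

lemma shortModel_nonsingular_iff (X Y : F) :
    (shortModel W).toAffine.Nonsingular X Y ↔
      (shortModel W).toAffine.Equation X Y ∧ (3 * X ^ 2 + (-27 * W.c₄) ≠ 0 ∨ 2 * Y ≠ 0) := by
  rw [Affine.nonsingular_iff]
  simp only [shortModel, shortW]
  constructor
  · rintro ⟨h, h' | h'⟩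
    · refine ⟨h, Or.inl ?_⟩
      intro h0
      apply h'
      linear_combination (-1 : F) * h0
    · refine ⟨h, Or.inr ?_⟩
      intro h0
      apply h'
      linear_combination h0
  · rintro ⟨h, h' | h'⟩
    · refine ⟨h, Or.inl ?_⟩
      intro h0
      apply h'
      linear_combination (-1 : F) * h0
    · refine ⟨h, Or.inr ?_⟩
      intro h0
      apply h'
      linear_combination h0

lemma toShort_equation {x y : F} (h : W.toAffine.Equation x y) :
    (shortModel W).toAffine.Equation (toShortX W x) (toShortY W x y) := by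
  rw [shortModel_equation_iff]
  rw [Affine.equation_iff] at h
  simp only [toShortX, toShortY, WeierstrassCurve.c₄, WeierstrassCurve.c₆, WeierstrassCurve.b₂,
    WeierstrassCurve.b₄, WeierstrassCurve.b₆]
  linear_combination (46656 : F) * h

lemma toShort_nonsingular (h2 : (2 : F) ≠ 0) (h3 : (3 : F) ≠ 0) {x y : F}
    (h : W.toAffine.Nonsingular x y) :
    (shortModel W).toAffine.Nonsingular (toShortX W x) (toShortY W x y) := by
  rw [shortModel_nonsingular_iff]
  rw [Affine.nonsingular_iff] at h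
  obtain ⟨he, hns⟩ := h
  refine ⟨toShort_equation he, ?_⟩
  by_cases hη : 2 * y + W.a₁ * x + W.a₃ = 0
  · left
    have hx : W.a₁ * y ≠ 3 * x ^ 2 + 2 * W.a₂ * x + W.a₄ := by
      rcases hns with h' | h'
      · exact h'
      · exact absurd (by linear_combination hη) h'
    intro h0
    apply hx
    have h1296 : (1296 : F) ≠ 0 := by
      have : (1296 : F) = 2 ^ 4 * 3 ^ 4 := by norm_num
      rw [this]
      exact mul_ne_zero (pow_ne_zero _ h2) (pow_ne_zero _ h3)
    have key : (1296 : F) * (W.a₁ * y - (3 * x ^ 2 + 2 * W.a₂ * x + W.a₄)) = 0 := by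
      simp only [toShortX, WeierstrassCurve.c₄, WeierstrassCurve.b₂, WeierstrassCurve.b₄] at h0
      linear_combination (-1 : F) * h0 + (648 * W.a₁) * hη
    have := (mul_eq_zero.mp key).resolve_left h1296
    linear_combination this
  · right
    have h216 : (216 : F) ≠ 0 := by
      have : (216 : F) = 2 ^ 3 * 3 ^ 3 := by norm_num
      rw [this]
      exact mul_ne_zero (pow_ne_zero _ h2) (pow_ne_zero _ h3)
    have : 2 * toShortY W x y = 216 * (2 * y + W.a₁ * x + W.a₃) := by
      simp only [toShortY]; ring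
    rw [this]
    exact mul_ne_zero h216 hη

lemma ofShort_toShort_X (h2 : (2 : F) ≠ 0) (h3 : (3 : F) ≠ 0) (x : F) :
    ofShortX W (toShortX W x) = x := by
  have h36 : (36 : F) ≠ 0 := by
    have : (36 : F) = 2 ^ 2 * 3 ^ 2 := by norm_num
    rw [this]
    exact mul_ne_zero (pow_ne_zero _ h2) (pow_ne_zero _ h3)
  simp only [ofShortX, toShortX]
  field_simp
  ring

lemma ofShort_toShort_Y (h2 : (2 : F) ≠ 0) (h3 : (3 : F) ≠ 0) (x y : F) :
    ofShortY W (toShortX W x) (toShortY W x y) = y := by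
  have h108 : (108 : F) ≠ 0 := by
    have : (108 : F) = 2 ^ 2 * 3 ^ 3 := by norm_num
    rw [this]
    exact mul_ne_zero (pow_ne_zero _ h2) (pow_ne_zero _ h3)
  simp only [ofShortY, ofShort_toShort_X h2 h3, toShortY]
  field_simp
  ring

lemma toShort_ofShort_X (h2 : (2 : F) ≠ 0) (h3 : (3 : F) ≠ 0) (X : F) :
    toShortX W (ofShortX W X) = X := by
  have h36 : (36 : F) ≠ 0 := by
    have : (36 : F) = 2 ^ 2 * 3 ^ 2 := by norm_num
    rw [this]
    exact mul_ne_zero (pow_ne_zero _ h2) (pow_ne_zero _ h3)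
  simp only [ofShortX, toShortX]
  field_simp
  ring

lemma toShort_ofShort_Y (h2 : (2 : F) ≠ 0) (h3 : (3 : F) ≠ 0) (X Y : F) :
    toShortY W (ofShortX W X) (ofShortY W X Y) = Y := by
  have h108 : (108 : F) ≠ 0 := by
    have : (108 : F) = 2 ^ 2 * 3 ^ 3 := by norm_num
    rw [this]
    exact mul_ne_zero (pow_ne_zero _ h2) (pow_ne_zero _ h3)
  simp only [ofShortY, toShortY]
  field_simp
  ring

lemma ofShort_nonsingular (h2 : (2 : F) ≠ 0) (h3 : (3 : F) ≠ 0) {X Y : F}
    (h : (shortModel W).toAffine.Nonsingular X Y) :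
    W.toAffine.Nonsingular (ofShortX W X) (ofShortY W X Y) := by
  have h6 : (46656 : F) ≠ 0 := by
    have : (46656 : F) = 2 ^ 6 * 3 ^ 6 := by norm_num
    rw [this]
    exact mul_ne_zero (pow_ne_zero _ h2) (pow_ne_zero _ h3)
  have h216 : (216 : F) ≠ 0 := by
    have : (216 : F) = 2 ^ 3 * 3 ^ 3 := by norm_num
    rw [this]
    exact mul_ne_zero (pow_ne_zero _ h2) (pow_ne_zero _ h3)
  have h1296 : (1296 : F) ≠ 0 := by
    have : (1296 : F) = 2 ^ 4 * 3 ^ 4 := by norm_num
    rw [this]
    exact mul_ne_zero (pow_ne_zero _ h2) (pow_ne_zero _ h3)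
  set x := ofShortX W X with hx
  set y := ofShortY W X Y with hy
  have hX : X = toShortX W x := (toShort_ofShort_X h2 h3 X).symm
  have hY : Y = toShortY W x y := (toShort_ofShort_Y h2 h3 X Y).symm
  rw [shortModel_nonsingular_iff, shortModel_equation_iff] at h
  obtain ⟨he, hns⟩ := h
  rw [Affine.nonsingular_iff, Affine.equation_iff]
  have heq : y ^ 2 + W.a₁ * x * y + W.a₃ * y = x ^ 3 + W.a₂ * x ^ 2 + W.a₄ * x + W.a₆ := by
    have key : (46656 : F) * (y ^ 2 + W.a₁ * x * y + W.a₃ * y
        - (x ^ 3 + W.a₂ * x ^ 2 + W.a₄ * x + W.a₆)) = 0 := by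
      rw [hX, hY] at he
      simp only [toShortX, toShortY, WeierstrassCurve.c₄, WeierstrassCurve.c₆,
        WeierstrassCurve.b₂, WeierstrassCurve.b₄, WeierstrassCurve.b₆] at he
      linear_combination he
    have := (mul_eq_zero.mp key).resolve_left h6
    linear_combination this
  refine ⟨heq, ?_⟩
  by_contra hcon
  push Not at hcon
  obtain ⟨hc1, hc2⟩ := hcon
  rcases hns with h' | h'
  · apply h'
    rw [hX]
    simp only [toShortX, WeierstrassCurve.c₄, WeierstrassCurve.b₂, WeierstrassCurve.b₄]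
    linear_combination (-1296 : F) * hc1 + (648 * W.a₁) * hc2
  · apply h'
    rw [hY]
    simp only [toShortY]
    linear_combination (216 : F) * hc2

variable (W)

/-- The explicit bijection between the points of `W` and the points of its short model. -/
noncomputable def toShortEquiv (h2 : (2 : F) ≠ 0) (h3 : (3 : F) ≠ 0) :
    W.toAffine.Point ≃ (shortModel W).toAffine.Point where
  toFun P :=
    match P with
    | .zero => .zero
    | .some x y h => .some (toShortX W x) (toShortY W x y) (toShort_nonsingular h2 h3 h)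
  invFun Q :=
    match Q with
    | .zero => .zero
    | .some X Y h => .some (ofShortX W X) (ofShortY W X Y) (ofShort_nonsingular h2 h3 h)
  left_inv P := by
    cases P with
    | zero => rfl
    | some x y h =>
      simp only
      congr 1
      · exact ofShort_toShort_X h2 h3 x
      · exact ofShort_toShort_Y h2 h3 x y
  right_inv Q := by
    cases Q with
    | zero => rfl
    | some X Y h =>
      simp only
      congr 1
      · exact toShort_ofShort_X h2 h3 X
      · exact toShort_ofShort_Y h2 h3 X Y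

theorem card_eq_card_shortModel (h2 : (2 : F) ≠ 0) (h3 : (3 : F) ≠ 0) :
    W.card = (shortModel W).card :=
  Nat.card_congr (toShortEquiv W h2 h3)

theorem traceOfFrobenius_eq_shortModel (h2 : (2 : F) ≠ 0) (h3 : (3 : F) ≠ 0) :
    W.traceOfFrobenius = (shortModel W).traceOfFrobenius := by
  simp only [WeierstrassCurve.traceOfFrobenius, card_eq_card_shortModel W h2 h3]

end Field

/-- (E): for a prime `ℓ ≥ 5`, `a_ℓ` of an integral Weierstrass curve is the trace of Frobenius of
the short model `y² = x³ - 27 c₄ x - 54 c₆` over `ZMod ℓ`. No good-reduction hypothesis. -/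
theorem apOfModel_eq_shortW (W : WeierstrassCurve ℤ) (ℓ : ℕ) [Fact ℓ.Prime] (hℓ : 5 ≤ ℓ) :
    W.apOfModel ℓ =
      (shortW (-27 * ((W.c₄ : ℤ) : ZMod ℓ)) (-54 * ((W.c₆ : ℤ) : ZMod ℓ))).traceOfFrobenius := by
  have hprime : ℓ.Prime := Fact.out
  have h2 : ((2 : ℕ) : ZMod ℓ) ≠ 0 := by
    rw [Ne, ZMod.natCast_eq_zero_iff]
    intro h
    have := Nat.le_of_dvd (by norm_num) h
    omega
  have h3 : ((3 : ℕ) : ZMod ℓ) ≠ 0 := by
    rw [Ne, ZMod.natCast_eq_zero_iff]
    intro h
    have := Nat.le_of_dvd (by norm_num) h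
    omega
  have h2' : (2 : ZMod ℓ) ≠ 0 := by exact_mod_cast h2
  have h3' : (3 : ZMod ℓ) ≠ 0 := by exact_mod_cast h3
  rw [WeierstrassCurve.apOfModel, traceOfFrobenius_eq_shortModel _ h2' h3']
  simp only [shortModel, WeierstrassCurve.reductionMod, WeierstrassCurve.map_c₄,
    WeierstrassCurve.map_c₆, eq_intCast]

end Fermat.Agent.S52
end MergeWrap_S52_ShortModel

section MergeWrap_Lib_FrobTrace_ShortHom -- from Lib/FrobTrace/ShortHom.lean

/-!
# FrobTrace / ShortHom: the short model as a GROUP isomorphism, compatible with Frobenius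
(owner: helper65)

`(x, y) ↦ (36 x + 3 b₂, 108 (2 y + a₁ x + a₃))` (helper75's `S52.toShortEquiv` on coordinates) is a group
homomorphism `W(k) → W_short(k)`: the chord/tangent slopes transform as `λ' = 3 (2 λ + a₁)`.
-/

set_option autoImplicit false

open WeierstrassCurve WeierstrassCurve.Affine

namespace Fermat.Agent.FrobTrace

open Fermat.Agent.S52 (shortW frobPt shortModel toShortX toShortY toShortEquiv)

section Field

variable {F : Type*} [Field F] (W : WeierstrassCurve F)

lemma shortHom_a₁ : (shortModel W).a₁ = 0 := rfl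
lemma shortHom_a₂ : (shortModel W).a₂ = 0 := rfl
lemma shortHom_a₃ : (shortModel W).a₃ = 0 := rfl
lemma shortHom_a₄ : (shortModel W).a₄ = -27 * W.c₄ := rfl
lemma shortHom_a₆ : (shortModel W).a₆ = -54 * W.c₆ := rfl

lemma shortHom_negY' (X Y : F) : (shortModel W).toAffine.negY X Y = -Y := by
  simp [Affine.negY, shortHom_a₁, shortHom_a₃]

lemma shortHom_negY (x y : F) :
    (shortModel W).toAffine.negY (toShortX W x) (toShortY W x y)
      = toShortY W x (W.toAffine.negY x y) := by
  rw [shortHom_negY']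
  simp only [toShortY, Affine.negY]
  ring

lemma shortHom_toShortX_inj (h2 : (2 : F) ≠ 0) (h3 : (3 : F) ≠ 0) {x₁ x₂ : F}
    (h : toShortX W x₁ = toShortX W x₂) : x₁ = x₂ := by
  have h36 : (36 : F) ≠ 0 := by
    have : (36 : F) = 2 ^ 2 * 3 ^ 2 := by norm_num
    rw [this]
    exact mul_ne_zero (pow_ne_zero _ h2) (pow_ne_zero _ h3)
  simp only [toShortX] at h
  have : (36 : F) * (x₁ - x₂) = 0 := by linear_combination h
  rcases mul_eq_zero.mp this with h' | h'
  · exact absurd h' h36
  · exact sub_eq_zero.mp h'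

lemma shortHom_toShortY_inj (h2 : (2 : F) ≠ 0) (h3 : (3 : F) ≠ 0) {x y₁ y₂ : F}
    (h : toShortY W x y₁ = toShortY W x y₂) : y₁ = y₂ := by
  have h216 : (216 : F) ≠ 0 := by
    have : (216 : F) = 2 ^ 3 * 3 ^ 3 := by norm_num
    rw [this]
    exact mul_ne_zero (pow_ne_zero _ h2) (pow_ne_zero _ h3)
  simp only [toShortY] at h
  have : (216 : F) * (y₁ - y₂) = 0 := by linear_combination h
  rcases mul_eq_zero.mp this with h' | h'
  · exact absurd h' h216
  · exact sub_eq_zero.mp h'

variable [DecidableEq F]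

/-- the slopes transform as `λ' = 6 λ + 3 a₁` -/
lemma shortHom_slope (h2 : (2 : F) ≠ 0) (h3 : (3 : F) ≠ 0) {x₁ x₂ y₁ y₂ : F}
    (h₁ : W.toAffine.Equation x₁ y₁) (h₂ : W.toAffine.Equation x₂ y₂)
    (hxy : ¬(x₁ = x₂ ∧ y₁ = W.toAffine.negY x₂ y₂)) :
    (shortModel W).toAffine.slope (toShortX W x₁) (toShortX W x₂) (toShortY W x₁ y₁)
        (toShortY W x₂ y₂)
      = 6 * W.toAffine.slope x₁ x₂ y₁ y₂ + 3 * W.a₁ := by
  have h36 : (36 : F) ≠ 0 := by
    have : (36 : F) = 2 ^ 2 * 3 ^ 2 := by norm_num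
    rw [this]
    exact mul_ne_zero (pow_ne_zero _ h2) (pow_ne_zero _ h3)
  have h216 : (216 : F) ≠ 0 := by
    have : (216 : F) = 2 ^ 3 * 3 ^ 3 := by norm_num
    rw [this]
    exact mul_ne_zero (pow_ne_zero _ h2) (pow_ne_zero _ h3)
  by_cases hx : x₁ = x₂
  · have hy : y₁ ≠ W.toAffine.negY x₂ y₂ := fun h => hxy ⟨hx, h⟩
    have hy' : toShortY W x₁ y₁ ≠ (shortModel W).toAffine.negY (toShortX W x₂) (toShortY W x₂ y₂) := by
      rw [shortHom_negY]
      subst hx
      exact fun h => hy (shortHom_toShortY_inj W h2 h3 h)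
    rw [Affine.slope_of_Y_ne (congrArg _ hx) hy', Affine.slope_of_Y_ne hx hy]
    have hyy : y₁ = y₂ := Affine.Y_eq_of_Y_ne h₁ h₂ hx hy
    subst hx hyy
    have hD : y₁ - W.toAffine.negY x₁ y₁ ≠ 0 := sub_ne_zero.mpr hy
    have hD' : toShortY W x₁ y₁ - (shortModel W).toAffine.negY (toShortX W x₁) (toShortY W x₁ y₁)
        ≠ 0 := sub_ne_zero.mpr hy'
    rw [div_eq_iff hD']
    have e1 : toShortY W x₁ y₁ - (shortModel W).toAffine.negY (toShortX W x₁) (toShortY W x₁ y₁)
        = 216 * (y₁ - W.toAffine.negY x₁ y₁) := by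
      rw [shortHom_negY']
      simp only [toShortY, Affine.negY]
      ring
    rw [e1, shortHom_a₂, shortHom_a₁, shortHom_a₄]
    field_simp
    simp only [toShortX, toShortY, Affine.negY, WeierstrassCurve.c₄, WeierstrassCurve.b₂,
      WeierstrassCurve.b₄]
    ring
  · have hX : toShortX W x₁ ≠ toShortX W x₂ := fun h => hx (shortHom_toShortX_inj W h2 h3 h)
    rw [Affine.slope_of_X_ne hX, Affine.slope_of_X_ne hx]
    have hne : x₁ - x₂ ≠ 0 := sub_ne_zero.mpr hx
    have hne' : toShortX W x₁ - toShortX W x₂ ≠ 0 := sub_ne_zero.mpr hX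
    rw [div_eq_iff hne']
    simp only [toShortX, toShortY]
    field_simp
    ring

omit [DecidableEq F] in
lemma shortHom_toShortEquiv_some (h2 : (2 : F) ≠ 0) (h3 : (3 : F) ≠ 0) {x y : F}
    (h : W.toAffine.Nonsingular x y) :
    toShortEquiv W h2 h3 (Point.some x y h)
      = Point.some (toShortX W x) (toShortY W x y)
          (Fermat.Agent.S52.toShort_nonsingular h2 h3 h) := rfl

omit [DecidableEq F] in
lemma shortHom_toShortEquiv_zero (h2 : (2 : F) ≠ 0) (h3 : (3 : F) ≠ 0) :
    toShortEquiv W h2 h3 (0 : W.toAffine.Point) = 0 := rfl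

/-- **additivity** of the bijection onto the short model -/
theorem shortHom_toShortEquiv_add (h2 : (2 : F) ≠ 0) (h3 : (3 : F) ≠ 0)
    (P Q : W.toAffine.Point) :
    toShortEquiv W h2 h3 (P + Q) = toShortEquiv W h2 h3 P + toShortEquiv W h2 h3 Q := by
  rcases P with _ | ⟨x₁, y₁, h₁⟩
  · change toShortEquiv W h2 h3 (0 + Q) = 0 + toShortEquiv W h2 h3 Q
    rw [zero_add, zero_add]
  rcases Q with _ | ⟨x₂, y₂, h₂⟩
  · change toShortEquiv W h2 h3 (Point.some x₁ y₁ h₁ + 0)
      = toShortEquiv W h2 h3 (Point.some x₁ y₁ h₁) + 0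
    rw [add_zero, add_zero]
  by_cases hxy : x₁ = x₂ ∧ y₁ = W.toAffine.negY x₂ y₂
  · rw [Point.add_of_Y_eq hxy.1 hxy.2, shortHom_toShortEquiv_zero,
      shortHom_toShortEquiv_some, shortHom_toShortEquiv_some]
    symm
    apply Point.add_of_Y_eq
    · rw [hxy.1]
    · rw [shortHom_negY, hxy.1, hxy.2]
  · have hXY : ¬(toShortX W x₁ = toShortX W x₂ ∧
        toShortY W x₁ y₁ = (shortModel W).toAffine.negY (toShortX W x₂) (toShortY W x₂ y₂)) := by
      rintro ⟨hX, hY⟩
      have hx := shortHom_toShortX_inj W h2 h3 hX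
      apply hxy
      refine ⟨hx, ?_⟩
      subst hx
      rw [shortHom_negY] at hY
      exact shortHom_toShortY_inj W h2 h3 hY
    rw [Point.add_some hxy, shortHom_toShortEquiv_some, shortHom_toShortEquiv_some,
      shortHom_toShortEquiv_some, Point.add_some hXY]
    have hsl := shortHom_slope W h2 h3 h₁.1 h₂.1 hxy
    have hX : toShortX W (W.toAffine.addX x₁ x₂ (W.toAffine.slope x₁ x₂ y₁ y₂))
        = (shortModel W).toAffine.addX (toShortX W x₁) (toShortX W x₂)
            ((shortModel W).toAffine.slope (toShortX W x₁) (toShortX W x₂) (toShortY W x₁ y₁)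
              (toShortY W x₂ y₂)) := by
      rw [hsl]
      simp only [Affine.addX, shortHom_a₁, shortHom_a₂, toShortX, WeierstrassCurve.b₂]
      ring
    have hY : toShortY W (W.toAffine.addX x₁ x₂ (W.toAffine.slope x₁ x₂ y₁ y₂))
          (W.toAffine.addY x₁ x₂ y₁ (W.toAffine.slope x₁ x₂ y₁ y₂))
        = (shortModel W).toAffine.addY (toShortX W x₁) (toShortX W x₂) (toShortY W x₁ y₁)
            ((shortModel W).toAffine.slope (toShortX W x₁) (toShortX W x₂) (toShortY W x₁ y₁)
              (toShortY W x₂ y₂)) := by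
      rw [hsl]
      simp only [Affine.addY, Affine.negAddY, Affine.addX, Affine.negY, shortHom_a₁, shortHom_a₂,
        shortHom_a₃, toShortX, toShortY, WeierstrassCurve.b₂]
      ring
    simp only [Point.some.injEq]
    exact ⟨hX, hY⟩

/-- the bijection onto the short model as an additive isomorphism -/
noncomputable def shortHomAddEquiv (h2 : (2 : F) ≠ 0) (h3 : (3 : F) ≠ 0) :
    W.toAffine.Point ≃+ (shortModel W).toAffine.Point :=
  { toShortEquiv W h2 h3 with
    map_add' := shortHom_toShortEquiv_add W h2 h3 }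

/-- transport of points along an equality of curves -/
noncomputable def shortHomCongr {W₁ W₂ : Affine F} (h : W₁ = W₂) : W₁.Point ≃+ W₂.Point :=
  h ▸ AddEquiv.refl _

lemma shortHomCongr_some {W₁ W₂ : Affine F} (h : W₁ = W₂) {x y : F}
    (hxy : W₁.Nonsingular x y) :
    shortHomCongr h (Point.some x y hxy) = Point.some x y (h ▸ hxy) := by
  subst h
  rfl

lemma shortHomCongr_zero {W₁ W₂ : Affine F} (h : W₁ = W₂) :
    shortHomCongr h (0 : W₁.Point) = 0 := map_zero _

end Field

section BaseChange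

variable {R : Type*} [CommRing R] (W : WeierstrassCurve R)
variable (k : Type*) [Field k] [Algebra R k]

lemma shortHom_baseChange_eq :
    shortModel (W.baseChange k) = (shortW (-27 * W.c₄) (-54 * W.c₆)).baseChange k := by
  simp only [shortModel, WeierstrassCurve.baseChange, shortW, WeierstrassCurve.map_c₄,
    WeierstrassCurve.map_c₆]
  ext <;> simp [WeierstrassCurve.map, map_neg, map_mul, map_ofNat]

variable [DecidableEq k]

/-- the short model as a group isomorphism over an extension field -/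
noncomputable def shortHomBase (h2 : (2 : k) ≠ 0) (h3 : (3 : k) ≠ 0) :
    (W⁄k).Point ≃+ ((shortW (-27 * W.c₄) (-54 * W.c₆))⁄k).Point :=
  (shortHomAddEquiv (W.baseChange k) h2 h3).trans (shortHomCongr (shortHom_baseChange_eq W k))

lemma shortHomBase_zero (h2 : (2 : k) ≠ 0) (h3 : (3 : k) ≠ 0) :
    shortHomBase W k h2 h3 0 = 0 := map_zero _

lemma shortHomBase_some (h2 : (2 : k) ≠ 0) (h3 : (3 : k) ≠ 0) {x y : k}
    (h : (W⁄k).Nonsingular x y) :
    ∃ h' : ((shortW (-27 * W.c₄) (-54 * W.c₆))⁄k).Nonsingular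
        (toShortX (W.baseChange k) x) (toShortY (W.baseChange k) x y),
      shortHomBase W k h2 h3 (Point.some x y h) = Point.some _ _ h' := by
  have h0 := Fermat.Agent.S52.toShort_nonsingular (W := W.baseChange k) h2 h3 h
  have h1 : ((shortW (-27 * W.c₄) (-54 * W.c₆))⁄k).Nonsingular
      (toShortX (W.baseChange k) x) (toShortY (W.baseChange k) x y) := by
    have e := shortHom_baseChange_eq W k
    exact (congrArg (fun E : WeierstrassCurve.Affine k =>
      E.Nonsingular (toShortX (W.baseChange k) x) (toShortY (W.baseChange k) x y)) e).mp h0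
  refine ⟨h1, ?_⟩
  simp only [shortHomBase, AddEquiv.trans_apply]
  exact shortHomCongr_some (shortHom_baseChange_eq W k) _

/-- compatibility with maps induced by algebra homomorphisms -/
theorem shortHomBase_map {k' : Type*} [Field k'] [Algebra R k'] [DecidableEq k']
    (h2 : (2 : k) ≠ 0) (h3 : (3 : k) ≠ 0) (h2' : (2 : k') ≠ 0) (h3' : (3 : k') ≠ 0)
    (f : k →ₐ[R] k') (P : (W⁄k).Point) :
    shortHomBase W k' h2' h3' (Affine.Point.map (W' := W) f P)
      = Affine.Point.map (W' := shortW (-27 * W.c₄) (-54 * W.c₆)) f (shortHomBase W k h2 h3 P) := by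
  rcases P with _ | ⟨x, y, h⟩
  · change shortHomBase W k' h2' h3' (Affine.Point.map (W' := W) f 0)
      = Affine.Point.map (W' := shortW (-27 * W.c₄) (-54 * W.c₆)) f (shortHomBase W k h2 h3 0)
    rw [map_zero, shortHomBase_zero, shortHomBase_zero, map_zero]
  · obtain ⟨h', e'⟩ := shortHomBase_some W k h2 h3 h
    rw [e', Affine.Point.map_some, Affine.Point.map_some]
    obtain ⟨h'', e''⟩ := shortHomBase_some W k' h2' h3'
      ((Affine.baseChange_nonsingular (W := W) f.injective x y).mpr h)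
    rw [e'']
    simp only [Point.some.injEq]
    constructor
    · simp only [toShortX, WeierstrassCurve.baseChange, WeierstrassCurve.map_b₂, map_add, map_mul,
        map_ofNat, AlgHom.commutes]
    · simp only [toShortY, WeierstrassCurve.baseChange, WeierstrassCurve.map_a₁,
        WeierstrassCurve.map_a₃, map_add, map_mul, map_ofNat, AlgHom.commutes]

end BaseChange

theorem shortW_Δ_ne_zero {ℓ : ℕ} [Fact ℓ.Prime] (h5 : 5 ≤ ℓ) (W : WeierstrassCurve (ZMod ℓ))
    (hΔ : W.Δ ≠ 0) : (shortW (-27 * W.c₄) (-54 * W.c₆)).Δ ≠ 0 := by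
  have hprime : ℓ.Prime := Fact.out
  have h2 : (2 : ZMod ℓ) ≠ 0 := by
    have : ((2 : ℕ) : ZMod ℓ) ≠ 0 := by
      rw [Ne, ZMod.natCast_eq_zero_iff]
      intro h
      have := Nat.le_of_dvd (by norm_num) h
      omega
    exact_mod_cast this
  have h3 : (3 : ZMod ℓ) ≠ 0 := by
    have : ((3 : ℕ) : ZMod ℓ) ≠ 0 := by
      rw [Ne, ZMod.natCast_eq_zero_iff]
      intro h
      have := Nat.le_of_dvd (by norm_num) h
      omega
    exact_mod_cast this
  have hrel := W.c_relation
  have e : (shortW (-27 * W.c₄) (-54 * W.c₆)).Δ = 2 ^ 12 * 3 ^ 12 * W.Δ := by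
    have e1 : (shortW (-27 * W.c₄) (-54 * W.c₆)).Δ
        = -16 * (4 * (-27 * W.c₄) ^ 3 + 27 * (-54 * W.c₆) ^ 2) := by
      simp only [shortW, WeierstrassCurve.Δ, WeierstrassCurve.b₂, WeierstrassCurve.b₄,
        WeierstrassCurve.b₆, WeierstrassCurve.b₈]
      ring
    rw [e1]
    linear_combination (-1259712 : ZMod ℓ) * hrel
  rw [e]
  exact mul_ne_zero (mul_ne_zero (pow_ne_zero _ h2) (pow_ne_zero _ h3)) hΔ

theorem exists_shortHom {ℓ : ℕ} [Fact ℓ.Prime] (h5 : 5 ≤ ℓ) (W : WeierstrassCurve (ZMod ℓ))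
    (k : Type*) [Field k] [Algebra (ZMod ℓ) k] [DecidableEq k] :
    ∃ h : (W⁄k).Point →+ ((shortW (-27 * W.c₄) (-54 * W.c₆))⁄k).Point,
      Function.Injective h ∧
      ∀ P, h (frobPt W k P) = frobPt (shortW (-27 * W.c₄) (-54 * W.c₆)) k (h P) := by
  have hprime : ℓ.Prime := Fact.out
  have h2 : (2 : ZMod ℓ) ≠ 0 := by
    have : ((2 : ℕ) : ZMod ℓ) ≠ 0 := by
      rw [Ne, ZMod.natCast_eq_zero_iff]
      intro h
      have := Nat.le_of_dvd (by norm_num) h
      omega
    exact_mod_cast this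
  have h3 : (3 : ZMod ℓ) ≠ 0 := by
    have : ((3 : ℕ) : ZMod ℓ) ≠ 0 := by
      rw [Ne, ZMod.natCast_eq_zero_iff]
      intro h
      have := Nat.le_of_dvd (by norm_num) h
      omega
    exact_mod_cast this
  have hinj := FaithfulSMul.algebraMap_injective (ZMod ℓ) k
  have h2k : (2 : k) ≠ 0 := by
    rw [← map_ofNat (algebraMap (ZMod ℓ) k) 2]
    exact (map_ne_zero_iff _ hinj).mpr h2
  have h3k : (3 : k) ≠ 0 := by
    rw [← map_ofNat (algebraMap (ZMod ℓ) k) 3]
    exact (map_ne_zero_iff _ hinj).mpr h3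
  refine ⟨(shortHomBase W k h2k h3k).toAddMonoidHom, (shortHomBase W k h2k h3k).injective, ?_⟩
  intro P
  exact shortHomBase_map W k h2k h3k h2k h3k (FiniteField.frobeniusAlgHom (ZMod ℓ) k) P

end Fermat.Agent.FrobTrace
end MergeWrap_Lib_FrobTrace_ShortHom

section MergeWrap_Lib_FrobTrace_CharEqGen -- from Lib/FrobTrace/CharEqGen.lean

/-!
# FrobTrace / CharEqGen: `φ² - a φ + ℓ = 0` for a general Weierstrass equation over `F_ℓ`, `ℓ ≥ 5`
(owner: helper4)
-/

set_option autoImplicit false

open WeierstrassCurve WeierstrassCurve.Affine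

namespace Fermat.Agent.FrobTrace

open Fermat.Agent.S52 (shortW frobPt)

theorem frobCharEq_gen {ℓ : ℕ} [Fact ℓ.Prime] (h5 : 5 ≤ ℓ) (W : WeierstrassCurve (ZMod ℓ))
    (hΔ : W.Δ ≠ 0) (k : Type) [Field k] [Algebra (ZMod ℓ) k] [IsAlgClosed k] [DecidableEq k]
    (P : (W⁄k).Point) :
    frobPt W k (frobPt W k P) - W.traceOfFrobenius • frobPt W k P + (ℓ : ℤ) • P = 0 := by
  have hprime : ℓ.Prime := Fact.out
  have h2 : (2 : ZMod ℓ) ≠ 0 := by
    have : ((2 : ℕ) : ZMod ℓ) ≠ 0 := by
      rw [Ne, ZMod.natCast_eq_zero_iff]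
      intro h
      have := Nat.le_of_dvd (by norm_num) h
      omega
    exact_mod_cast this
  have h3 : (3 : ZMod ℓ) ≠ 0 := by
    have : ((3 : ℕ) : ZMod ℓ) ≠ 0 := by
      rw [Ne, ZMod.natCast_eq_zero_iff]
      intro h
      have := Nat.le_of_dvd (by norm_num) h
      omega
    exact_mod_cast this
  obtain ⟨h, hinj, hfrob⟩ := exists_shortHom h5 W k
  apply hinj
  rw [map_zero, map_add, map_sub, map_zsmul, map_zsmul, hfrob, hfrob,
    Fermat.Agent.S52.traceOfFrobenius_eq_shortModel W h2 h3]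
  exact Fermat.Agent.F1.frobCharEq ℓ h5 _ _ (shortW_Δ_ne_zero h5 W hΔ) k (h P)

end Fermat.Agent.FrobTrace
end MergeWrap_Lib_FrobTrace_CharEqGen
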