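import Mathlib
import Fermat.Prelude.Def_FLTPrelim_Modularity
import Fermat.Prelude.Def_EllipticCurve_FrobeniusTrace
import Fermat.Agent.S52.Iface
import Fermat.Agent.MU.Lib.EllRed.Hom
import Fermat.Agent.Lib.EllRed.Galois
import Fermat.Agent.MU.Lib.EllRed.Qbar

section MergeWrap_Lib_FrobTrace_EllRed -- from Lib/FrobTrace/EllRed.lean

/-!
# FrobTrace / EllRed: the reduction homomorphism at a good prime (owner: see blueprint)

`W / ℤ`, `ℓ ∤ Δ`, `A` a valuation subring of `Q̄` over `ℓ`, `k_A` its residue field.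
`red : E(Q̄) → Ē(k_A)`, `O ↦ O`, `(x, y) ↦ (x̄, ȳ)` if `x ∈ A`, else `O`, is a group homomorphism,
injective on prime-to-`ℓ` torsion, and intertwines a Frobenius element at `A` with `φ`.
Base: S05 library (`S05H75.InG1`, `inG1_torsion_free`, `S05H5.sub_eq_zero_or_one_lt_v_px`).
-/

set_option autoImplicit false

open WeierstrassCurve WeierstrassCurve.Affine WeierstrassCurve.Affine.Point

namespace Fermat.Agent.FrobTrace

open Fermat.Agent.S52 (frobPt)
open Fermat.Agent.EllRed IsLocalRing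

theorem exists_reduction (W : WeierstrassCurve ℤ) {ℓ : ℕ} [Fact ℓ.Prime]
    (hgood : W.IsGoodPrimeFor ℓ) [DecidableEq (AlgebraicClosure ℚ)]
    (A : ValuationSubring (AlgebraicClosure ℚ)) (hA : A.LiesOverPrime ℓ)
    [Algebra (ZMod ℓ) (IsLocalRing.ResidueField A)] [DecidableEq (IsLocalRing.ResidueField A)] :
    ∃ red : ((W.map (Int.castRingHom ℚ))⁄(AlgebraicClosure ℚ)).Point →+
        ((W.reductionMod ℓ)⁄(IsLocalRing.ResidueField A)).Point,
      (∀ (n : ℕ), ¬ ℓ ∣ n → ∀ P, n • P = 0 → red P = 0 → P = 0) ∧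
      (∀ τ : AlgebraicClosure ℚ ≃ₐ[ℚ] AlgebraicClosure ℚ, A.IsFrobeniusAt τ ℓ →
        ∀ P, red (τ • P) = frobPt (W.reductionMod ℓ) (IsLocalRing.ResidueField A) (red P)) := by
  have h : IsReduction A ((W.map (Int.castRingHom ℚ))⁄(AlgebraicClosure ℚ))
      ((W.reductionMod ℓ)⁄(IsLocalRing.ResidueField A)) := isReduction_of_model A W ℓ
  have hΔ : ((W.reductionMod ℓ)⁄(IsLocalRing.ResidueField A)).Δ ≠ 0 :=
    Δ_ne_zero_of_good A W ℓ hgood
  have hval : ∀ n : ℕ, ¬ ℓ ∣ n → A.valuation (n : AlgebraicClosure ℚ) = 1 :=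
    fun n hn => valuation_natCast_eq_one (Fact.out : ℓ.Prime) hA hn
  refine ⟨redHom h hΔ, ?_, ?_⟩
  · intro n hn P hnP hP
    exact eq_zero_of_redHom_eq_zero h hΔ (hval n hn) hnP hP
  · intro τ hτ P
    rcases P with _ | ⟨x, y, hxy⟩
    · rfl
    · obtain ⟨x', y', hxy', hP', hx', hy'⟩ : ∃ (x' y' : AlgebraicClosure ℚ)
          (hxy' : ((W.map (Int.castRingHom ℚ))⁄(AlgebraicClosure ℚ)).Nonsingular x' y'),
          τ • (Point.some x y hxy : ((W.map (Int.castRingHom ℚ))⁄(AlgebraicClosure ℚ)).Point)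
            = Point.some x' y' hxy' ∧ x' = τ x ∧ y' = τ y := ⟨_, _, _, rfl, rfl, rfl⟩
      rw [hP', redHom_apply, redHom_apply]
      by_cases hx : x ∈ A
      · have hτx : x' ∈ A := by rw [hx']; exact (apply_mem_iff_of_isFrobeniusAt hτ x).mpr hx
        have hy : y ∈ A := h.mem_y hxy.1 hx
        rw [red_some_of_mem h hΔ _ hτx, red_some_of_mem h hΔ hxy hx]
        simp only [frobPt]
        rw [Point.map_some, Point.some.injEq]
        have hcard : Fintype.card (ZMod ℓ) = ℓ := ZMod.card ℓ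
        constructor
        · show res A x' = (res A x) ^ (Fintype.card (ZMod ℓ))
          rw [hcard, hx']
          exact res_apply_of_isFrobeniusAt hτ hx
        · show res A y' = (res A y) ^ (Fintype.card (ZMod ℓ))
          rw [hcard, hy']
          exact res_apply_of_isFrobeniusAt hτ hy
      · have hτx : x' ∉ A := by
          rw [hx']
          exact fun hm => hx ((apply_mem_iff_of_isFrobeniusAt hτ x).mp hm)
        rw [red_some_of_not_mem h hΔ _ hτx, red_some_of_not_mem h hΔ hxy hx]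
        rfl

end Fermat.Agent.FrobTrace
end MergeWrap_Lib_FrobTrace_EllRed
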