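import Mathlib
import Fermat.Agent.MU.Lib.FrobDensity.Main
import Fermat.Agent.Lib.Cyclo.ModCharGlobal
import Fermat.Agent.MU.F1.Final
import Fermat.Agent.MU.Lib.FrobTrace.CharEqGen
import Fermat.Agent.Lib.FrobTrace.Residue
import Fermat.Agent.MU.Lib.FrobTrace.EllRed
import Fermat.Agent.MU.Lib.Torsion.Card
import Fermat.Agent.S13.OpenStab

section MergeWrap_Lib_FrobTrace_DetTrace -- from Lib/FrobTrace/DetTrace.lean

/-!
# Determinant and trace from the Cayley–Hamilton relation of Frobenius elements (helper96)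

Abstract core of "F1-full" WITHOUT Weil pairing.  Let `R` be a local ring, `ρ : G →* M₂(R)` and
`χ : G →* R` (think: `G = Gal(Q̄/Q)`, `ρ` = action on `E[p^j]`, `χ` = cyclotomic character).
Assume a set `Frob ⊆ G` of "good Frobenius elements" with numbers `a τ : R` such that
`ρ τ * ρ τ - a τ • ρ τ + χ τ • 1 = 0` (the relation `φ² - a_ℓ φ + ℓ = 0` of `F1.frobCharEq`,
transported by the reduction map), which is dense in the weak sense of `Lib/FrobDensity`
(every `g` is, modulo `ker ρ ∩ ker χ`, a power of a Frobenius element).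
If some `ρ g₀` is not a scalar modulo the maximal ideal (e.g. `ρ mod 𝔪` irreducible), then
`det ρ = χ` on all of `G` and `tr (ρ τ) = a τ` for every `τ ∈ Frob`, scalar or not.
-/

set_option autoImplicit false

open Matrix

namespace Fermat.Agent.FrobTrace

variable {R : Type*} [CommRing R] [IsLocalRing R]

/-- `T` is a scalar matrix modulo the maximal ideal. -/
def IsScalarMod (T : Matrix (Fin 2) (Fin 2) R) : Prop :=
  T 0 1 ∈ IsLocalRing.maximalIdeal R ∧ T 1 0 ∈ IsLocalRing.maximalIdeal R ∧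
    T 0 0 - T 1 1 ∈ IsLocalRing.maximalIdeal R

lemma isScalarMod_iff_residue (T : Matrix (Fin 2) (Fin 2) R) :
    IsScalarMod T ↔ IsLocalRing.residue R (T 0 1) = 0 ∧ IsLocalRing.residue R (T 1 0) = 0 ∧
      IsLocalRing.residue R (T 0 0) = IsLocalRing.residue R (T 1 1) := by
  unfold IsScalarMod
  rw [← IsLocalRing.residue_eq_zero_iff, ← IsLocalRing.residue_eq_zero_iff,
    ← IsLocalRing.residue_eq_zero_iff, map_sub, sub_eq_zero]

lemma isScalarMod_one : IsScalarMod (1 : Matrix (Fin 2) (Fin 2) R) := by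
  rw [isScalarMod_iff_residue]
  simp

lemma IsScalarMod.mul {S T : Matrix (Fin 2) (Fin 2) R} (hS : IsScalarMod S)
    (hT : IsScalarMod T) : IsScalarMod (S * T) := by
  rw [isScalarMod_iff_residue] at hS hT ⊢
  obtain ⟨s01, s10, s00⟩ := hS
  obtain ⟨t01, t10, t00⟩ := hT
  simp only [Matrix.mul_apply, Fin.sum_univ_two, map_add, map_mul]
  refine ⟨?_, ?_, ?_⟩
  · rw [s01, t01]; ring
  · rw [s10, t10]; ring
  · rw [s01, s10, t01, t10, s00, t00]; ring

lemma IsScalarMod.pow {T : Matrix (Fin 2) (Fin 2) R} (hT : IsScalarMod T) (j : ℕ) :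
    IsScalarMod (T ^ j) := by
  induction j with
  | zero => simpa using isScalarMod_one
  | succ j ih => rw [pow_succ]; exact ih.mul hT

/-- A scalar multiple by a unit of the ring. -/
lemma isScalarMod_of_smul {T : Matrix (Fin 2) (Fin 2) R} {u : R} (hu : IsUnit u)
    (h : IsScalarMod (u • T)) : IsScalarMod T := by
  rw [isScalarMod_iff_residue] at h ⊢
  have hu' : IsLocalRing.residue R u ≠ 0 := by
    intro h0
    rw [IsLocalRing.residue_eq_zero_iff] at h0
    exact h0 hu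
  simp only [Matrix.smul_apply, smul_eq_mul, map_mul] at h
  obtain ⟨h01, h10, h00⟩ := h
  refine ⟨?_, ?_, ?_⟩
  · exact (mul_eq_zero.mp h01).resolve_left hu'
  · exact (mul_eq_zero.mp h10).resolve_left hu'
  · exact mul_left_cancel₀ hu' h00

/-- The adjugate of a scalar-mod-`𝔪` matrix is scalar mod `𝔪`. -/
lemma IsScalarMod.adjugate {T : Matrix (Fin 2) (Fin 2) R} (hT : IsScalarMod T) :
    IsScalarMod T.adjugate := by
  rw [isScalarMod_iff_residue] at hT ⊢
  obtain ⟨t01, t10, t00⟩ := hT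
  rw [Matrix.adjugate_fin_two]
  simp only [Matrix.of_apply, Matrix.cons_val_zero, Matrix.cons_val_one, Matrix.cons_val',
    Matrix.cons_val_fin_one, map_neg]
  exact ⟨by rw [t01, neg_zero], by rw [t10, neg_zero], t00.symm⟩

/-- If `S` is invertible and scalar mod `𝔪`, and `S * T` is scalar mod `𝔪`, so is `T`. -/
lemma isScalarMod_of_mul {S T : Matrix (Fin 2) (Fin 2) R} (hSu : IsUnit S.det)
    (hS : IsScalarMod S) (hST : IsScalarMod (S * T)) : IsScalarMod T := by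
  have h := hS.adjugate.mul hST
  rw [← Matrix.mul_assoc, Matrix.adjugate_mul, Matrix.smul_mul, Matrix.one_mul] at h
  exact isScalarMod_of_smul hSu h

omit [IsLocalRing R] in
/-- Cayley–Hamilton for `2 × 2` matrices, explicit form. -/
lemma cayley_two (T : Matrix (Fin 2) (Fin 2) R) :
    T * T - T.trace • T + T.det • (1 : Matrix (Fin 2) (Fin 2) R) = 0 := by
  ext i j
  fin_cases i <;> fin_cases j <;>
    simp [Matrix.mul_apply, Fin.sum_univ_two, Matrix.trace_fin_two, Matrix.det_fin_two] <;> ring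

omit [IsLocalRing R] in
/-- Cayley–Hamilton minus the given relation. -/
lemma sub_smul_eq_of_relation {T : Matrix (Fin 2) (Fin 2) R} {a l : R}
    (h : T * T - a • T + l • (1 : Matrix (Fin 2) (Fin 2) R) = 0) :
    (T.trace - a) • T = (T.det - l) • (1 : Matrix (Fin 2) (Fin 2) R) := by
  have hc := cayley_two T
  have : (T.trace - a) • T - (T.det - l) • (1 : Matrix (Fin 2) (Fin 2) R)
      = (T * T - a • T + l • (1 : Matrix (Fin 2) (Fin 2) R))
        - (T * T - T.trace • T + T.det • (1 : Matrix (Fin 2) (Fin 2) R)) := by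
    simp only [sub_smul]
    abel
  rw [h, hc, sub_zero] at this
  exact sub_eq_zero.mp this

/-- If `T² - a T + ℓ = 0` and `T` is not scalar modulo `𝔪`, then `tr T = a` and `det T = ℓ`. -/
lemma trace_det_of_not_isScalarMod {T : Matrix (Fin 2) (Fin 2) R} {a l : R}
    (h : T * T - a • T + l • (1 : Matrix (Fin 2) (Fin 2) R) = 0) (hT : ¬ IsScalarMod T) :
    T.trace = a ∧ T.det = l := by
  have hsub := sub_smul_eq_of_relation h
  have e01 := congrFun (congrFun hsub 0) 1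
  have e10 := congrFun (congrFun hsub 1) 0
  have e00 := congrFun (congrFun hsub 0) 0
  have e11 := congrFun (congrFun hsub 1) 1
  simp only [Matrix.smul_apply, smul_eq_mul, Matrix.one_apply, Fin.isValue, ne_eq,
    zero_ne_one, one_ne_zero, not_false_eq_true, if_false, if_true, mul_zero, mul_one,
    Fin.reduceEq] at e01 e10 e00 e11
  have hu : T.trace - a = 0 := by
    by_contra hne
    apply hT
    have key : ∀ x : R, (T.trace - a) * x = 0 → x ∈ IsLocalRing.maximalIdeal R := by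
      intro x hx
      by_contra hxm
      have hxu : IsUnit x := by
        rwa [IsLocalRing.mem_maximalIdeal, mem_nonunits_iff, not_not] at hxm
      exact hne (hxu.mul_left_eq_zero.mp hx)
    refine ⟨key _ e01, key _ e10, key _ ?_⟩
    rw [mul_sub, e00, e11, sub_self]
  refine ⟨sub_eq_zero.mp hu, ?_⟩
  rw [hu, zero_mul] at e00
  exact sub_eq_zero.mp e00.symm

omit [IsLocalRing R] in
/-- If `T² - a T + ℓ = 0`, `det T = ℓ` and `det T` is a unit, then `tr T = a`. -/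
lemma trace_of_det {T : Matrix (Fin 2) (Fin 2) R} {a l : R}
    (h : T * T - a • T + l • (1 : Matrix (Fin 2) (Fin 2) R) = 0) (hd : T.det = l)
    (hu : IsUnit T.det) : T.trace = a := by
  have hsub := sub_smul_eq_of_relation h
  rw [hd, sub_self, zero_smul] at hsub
  -- multiply by the adjugate
  have h2 : (T.trace - a) • (T.det • (1 : Matrix (Fin 2) (Fin 2) R)) = 0 := by
    rw [← Matrix.mul_adjugate, ← Matrix.smul_mul, hsub, Matrix.zero_mul]
  have h3 := congrFun (congrFun h2 0) 0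
  simp only [Matrix.smul_apply, smul_eq_mul, Matrix.one_apply, if_true, mul_one,
    Matrix.zero_apply] at h3
  exact sub_eq_zero.mp (hu.mul_left_eq_zero.mp h3)

section Group

variable {G : Type*} [Group G]

omit [IsLocalRing R] in
lemma isUnit_det_of_monoidHom (ρ : G →* Matrix (Fin 2) (Fin 2) R) (g : G) :
    IsUnit (ρ g).det := by
  have h : ρ g * ρ g⁻¹ = 1 := by rw [← map_mul, mul_inv_cancel, map_one]
  have := congrArg Matrix.det h
  rw [Matrix.det_mul, Matrix.det_one] at this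
  exact IsUnit.of_mul_eq_one _ this

/-- **Determinant and trace from the Frobenius relation** (indexed form).  `ρ : G →* M₂(R)` over
a local ring, `χ : G →* R`, a family `τ i` of elements satisfying
`ρ (τ i) ² - a i • ρ (τ i) + χ (τ i) = 0`, dense in the weak sense that every `g` is a power of
some `τ i` modulo `ker ρ ∩ ker χ`.  If the image of `ρ` is not scalar modulo `𝔪`, then
`det ρ = χ` everywhere and `tr ρ (τ i) = a i` for all `i`. -/
theorem det_trace_of_relation_indexed {ι : Type*} (ρ : G →* Matrix (Fin 2) (Fin 2) R)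
    (χ : G →* R) (τ : ι → G) (a : ι → R)
    (hBr : ∀ i, ρ (τ i) * ρ (τ i) - a i • ρ (τ i)
      + χ (τ i) • (1 : Matrix (Fin 2) (Fin 2) R) = 0)
    (hdens : ∀ g : G, ∃ i, ∃ j : ℕ, ρ g = ρ (τ i) ^ j ∧ χ g = χ (τ i) ^ j)
    (g₀ : G) (hg₀ : ¬ IsScalarMod (ρ g₀)) :
    (∀ g, (ρ g).det = χ g) ∧ ∀ i, (ρ (τ i)).trace = a i := by
  -- non-scalar elements
  have hns : ∀ g, ¬ IsScalarMod (ρ g) → (ρ g).det = χ g := by
    intro g hg
    obtain ⟨i, j, hρ, hχ⟩ := hdens g
    have hτns : ¬ IsScalarMod (ρ (τ i)) := fun hs => hg (hρ ▸ hs.pow j)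
    have hdet := (trace_det_of_not_isScalarMod (hBr i) hτns).2
    rw [hρ, hχ, Matrix.det_pow, hdet]
  have hdet : ∀ g, (ρ g).det = χ g := by
    intro g
    by_cases hg : IsScalarMod (ρ g)
    · have hgg₀ : ¬ IsScalarMod (ρ (g * g₀)) := by
        intro hs
        rw [map_mul] at hs
        exact hg₀ (isScalarMod_of_mul (isUnit_det_of_monoidHom ρ g) hg hs)
      have h1 := hns (g * g₀) hgg₀
      have h2 := hns g₀ hg₀
      rw [map_mul, Matrix.det_mul, map_mul, h2] at h1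
      have hu : IsUnit (χ g₀) := h2 ▸ isUnit_det_of_monoidHom ρ g₀
      exact hu.mul_left_injective h1
    · exact hns g hg
  refine ⟨hdet, fun i => ?_⟩
  exact trace_of_det (hBr i) (hdet (τ i)) (isUnit_det_of_monoidHom ρ (τ i))

/-- **Determinant and trace from the Frobenius relation.**  `ρ : G →* M₂(R)` over a local ring,
`χ : G →* R`, a set `Frob` of elements satisfying `ρ τ ² - a τ • ρ τ + χ τ = 0`, dense in the weak
sense that every `g` is a power of some `τ ∈ Frob` modulo `ker ρ ∩ ker χ`.  If the image of `ρ` is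
not scalar modulo `𝔪`, then `det ρ = χ` everywhere and `tr ρ τ = a τ` on `Frob`. -/
theorem det_trace_of_relation (ρ : G →* Matrix (Fin 2) (Fin 2) R) (χ : G →* R) (Frob : Set G)
    (a : G → R)
    (hBr : ∀ τ ∈ Frob, ρ τ * ρ τ - a τ • ρ τ + χ τ • (1 : Matrix (Fin 2) (Fin 2) R) = 0)
    (hdens : ∀ g : G, ∃ τ ∈ Frob, ∃ j : ℕ, ρ g = ρ τ ^ j ∧ χ g = χ τ ^ j)
    (g₀ : G) (hg₀ : ¬ IsScalarMod (ρ g₀)) :
    (∀ g, (ρ g).det = χ g) ∧ ∀ τ ∈ Frob, (ρ τ).trace = a τ := by
  obtain ⟨h1, h2⟩ := det_trace_of_relation_indexed ρ χ (fun t : Frob => (t : G))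
    (fun t : Frob => a t) (fun t => hBr t t.2)
    (fun g => by
      obtain ⟨τ, hτ, j, h⟩ := hdens g
      exact ⟨⟨τ, hτ⟩, j, h⟩) g₀ hg₀
  exact ⟨h1, fun τ hτ => h2 ⟨τ, hτ⟩⟩

end Group

end Fermat.Agent.FrobTrace
end MergeWrap_Lib_FrobTrace_DetTrace

section MergeWrap_Lib_FrobTrace_DetTraceGal -- from Lib/FrobTrace/DetTraceGal.lean

/-!
# Determinant and trace of a `G_ℚ`-representation from the Frobenius relations (helper96)

`ρ : G_ℚ →* M₂(R)` with open kernel over a local ring `R` which is a `ZMod n`-algebra, such that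
for all primes `ℓ` outside a finite set `S` (containing the prime divisors of `n`) and every
Frobenius element `τ` at `ℓ`:  `ρ τ ² - a ℓ • ρ τ + ℓ = 0`.
If some `ρ g₀` is not scalar modulo the maximal ideal, then `det ρ` is the mod `n` cyclotomic
character, and `tr ρ τ = a ℓ`, `det ρ τ = ℓ` for ALL such Frobenius elements.
No Weil pairing is used: the input is the relation (from `F1.frobCharEq` + reduction) and the
weak Chebotarev theorem `Lib/FrobDensity`.
-/

set_option autoImplicit false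

open Matrix

namespace Fermat.Agent.FrobTrace

open Fermat.Agent.Cyclo (Qb GQ modChar)

/-- The kernel of the mod `n` cyclotomic character is open. -/
theorem isOpen_modChar_eq_one (n : ℕ) [NeZero n] : IsOpen {σ : GQ | modChar n σ = 1} := by
  obtain ⟨L, hfd, -, hL⟩ := Fermat.Agent.Cyclo.modChar_finiteLevel n
  have hopen : IsOpen (L.fixingSubgroup : Set GQ) := L.fixingSubgroup_isOpen
  have hle : L.fixingSubgroup ≤ (modChar n).ker := by
    intro σ hσ
    rw [MonoidHom.mem_ker]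
    apply hL
    intro x hx
    exact (IntermediateField.mem_fixingSubgroup_iff L σ).mp hσ x hx
  have := Subgroup.isOpen_mono hle hopen
  have hset : ((modChar n).ker : Set GQ) = {σ : GQ | modChar n σ = 1} := by
    ext σ
    simp [MonoidHom.mem_ker]
  rw [← hset]
  exact this

variable {R : Type*} [CommRing R] [IsLocalRing R]

/-- **Determinant and trace of Frobenius from the Frobenius relations** (`G_ℚ`-version). -/
theorem det_trace_of_frobenius (n : ℕ) [NeZero n] (φ : ZMod n →+* R)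
    (ρ : GQ →* Matrix (Fin 2) (Fin 2) R) (hρ : IsOpen {σ : GQ | ρ σ = 1}) (S : Finset ℕ)
    (a : ℕ → R) (hS : ∀ ℓ : ℕ, ℓ.Prime → ℓ ∣ n → ℓ ∈ S)
    (hBr : ∀ ℓ : ℕ, ℓ.Prime → ℓ ∉ S → ∀ (A : ValuationSubring Qb) (τ : GQ),
      A.LiesOverPrime ℓ → A.IsFrobeniusAt τ ℓ →
        ρ τ * ρ τ - a ℓ • ρ τ + (ℓ : R) • (1 : Matrix (Fin 2) (Fin 2) R) = 0)
    (g₀ : GQ) (hg₀ : ¬ IsScalarMod (ρ g₀)) :
    (∀ g : GQ, (ρ g).det = φ ((modChar n g : (ZMod n)ˣ) : ZMod n)) ∧
      ∀ ℓ : ℕ, ℓ.Prime → ℓ ∉ S → ∀ (A : ValuationSubring Qb) (τ : GQ),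
        A.LiesOverPrime ℓ → A.IsFrobeniusAt τ ℓ →
          (ρ τ).trace = a ℓ ∧ (ρ τ).det = (ℓ : R) := by
  classical
  -- the character
  let χ : GQ →* R := (φ : ZMod n →* R).comp ((Units.coeHom (ZMod n)).comp (modChar n))
  have hχ : ∀ g, χ g = φ ((modChar n g : (ZMod n)ˣ) : ZMod n) := fun g => rfl
  have hχF : ∀ ℓ : ℕ, ℓ.Prime → ℓ ∉ S → ∀ (A : ValuationSubring Qb) (τ : GQ),
      A.LiesOverPrime ℓ → A.IsFrobeniusAt τ ℓ → χ τ = (ℓ : R) := by
    intro ℓ hℓ hℓS A τ hA hτ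
    have hn : ¬ ℓ ∣ n := fun h => hℓS (hS ℓ hℓ h)
    rw [hχ, Fermat.Agent.Cyclo.modChar_frobenius n hℓ hn A hA τ hτ, map_natCast]
  -- the index type of Frobenius elements
  let ι : Type := {x : ℕ × ValuationSubring Qb × GQ //
    x.1.Prime ∧ x.1 ∉ S ∧ x.2.1.LiesOverPrime x.1 ∧ x.2.1.IsFrobeniusAt x.2.2 x.1}
  -- density
  let U : Subgroup GQ := ρ.ker ⊓ (modChar n).ker
  have hUn : U.Normal := Subgroup.normal_inf_normal _ _
  have hU : IsOpen (U : Set GQ) := by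
    have : (U : Set GQ) = {σ | ρ σ = 1} ∩ {σ | modChar n σ = 1} := by
      ext σ
      simp [U, MonoidHom.mem_ker]
    rw [this]
    exact hρ.inter (isOpen_modChar_eq_one n)
  have hdens : ∀ g : GQ, ∃ i : ι, ∃ j : ℕ, ρ g = ρ i.1.2.2 ^ j ∧ χ g = χ i.1.2.2 ^ j := by
    intro g
    obtain ⟨ℓ, A, τ, k, j, hℓ, hℓS, hA, hτ, -, hj⟩ :=
      Fermat.Agent.FrobDensity.frobenius_density_open U hU g S
    refine ⟨⟨(ℓ, A, τ), hℓ, hℓS, hA, hτ⟩, j, ?_, ?_⟩
    · have h1 : ρ (g⁻¹ * τ ^ j) = 1 := MonoidHom.mem_ker.mp hj.1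
      have : ρ g * ρ (g⁻¹ * τ ^ j) = ρ τ ^ j := by
        rw [← map_mul, mul_inv_cancel_left, map_pow]
      rw [h1, mul_one] at this
      exact this
    · have h1 : modChar n (g⁻¹ * τ ^ j) = 1 := MonoidHom.mem_ker.mp hj.2
      have h2 : χ (g⁻¹ * τ ^ j) = 1 := by
        rw [hχ, h1, Units.val_one, map_one]
      have : χ g * χ (g⁻¹ * τ ^ j) = χ τ ^ j := by
        rw [← map_mul, mul_inv_cancel_left, map_pow]
      rw [h2, mul_one] at this
      exact this
  obtain ⟨hdet, htr⟩ := det_trace_of_relation_indexed ρ χ (fun i : ι => i.1.2.2)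
    (fun i : ι => a i.1.1)
    (fun i => by
      obtain ⟨⟨ℓ, A, τ⟩, hℓ, hℓS, hA, hτ⟩ := i
      show ρ τ * ρ τ - a ℓ • ρ τ + χ τ • (1 : Matrix (Fin 2) (Fin 2) R) = 0
      rw [hχF ℓ hℓ hℓS A τ hA hτ]
      exact hBr ℓ hℓ hℓS A τ hA hτ)
    hdens g₀ hg₀
  refine ⟨fun g => by rw [hdet g, hχ], fun ℓ hℓ hℓS A τ hA hτ => ⟨?_, ?_⟩⟩
  · exact htr ⟨(ℓ, A, τ), hℓ, hℓS, hA, hτ⟩
  · rw [hdet τ, hχF ℓ hℓ hℓS A τ hA hτ]

end Fermat.Agent.FrobTrace
end MergeWrap_Lib_FrobTrace_DetTraceGal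

section MergeWrap_Lib_FrobTrace_DetCyclo -- from Lib/FrobTrace/DetCyclo.lean

/-!
# The determinant of a `G_ℚ`-representation is cyclotomic if it is so at Frobenius elements
(helper96)

`ρ : G_ℚ →* End_A(M)` with open kernel, `A` a `ZMod n`-algebra.  If `det ρ(τ) = ℓ` for every
Frobenius element `τ` at a prime `ℓ` outside a finite set `S` (containing the primes dividing
`n`), then `det ρ(g) = χ_n(g)` for ALL `g`, where `χ_n = modChar n` is the mod `n` cyclotomic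
character.  Consequences: `det ρ(c) = -1` for the complex conjugation `c`, and the
congruence form used by the Prelude's `GaloisRepAdic.DetIsCyclotomic`.
-/

set_option autoImplicit false

namespace Fermat.Agent.FrobTrace

open Fermat.Agent.Cyclo (Qb GQ modChar)

/-- Weak Chebotarev for a pair (homomorphism with open kernel, cyclotomic character):
every `g` agrees with a power of a Frobenius element at a prime outside `S`. -/
theorem exists_frobenius_pow_eq {H : Type*} [Monoid H] (n : ℕ) [NeZero n] (ρ : GQ →* H)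
    (hρ : IsOpen {σ : GQ | ρ σ = 1}) (S : Finset ℕ) (g : GQ) :
    ∃ (ℓ : ℕ) (A : ValuationSubring Qb) (τ : GQ) (j : ℕ), ℓ.Prime ∧ ℓ ∉ S ∧
      A.LiesOverPrime ℓ ∧ A.IsFrobeniusAt τ ℓ ∧ ρ g = ρ τ ^ j ∧ modChar n g = modChar n τ ^ j := by
  let U : Subgroup GQ := ρ.ker ⊓ (modChar n).ker
  have hUn : U.Normal := Subgroup.normal_inf_normal _ _
  have hU : IsOpen (U : Set GQ) := by
    have : (U : Set GQ) = {σ | ρ σ = 1} ∩ {σ | modChar n σ = 1} := by
      ext σ
      simp [U, MonoidHom.mem_ker]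
    rw [this]
    exact hρ.inter (isOpen_modChar_eq_one n)
  obtain ⟨ℓ, A, τ, k, j, hℓ, hℓS, hA, hτ, -, hj⟩ :=
    Fermat.Agent.FrobDensity.frobenius_density_open U hU g S
  refine ⟨ℓ, A, τ, j, hℓ, hℓS, hA, hτ, ?_, ?_⟩
  · have h1 : ρ (g⁻¹ * τ ^ j) = 1 := MonoidHom.mem_ker.mp hj.1
    have : ρ g * ρ (g⁻¹ * τ ^ j) = ρ τ ^ j := by
      rw [← map_mul, mul_inv_cancel_left, map_pow]
    rw [h1, mul_one] at this
    exact this
  · have h1 : modChar n (g⁻¹ * τ ^ j) = 1 := MonoidHom.mem_ker.mp hj.2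
    have : modChar n g * modChar n (g⁻¹ * τ ^ j) = modChar n τ ^ j := by
      rw [← map_mul, mul_inv_cancel_left, map_pow]
    rw [h1, mul_one] at this
    exact this

/-- If `det ρ(τ) = ℓ` at all Frobenius elements outside `S`, then `det ρ = χ_n` everywhere. -/
theorem det_eq_modChar_of_frobenius (n : ℕ) [NeZero n] {A : Type*} [CommRing A]
    (φ : ZMod n →+* A) {M : Type*} [AddCommGroup M] [Module A M]
    (ρ : GQ →* Module.End A M) (hρ : IsOpen {σ : GQ | ρ σ = 1}) (S : Finset ℕ)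
    (hS : ∀ ℓ : ℕ, ℓ.Prime → ℓ ∣ n → ℓ ∈ S)
    (hdet : ∀ ℓ : ℕ, ℓ.Prime → ℓ ∉ S → ∀ (B : ValuationSubring Qb) (τ : GQ),
      B.LiesOverPrime ℓ → B.IsFrobeniusAt τ ℓ → LinearMap.det (ρ τ) = (ℓ : A))
    (g : GQ) : LinearMap.det (ρ g) = φ ((modChar n g : (ZMod n)ˣ) : ZMod n) := by
  obtain ⟨ℓ, B, τ, j, hℓ, hℓS, hB, hτ, h1, h2⟩ := exists_frobenius_pow_eq n ρ hρ S g
  have hn : ¬ ℓ ∣ n := fun h => hℓS (hS ℓ hℓ h)
  rw [h1, h2, map_pow, hdet ℓ hℓ hℓS B τ hB hτ, Units.val_pow_eq_pow_val, map_pow,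
    Fermat.Agent.Cyclo.modChar_frobenius n hℓ hn B hB τ hτ, map_natCast]

/-- Oddness: under the hypotheses of `det_eq_modChar_of_frobenius`, `det ρ(c) = -1`. -/
theorem det_complexConjugation_of_frobenius (n : ℕ) [NeZero n] {A : Type*} [CommRing A]
    (φ : ZMod n →+* A) {M : Type*} [AddCommGroup M] [Module A M]
    (ρ : GQ →* Module.End A M) (hρ : IsOpen {σ : GQ | ρ σ = 1}) (S : Finset ℕ)
    (hS : ∀ ℓ : ℕ, ℓ.Prime → ℓ ∣ n → ℓ ∈ S)
    (hdet : ∀ ℓ : ℕ, ℓ.Prime → ℓ ∉ S → ∀ (B : ValuationSubring Qb) (τ : GQ),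
      B.LiesOverPrime ℓ → B.IsFrobeniusAt τ ℓ → LinearMap.det (ρ τ) = (ℓ : A)) :
    LinearMap.det (ρ complexConjugation) = -1 := by
  rw [det_eq_modChar_of_frobenius n φ ρ hρ S hS hdet,
    Fermat.Agent.Cyclo.modChar_complexConjugation n]
  simp

/-- Congruence form (the shape of the Prelude's `DetIsCyclotomic`): if `σ` acts on the `n`-th
roots of unity by `μ ↦ μ ^ a`, then `det ρ(σ) = a`. -/
theorem det_eq_natCast_of_frobenius (n : ℕ) [NeZero n] {A : Type*} [CommRing A]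
    (φ : ZMod n →+* A) {M : Type*} [AddCommGroup M] [Module A M]
    (ρ : GQ →* Module.End A M) (hρ : IsOpen {σ : GQ | ρ σ = 1}) (S : Finset ℕ)
    (hS : ∀ ℓ : ℕ, ℓ.Prime → ℓ ∣ n → ℓ ∈ S)
    (hdet : ∀ ℓ : ℕ, ℓ.Prime → ℓ ∉ S → ∀ (B : ValuationSubring Qb) (τ : GQ),
      B.LiesOverPrime ℓ → B.IsFrobeniusAt τ ℓ → LinearMap.det (ρ τ) = (ℓ : A))
    (σ : GQ) (a : ℕ) (ha : ∀ μ : Qb, μ ^ n = 1 → σ μ = μ ^ a) :
    LinearMap.det (ρ σ) = (a : A) := by
  rw [det_eq_modChar_of_frobenius n φ ρ hρ S hS hdet,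
    Fermat.Agent.Cyclo.modChar_eq_natCast_of_pow n σ a ha, map_natCast]

end Fermat.Agent.FrobTrace
end MergeWrap_Lib_FrobTrace_DetCyclo

section MergeWrap_Lib_FrobTrace_Abstract -- from Lib/FrobTrace/Abstract.lean

/-!
# FrobTrace / Abstract: trace and determinant from Cayley–Hamilton + a kernel bound (owner: helper4)

`G` an abelian group with `#G[p^n] = p^(2n)` for all `n`, `p`-divisible on `p`-power torsion;
`τ : G →+ G` with `τ² - a τ + ℓ = 0` on `p`-power torsion and with the *kernel bound*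
`#{x ∈ G[p^∞] : τ x = c x} ≤ c² - a c + ℓ` for every integer `c`.
Then on every `G[p^j]` (free of rank 2 over `ZMod (p^j)`), `tr τ = a` and `det τ = ℓ`.

Proof: take `N = j + e₀` with `p^(2 e₀) > 4 ℓ`, a `ZMod (p^N)`-basis `e₁, e₂` of `G[p^N]`, the integer
matrix `M` of `τ`; Cayley–Hamilton for `M` minus the hypothesis gives `(tr M - a) M ≡ (det M - ℓ) I`;
if `M` is scalar modulo `p^e₀` then `τ = c` on `G[p^e₀]`, so `p^(2e₀) ≤ c² - a c + ℓ` for the
lift `c` closest to `a/2`, contradiction; hence `tr M ≡ a`, `det M ≡ ℓ` mod `p^j`.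
-/

set_option autoImplicit false
set_option linter.style.haveILetI false

namespace Fermat.Agent.FrobTrace

section Arith

/-- if `p^n ∣ z * w` and `¬ p^k ∣ z` with `k ≤ n`, then `p^(n - k + 1) ∣ w` -/
theorem abs_pow_dvd_of_not_dvd {p : ℕ} (hp : p.Prime) {n k : ℕ} {z w : ℤ}
    (h : (p : ℤ) ^ n ∣ z * w) (hz : ¬ (p : ℤ) ^ k ∣ z) (hk : k ≤ n) :
    (p : ℤ) ^ (n - k + 1) ∣ w := by
  have hpZ : Prime (p : ℤ) := Nat.prime_iff_prime_int.mp hp
  have hz0 : z ≠ 0 := by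
    rintro rfl
    exact hz (dvd_zero _)
  -- exact power of p in z
  have hfin : FiniteMultiplicity (p : ℤ) z :=
    FiniteMultiplicity.of_prime_left hpZ hz0
  obtain ⟨z', hz', hnd⟩ := hfin.exists_eq_pow_mul_and_not_dvd
  set i := multiplicity (p : ℤ) z with hi
  have hik : i < k := by
    by_contra hcon
    rw [not_lt] at hcon
    apply hz
    rw [hz']
    exact Dvd.dvd.mul_right (pow_dvd_pow _ hcon) _
  have h1 : (p : ℤ) ^ i * (p : ℤ) ^ (n - i) ∣ (p : ℤ) ^ i * (z' * w) := by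
    rw [← pow_add, Nat.add_sub_cancel' (by omega)]
    rw [hz'] at h
    rw [← mul_assoc]
    exact h
  have h2 : (p : ℤ) ^ (n - i) ∣ z' * w :=
    (mul_dvd_mul_iff_left (pow_ne_zero _ hpZ.ne_zero)).mp h1
  have h3 : (p : ℤ) ^ (n - i) ∣ w := hpZ.pow_dvd_of_dvd_mul_left _ hnd h2
  exact dvd_trans (pow_dvd_pow _ (by omega)) h3

/-- choice of the lift closest to `a/2` -/
theorem abs_exists_lift (α a : ℤ) {q : ℤ} (hq : 0 < q) :
    ∃ c : ℤ, q ∣ c - α ∧ (2 * c - a) ^ 2 ≤ q ^ 2 := by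
  -- s = 2α - a + q, r = s mod 2q, c = α - q * (s / (2q))
  set s := 2 * α - a + q with hs
  refine ⟨α - q * (s / (2 * q)), ⟨-(s / (2 * q)), by ring⟩, ?_⟩
  have h2q : (0 : ℤ) < 2 * q := by linarith
  have hr0 := Int.emod_nonneg s h2q.ne'
  have hr1 := Int.emod_lt_of_pos s h2q
  have hdiv := Int.emod_add_mul_ediv s (2 * q)
  have e : 2 * (α - q * (s / (2 * q))) - a = s % (2 * q) - q := by
    rw [hs] at hdiv ⊢
    linarith
  rw [e]
  have h1 : -q ≤ s % (2 * q) - q := by linarith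
  have h2 : s % (2 * q) - q ≤ q := by linarith
  nlinarith

/-- the arithmetic core -/
theorem abs_core_arith {p : ℕ} (hp : p.Prime) (N j e₀ : ℕ) (hN : N = j + e₀)
    (α β γ δ a ℓ : ℤ)
    (A1 : (p : ℤ) ^ N ∣ γ * (α + δ - a)) (A2 : (p : ℤ) ^ N ∣ β * (α + δ - a))
    (A3 : (p : ℤ) ^ N ∣ (α - δ) * (α + δ - a))
    (A4 : (p : ℤ) ^ N ∣ (α * δ - β * γ - ℓ) - α * (α + δ - a))
    (hP : ¬ ((p : ℤ) ^ e₀ ∣ β ∧ (p : ℤ) ^ e₀ ∣ γ ∧ (p : ℤ) ^ e₀ ∣ α - δ)) :
    (p : ℤ) ^ j ∣ α + δ - a ∧ (p : ℤ) ^ j ∣ α * δ - β * γ - ℓ := by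
  have hle : e₀ ≤ N := by omega
  have key : (p : ℤ) ^ j ∣ α + δ - a := by
    have hj : j ≤ N - e₀ + 1 := by omega
    by_cases h1 : (p : ℤ) ^ e₀ ∣ β
    · by_cases h2 : (p : ℤ) ^ e₀ ∣ γ
      · have h3 : ¬ (p : ℤ) ^ e₀ ∣ α - δ := fun h3 => hP ⟨h1, h2, h3⟩
        exact dvd_trans (pow_dvd_pow _ hj) (abs_pow_dvd_of_not_dvd hp A3 h3 hle)
      · exact dvd_trans (pow_dvd_pow _ hj) (abs_pow_dvd_of_not_dvd hp A1 h2 hle)
    · exact dvd_trans (pow_dvd_pow _ hj) (abs_pow_dvd_of_not_dvd hp A2 h1 hle)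
  refine ⟨key, ?_⟩
  have h4 : (p : ℤ) ^ j ∣ (α * δ - β * γ - ℓ) - α * (α + δ - a) :=
    dvd_trans (pow_dvd_pow _ (by omega)) A4
  have := dvd_add h4 (Dvd.dvd.mul_left key α)
  simpa using this

end Arith

section Basis

variable {G : Type*} [AddCommGroup G]

/-- level-one basis from `#G[p] = p²` -/
theorem abs_level_one (p : ℕ) [Fact p.Prime]
    (hcard : Nat.card (Submodule.torsionBy ℤ G ((p ^ 1 : ℕ) : ℤ)) = p ^ (2 * 1)) :
    ∃ u₁ u₂ : G, (p : ℤ) • u₁ = 0 ∧ (p : ℤ) • u₂ = 0 ∧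
      (∀ m n : ℤ, m • u₁ + n • u₂ = 0 → (p : ℤ) ∣ m ∧ (p : ℤ) ∣ n) ∧
      (∀ x : G, (p : ℤ) • x = 0 → ∃ m n : ℤ, x = m • u₁ + n • u₂) := by
  have hp : p.Prime := Fact.out
  set V := Submodule.torsionBy ℤ G ((p ^ 1 : ℕ) : ℤ) with hVdef
  have hmem : ∀ x : G, x ∈ V ↔ (p : ℤ) • x = 0 := by
    intro x
    rw [hVdef, Submodule.mem_torsionBy_iff, pow_one]
  have hV : ∀ x : V, p • x = 0 := by
    intro x
    apply Subtype.ext
    rw [Submodule.coe_smul_of_tower, ZeroMemClass.coe_zero, ← natCast_zsmul]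
    exact (hmem x).mp x.2
  obtain ⟨inst1⟩ : Nonempty (Module (ZMod p) V) := ⟨AddCommGroup.zmodModule hV⟩
  haveI : Finite V := Nat.finite_of_card_ne_zero (by rw [hcard]; exact pow_ne_zero _ hp.ne_zero)
  haveI : Module.Finite (ZMod p) V := Module.Finite.of_finite
  have hrank : Module.finrank (ZMod p) V = 2 := by
    have h : Nat.card V = Nat.card (ZMod p) ^ Module.finrank (ZMod p) V :=
      Module.natCard_eq_pow_finrank
    rw [hcard, Nat.card_zmod] at h
    exact (Nat.pow_right_injective hp.two_le h).symm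
  let b := Module.finBasisOfFinrankEq (ZMod p) V hrank
  refine ⟨((b 0 : V) : G), ((b 1 : V) : G), (hmem _).mp (b 0).2, (hmem _).mp (b 1).2, ?_, ?_⟩
  · intro m n hmn
    have h0 : (m : ZMod p) • b 0 + (n : ZMod p) • b 1 = 0 := by
      apply Subtype.ext
      rw [Int.cast_smul_eq_zsmul, Int.cast_smul_eq_zsmul]
      simpa using hmn
    have hli := b.linearIndependent
    rw [Fintype.linearIndependent_iff] at hli
    have := hli ![(m : ZMod p), (n : ZMod p)] (by simpa [Fin.sum_univ_two] using h0)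
    have hm := this 0
    have hn := this 1
    simp only [Matrix.cons_val_zero, Matrix.cons_val_one] at hm hn
    exact ⟨(ZMod.intCast_zmod_eq_zero_iff_dvd m p).mp hm,
      (ZMod.intCast_zmod_eq_zero_iff_dvd n p).mp hn⟩
  · intro x hx
    have hxV : x ∈ V := (hmem x).mpr hx
    have hsum := b.sum_repr ⟨x, hxV⟩
    rw [Fin.sum_univ_two] at hsum
    refine ⟨((b.repr ⟨x, hxV⟩ 0).cast : ℤ), ((b.repr ⟨x, hxV⟩ 1).cast : ℤ), ?_⟩
    have := congrArg (Subtype.val) hsum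
    rw [← ZMod.intCast_zmod_cast (b.repr ⟨x, hxV⟩ 0), ← ZMod.intCast_zmod_cast (b.repr ⟨x, hxV⟩ 1),
      Int.cast_smul_eq_zsmul, Int.cast_smul_eq_zsmul] at this
    simpa using this.symm

/-- a `ℤ/p^(N+1)`-basis of `G[p^(N+1)]` -/
theorem abs_basis (p : ℕ) [Fact p.Prime]
    (hcard : Nat.card (Submodule.torsionBy ℤ G ((p ^ 1 : ℕ) : ℤ)) = p ^ (2 * 1))
    (hdiv : ∀ x : G, (∃ n : ℕ, (p : ℤ) ^ n • x = 0) → ∃ y : G, (p : ℤ) • y = x) (N : ℕ) :
    ∃ e₁ e₂ : G, (p : ℤ) ^ (N + 1) • e₁ = 0 ∧ (p : ℤ) ^ (N + 1) • e₂ = 0 ∧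
      (∀ m n : ℤ, m • e₁ + n • e₂ = 0 → (p : ℤ) ^ (N + 1) ∣ m ∧ (p : ℤ) ^ (N + 1) ∣ n) ∧
      (∀ x : G, (p : ℤ) ^ (N + 1) • x = 0 → ∃ m n : ℤ, x = m • e₁ + n • e₂) := by
  obtain ⟨u₁, u₂, hu₁, hu₂, hind, hspan⟩ := abs_level_one (G := G) p hcard
  suffices h : ∃ e₁ e₂ : G, (p : ℤ) ^ N • e₁ = u₁ ∧ (p : ℤ) ^ N • e₂ = u₂ ∧
      (∀ m n : ℤ, m • e₁ + n • e₂ = 0 → (p : ℤ) ^ (N + 1) ∣ m ∧ (p : ℤ) ^ (N + 1) ∣ n) ∧
      (∀ x : G, (p : ℤ) ^ (N + 1) • x = 0 → ∃ m n : ℤ, x = m • e₁ + n • e₂) by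
    obtain ⟨e₁, e₂, h1, h2, h3, h4⟩ := h
    refine ⟨e₁, e₂, ?_, ?_, h3, h4⟩
    · rw [pow_succ', mul_smul, h1, hu₁]
    · rw [pow_succ', mul_smul, h2, hu₂]
  induction N with
  | zero =>
    refine ⟨u₁, u₂, by simp, by simp, ?_, ?_⟩
    · simpa using hind
    · simpa using hspan
  | succ N ih =>
    obtain ⟨e₁, e₂, h1, h2, h3, h4⟩ := ih
    obtain ⟨f₁, hf₁⟩ := hdiv e₁ ⟨N + 1, by rw [pow_succ', mul_smul, h1, hu₁]⟩
    obtain ⟨f₂, hf₂⟩ := hdiv e₂ ⟨N + 1, by rw [pow_succ', mul_smul, h2, hu₂]⟩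
    have hf₁' : (p : ℤ) ^ (N + 1) • f₁ = u₁ := by rw [pow_succ, mul_smul, hf₁, h1]
    have hf₂' : (p : ℤ) ^ (N + 1) • f₂ = u₂ := by rw [pow_succ, mul_smul, hf₂, h2]
    refine ⟨f₁, f₂, hf₁', hf₂', ?_, ?_⟩
    · intro m n hmn
      have h5 : m • e₁ + n • e₂ = 0 := by
        have := congrArg (fun z => (p : ℤ) • z) hmn
        simp only [smul_add, smul_zero] at this
        rw [smul_comm, hf₁, smul_comm (p : ℤ) n, hf₂] at this
        exact this
      obtain ⟨⟨m', rfl⟩, ⟨n', rfl⟩⟩ := h3 m n h5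
      have h6 : m' • u₁ + n' • u₂ = 0 := by
        rw [← hf₁', ← hf₂', smul_smul, smul_smul, mul_comm m', mul_comm n']
        exact hmn
      obtain ⟨⟨m'', rfl⟩, ⟨n'', rfl⟩⟩ := hind m' n' h6
      refine ⟨⟨m'', by ring⟩, ⟨n'', by ring⟩⟩
    · intro x hx
      obtain ⟨m, n, hmn⟩ := hspan ((p : ℤ) ^ (N + 1) • x) (by
        rw [smul_smul, ← pow_succ']; exact hx)
      obtain ⟨m₂, n₂, h7⟩ := h4 (x - (m • f₁ + n • f₂)) (by
        rw [smul_sub, hmn, smul_add, smul_comm, hf₁', smul_comm _ n, hf₂', sub_self])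
      refine ⟨m + p * m₂, n + p * n₂, ?_⟩
      rw [sub_eq_iff_eq_add] at h7
      rw [h7, ← hf₁, ← hf₂]
      module

end Basis

section Descend

variable {G : Type*} [AddCommGroup G]

/-- descending a basis of `G[p^(j+e)]` to `G[p^j]` -/
theorem abs_descend (p : ℕ) [Fact p.Prime] (j e : ℕ) (e₁ e₂ : G)
    (hind : ∀ m n : ℤ, m • e₁ + n • e₂ = 0 → (p : ℤ) ^ (j + e) ∣ m ∧ (p : ℤ) ^ (j + e) ∣ n)
    (hspan : ∀ x : G, (p : ℤ) ^ (j + e) • x = 0 → ∃ m n : ℤ, x = m • e₁ + n • e₂) :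
    (∀ m n : ℤ, m • ((p : ℤ) ^ e • e₁) + n • ((p : ℤ) ^ e • e₂) = 0 →
        (p : ℤ) ^ j ∣ m ∧ (p : ℤ) ^ j ∣ n) ∧
      (∀ x : G, (p : ℤ) ^ j • x = 0 →
        ∃ m n : ℤ, x = m • ((p : ℤ) ^ e • e₁) + n • ((p : ℤ) ^ e • e₂)) := by
  have hp : p.Prime := Fact.out
  have hpZ : (p : ℤ) ≠ 0 := by exact_mod_cast hp.ne_zero
  constructor
  · intro m n hmn
    obtain ⟨⟨m', hm'⟩, ⟨n', hn'⟩⟩ := hind (m * (p : ℤ) ^ e) (n * (p : ℤ) ^ e) (by
      rw [← hmn]; simp only [mul_smul])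
    constructor
    · refine ⟨m', ?_⟩
      have : m * (p : ℤ) ^ e = ((p : ℤ) ^ j * m') * (p : ℤ) ^ e := by rw [hm']; ring
      exact mul_right_cancel₀ (pow_ne_zero _ hpZ) this
    · refine ⟨n', ?_⟩
      have : n * (p : ℤ) ^ e = ((p : ℤ) ^ j * n') * (p : ℤ) ^ e := by rw [hn']; ring
      exact mul_right_cancel₀ (pow_ne_zero _ hpZ) this
  · intro x hx
    obtain ⟨m, n, rfl⟩ := hspan x (by rw [pow_add, mul_comm, mul_smul, hx, smul_zero])
    obtain ⟨⟨m', hm'⟩, ⟨n', hn'⟩⟩ := hind ((p : ℤ) ^ j * m) ((p : ℤ) ^ j * n) (by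
      rw [← hx]; simp only [mul_smul, smul_add])
    have hm : m = m' * (p : ℤ) ^ e := by
      have : (p : ℤ) ^ j * m = (p : ℤ) ^ j * (m' * (p : ℤ) ^ e) := by rw [hm']; ring
      exact mul_left_cancel₀ (pow_ne_zero _ hpZ) this
    have hn : n = n' * (p : ℤ) ^ e := by
      have : (p : ℤ) ^ j * n = (p : ℤ) ^ j * (n' * (p : ℤ) ^ e) := by rw [hn']; ring
      exact mul_left_cancel₀ (pow_ne_zero _ hpZ) this
    refine ⟨m', n', ?_⟩
    rw [hm, hn]
    simp only [mul_smul]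

/-- if the matrix of `τ` is scalar modulo `p^e` then `τ` is a scalar on `G[p^e]` -/
theorem abs_scalar (p : ℕ) [Fact p.Prime] (τ : G →+ G) (j e : ℕ) (e₁ e₂ : G)
    (he₁ : (p : ℤ) ^ (j + e) • e₁ = 0) (he₂ : (p : ℤ) ^ (j + e) • e₂ = 0)
    (hind : ∀ m n : ℤ, m • e₁ + n • e₂ = 0 → (p : ℤ) ^ (j + e) ∣ m ∧ (p : ℤ) ^ (j + e) ∣ n)
    (hspan : ∀ x : G, (p : ℤ) ^ (j + e) • x = 0 → ∃ m n : ℤ, x = m • e₁ + n • e₂)
    (α β γ δ c : ℤ) (h₁ : τ e₁ = α • e₁ + γ • e₂) (h₂ : τ e₂ = β • e₁ + δ • e₂)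
    (hβ : (p : ℤ) ^ e ∣ β) (hγ : (p : ℤ) ^ e ∣ γ) (hαδ : (p : ℤ) ^ e ∣ α - δ)
    (hc : (p : ℤ) ^ e ∣ c - α) (x : G) (hx : (p : ℤ) ^ e • x = 0) : τ x = c • x := by
  obtain ⟨-, hsp⟩ := abs_descend p e j e₁ e₂ (by rw [add_comm]; exact hind)
    (by rw [add_comm]; exact hspan)
  obtain ⟨m, n, rfl⟩ := hsp x hx
  obtain ⟨β', rfl⟩ := hβ
  obtain ⟨γ', rfl⟩ := hγ
  obtain ⟨η, hη⟩ := hαδ
  obtain ⟨κ, hκ⟩ := hc
  have hδ : δ = α - (p : ℤ) ^ e * η := by linarith
  have hc' : c = α + (p : ℤ) ^ e * κ := by linarith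
  have z₁ : ∀ z : ℤ, (z * (p : ℤ) ^ (j + e)) • e₁ = 0 := fun z => by rw [mul_smul, he₁, smul_zero]
  have z₂ : ∀ z : ℤ, (z * (p : ℤ) ^ (j + e)) • e₂ = 0 := fun z => by rw [mul_smul, he₂, smul_zero]
  rw [map_add, map_zsmul, map_zsmul, map_zsmul, map_zsmul, h₁, h₂, hδ, hc']
  rw [← sub_eq_zero]
  have : m • (p : ℤ) ^ j • (α • e₁ + ((p : ℤ) ^ e * γ') • e₂) +
        n • (p : ℤ) ^ j • (((p : ℤ) ^ e * β') • e₁ + (α - (p : ℤ) ^ e * η) • e₂) -
      (α + (p : ℤ) ^ e * κ) • (m • (p : ℤ) ^ j • e₁ + n • (p : ℤ) ^ j • e₂)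
      = ((n * β' - m * κ) * (p : ℤ) ^ (j + e)) • e₁
        + ((m * γ' - n * η - n * κ) * (p : ℤ) ^ (j + e)) • e₂ := by
    rw [pow_add]
    module
  rw [this, z₁, z₂, add_zero]

end Descend

section Main

variable {G : Type*} [AddCommGroup G]

theorem abstract_trace_det (p : ℕ) [Fact p.Prime] (τ : G →+ G)
    (a ℓ : ℤ) (hℓ : 0 < ℓ)
    (hcard : ∀ n : ℕ, Nat.card (Submodule.torsionBy ℤ G ((p ^ n : ℕ) : ℤ)) = p ^ (2 * n))
    (hdiv : ∀ x : G, (∃ n : ℕ, (p ^ n) • x = 0) → ∃ y : G, p • y = x)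
    (hCH : ∀ x : G, (∃ n : ℕ, (p ^ n) • x = 0) → τ (τ x) - a • τ x + ℓ • x = 0)
    (hker : ∀ (c : ℤ) (S : Finset G),
      (∀ x ∈ S, (∃ n : ℕ, (p ^ n) • x = 0) ∧ τ x = c • x) → (S.card : ℤ) ≤ c ^ 2 - a * c + ℓ)
    (j : ℕ) [Module (ZMod (p ^ j)) (Submodule.torsionBy ℤ G ((p ^ j : ℕ) : ℤ))]
    (f : Module.End (ZMod (p ^ j)) (Submodule.torsionBy ℤ G ((p ^ j : ℕ) : ℤ)))
    (hf : ∀ x, ((f x : Submodule.torsionBy ℤ G ((p ^ j : ℕ) : ℤ)) : G) = τ x) :
    LinearMap.trace (ZMod (p ^ j)) _ f = (a : ZMod (p ^ j)) ∧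
      LinearMap.det f = (ℓ : ZMod (p ^ j)) := by
  classical
  have hp : p.Prime := Fact.out
  have hpZ : (0 : ℤ) < p := by exact_mod_cast hp.pos
  have hconv : ∀ (n : ℕ) (x : G), (p ^ n) • x = 0 ↔ (p : ℤ) ^ n • x = 0 := by
    intro n x
    rw [← natCast_zsmul, Nat.cast_pow]
  have hdiv' : ∀ x : G, (∃ n : ℕ, (p : ℤ) ^ n • x = 0) → ∃ y : G, (p : ℤ) • y = x := by
    rintro x ⟨n, hn⟩
    obtain ⟨y, hy⟩ := hdiv x ⟨n, (hconv n x).mpr hn⟩
    exact ⟨y, by rw [natCast_zsmul]; exact hy⟩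
  -- the auxiliary depth `e₀`
  obtain ⟨e₀, he₀pos, he₀big⟩ : ∃ e₀ : ℕ, 1 ≤ e₀ ∧ 4 * ℓ < ((p : ℤ) ^ e₀) ^ 2 := by
    refine ⟨(4 * ℓ).toNat, by omega, ?_⟩
    have h1 : (4 * ℓ).toNat < p ^ (4 * ℓ).toNat := Nat.lt_pow_self hp.one_lt
    have h2 : p ^ (4 * ℓ).toNat ≤ (p ^ (4 * ℓ).toNat) ^ 2 := by
      have : 1 ≤ p ^ (4 * ℓ).toNat := Nat.one_le_pow _ _ hp.pos
      nlinarith
    have h3 : ((4 * ℓ).toNat : ℤ) = 4 * ℓ := Int.toNat_of_nonneg (by linarith)
    have h4 : ((4 * ℓ).toNat : ℤ) < ((p : ℤ) ^ (4 * ℓ).toNat) ^ 2 := by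
      exact_mod_cast lt_of_lt_of_le h1 h2
    rw [h3] at h4
    exact h4
  obtain ⟨N', hN'⟩ : ∃ N', j + e₀ = N' + 1 := ⟨j + e₀ - 1, by omega⟩
  obtain ⟨e₁, e₂, he₁, he₂, hind, hspan⟩ := abs_basis (G := G) p (hcard 1) hdiv' N'
  rw [← hN'] at he₁ he₂ hind hspan
  -- the integer matrix of `τ`
  obtain ⟨α, γ, h₁⟩ := hspan (τ e₁) (by rw [← map_zsmul, he₁, map_zero])
  obtain ⟨β, δ, h₂⟩ := hspan (τ e₂) (by rw [← map_zsmul, he₂, map_zero])
  -- Cayley–Hamilton at `e₁`, `e₂`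
  have hCH₁ := hCH e₁ ⟨j + e₀, (hconv _ _).mpr he₁⟩
  rw [h₁, map_add, map_zsmul, map_zsmul, h₁, h₂] at hCH₁
  have hCH₁' : (α * α + γ * β - a * α + ℓ) • e₁ + (α * γ + γ * δ - a * γ) • e₂ = 0 := by
    rw [← hCH₁]; module
  obtain ⟨hB1, hB2⟩ := hind _ _ hCH₁'
  have hCH₂ := hCH e₂ ⟨j + e₀, (hconv _ _).mpr he₂⟩
  rw [h₂, map_add, map_zsmul, map_zsmul, h₁, h₂] at hCH₂
  have hCH₂' : (β * α + δ * β - a * β) • e₁ + (β * γ + δ * δ - a * δ + ℓ) • e₂ = 0 := by
    rw [← hCH₂]; module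
  obtain ⟨hB3, hB4⟩ := hind _ _ hCH₂'
  have A1 : (p : ℤ) ^ (j + e₀) ∣ γ * (α + δ - a) := by
    have : γ * (α + δ - a) = α * γ + γ * δ - a * γ := by ring
    rw [this]; exact hB2
  have A2 : (p : ℤ) ^ (j + e₀) ∣ β * (α + δ - a) := by
    have : β * (α + δ - a) = β * α + δ * β - a * β := by ring
    rw [this]; exact hB3
  have A3 : (p : ℤ) ^ (j + e₀) ∣ (α - δ) * (α + δ - a) := by
    have : (α - δ) * (α + δ - a)
        = (α * α + γ * β - a * α + ℓ) - (β * γ + δ * δ - a * δ + ℓ) := by ring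
    rw [this]; exact dvd_sub hB1 hB4
  have A4 : (p : ℤ) ^ (j + e₀) ∣ (α * δ - β * γ - ℓ) - α * (α + δ - a) := by
    have : (α * δ - β * γ - ℓ) - α * (α + δ - a) = -(α * α + γ * β - a * α + ℓ) := by ring
    rw [this]; exact (dvd_neg).mpr hB1
  -- the matrix is not scalar modulo `p^e₀`
  have hP : ¬ ((p : ℤ) ^ e₀ ∣ β ∧ (p : ℤ) ^ e₀ ∣ γ ∧ (p : ℤ) ^ e₀ ∣ α - δ) := by
    rintro ⟨hβ, hγ, hαδ⟩
    obtain ⟨c, hcα, hc⟩ := abs_exists_lift α a (q := (p : ℤ) ^ e₀) (by positivity)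
    haveI hfinV : Finite (Submodule.torsionBy ℤ G ((p ^ e₀ : ℕ) : ℤ)) :=
      Nat.finite_of_card_ne_zero (by rw [hcard]; exact pow_ne_zero _ hp.ne_zero)
    have hfin : ((Submodule.torsionBy ℤ G ((p ^ e₀ : ℕ) : ℤ) : Set G)).Finite := Set.toFinite _
    have key := hker c hfin.toFinset (by
      intro x hx
      rw [Set.Finite.mem_toFinset, SetLike.mem_coe, Submodule.mem_torsionBy_iff, Nat.cast_pow] at hx
      exact ⟨⟨e₀, (hconv _ _).mpr hx⟩,
        abs_scalar p τ j e₀ e₁ e₂ he₁ he₂ hind hspan α β γ δ c h₁ h₂ hβ hγ hαδ hcα x hx⟩)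
    have hcardS : hfin.toFinset.card = p ^ (2 * e₀) := by
      rw [← Set.ncard_eq_toFinset_card _ hfin, ← Nat.card_coe_set_eq]
      exact hcard e₀
    rw [hcardS] at key
    have key' : ((p : ℤ) ^ e₀) ^ 2 ≤ c ^ 2 - a * c + ℓ := by
      have : (((p ^ (2 * e₀) : ℕ)) : ℤ) = ((p : ℤ) ^ e₀) ^ 2 := by
        push_cast; ring
      rw [← this]; exact key
    nlinarith [sq_nonneg a, sq_nonneg ((p : ℤ) ^ e₀)]
  obtain ⟨htr, hdet⟩ := abs_core_arith hp (j + e₀) j e₀ rfl α β γ δ a ℓ A1 A2 A3 A4 hP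
  -- the basis of `G[p^j]`
  obtain ⟨hind', hspan'⟩ := abs_descend p j e₀ e₁ e₂ hind hspan
  have hb₁ : (p : ℤ) ^ e₀ • e₁ ∈ Submodule.torsionBy ℤ G ((p ^ j : ℕ) : ℤ) := by
    rw [Submodule.mem_torsionBy_iff, Nat.cast_pow, smul_smul, ← pow_add]; exact he₁
  have hb₂ : (p : ℤ) ^ e₀ • e₂ ∈ Submodule.torsionBy ℤ G ((p ^ j : ℕ) : ℤ) := by
    rw [Submodule.mem_torsionBy_iff, Nat.cast_pow, smul_smul, ← pow_add]; exact he₂
  set v : Fin 2 → Submodule.torsionBy ℤ G ((p ^ j : ℕ) : ℤ) :=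
    ![⟨(p : ℤ) ^ e₀ • e₁, hb₁⟩, ⟨(p : ℤ) ^ e₀ • e₂, hb₂⟩] with hv
  have hv0 : ((v 0 : Submodule.torsionBy ℤ G ((p ^ j : ℕ) : ℤ)) : G) = (p : ℤ) ^ e₀ • e₁ := rfl
  have hv1 : ((v 1 : Submodule.torsionBy ℤ G ((p ^ j : ℕ) : ℤ)) : G) = (p : ℤ) ^ e₀ • e₂ := rfl
  have hcomb : ∀ (m n : ℤ),
      (((m : ZMod (p ^ j)) • v 0 + (n : ZMod (p ^ j)) • v 1 :
        Submodule.torsionBy ℤ G ((p ^ j : ℕ) : ℤ)) : G)
        = m • ((p : ℤ) ^ e₀ • e₁) + n • ((p : ℤ) ^ e₀ • e₂) := by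
    intro m n
    rw [Int.cast_smul_eq_zsmul, Int.cast_smul_eq_zsmul, Submodule.coe_add,
      Submodule.coe_smul_of_tower, Submodule.coe_smul_of_tower, hv0, hv1]
  have hli : LinearIndependent (ZMod (p ^ j)) v := by
    rw [Fintype.linearIndependent_iff]
    intro g hg
    rw [Fin.sum_univ_two, ← ZMod.intCast_zmod_cast (g 0), ← ZMod.intCast_zmod_cast (g 1)] at hg
    have h0 := congrArg Subtype.val hg
    rw [hcomb, ZeroMemClass.coe_zero] at h0
    obtain ⟨hm, hn⟩ := hind' _ _ h0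
    have hm' : g 0 = 0 := by
      rw [← ZMod.intCast_zmod_cast (g 0)]
      exact (ZMod.intCast_zmod_eq_zero_iff_dvd _ _).mpr (by rw [Nat.cast_pow]; exact hm)
    have hn' : g 1 = 0 := by
      rw [← ZMod.intCast_zmod_cast (g 1)]
      exact (ZMod.intCast_zmod_eq_zero_iff_dvd _ _).mpr (by rw [Nat.cast_pow]; exact hn)
    intro i
    fin_cases i
    · exact hm'
    · exact hn'
  have hsp : ⊤ ≤ Submodule.span (ZMod (p ^ j)) (Set.range v) := by
    rintro ⟨x, hx⟩ -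
    rw [Submodule.mem_torsionBy_iff, Nat.cast_pow] at hx
    obtain ⟨m, n, hmn⟩ := hspan' x hx
    have : (⟨x, by rw [Submodule.mem_torsionBy_iff, Nat.cast_pow]; exact hx⟩ :
        Submodule.torsionBy ℤ G ((p ^ j : ℕ) : ℤ))
        = (m : ZMod (p ^ j)) • v 0 + (n : ZMod (p ^ j)) • v 1 := by
      apply Subtype.ext
      rw [hcomb]
      exact hmn
    rw [this]
    exact Submodule.add_mem _
      (Submodule.smul_mem _ _ (Submodule.subset_span ⟨0, rfl⟩))
      (Submodule.smul_mem _ _ (Submodule.subset_span ⟨1, rfl⟩))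
  let b : Module.Basis (Fin 2) (ZMod (p ^ j)) (Submodule.torsionBy ℤ G ((p ^ j : ℕ) : ℤ)) :=
    Module.Basis.mk hli hsp
  have hb : ∀ i, b i = v i := fun i => Module.Basis.mk_apply hli hsp i
  let M : Matrix (Fin 2) (Fin 2) (ZMod (p ^ j)) :=
    !![(α : ZMod (p ^ j)), (β : ZMod (p ^ j)); (γ : ZMod (p ^ j)), (δ : ZMod (p ^ j))]
  have hfM : f = Matrix.toLin b b M := by
    apply b.ext
    intro i
    rw [Matrix.toLin_self, Fin.sum_univ_two, hb, hb, hb]
    apply Subtype.ext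
    rw [hf]
    fin_cases i
    · change τ (v 0) = (((α : ZMod (p ^ j)) • v 0 + (γ : ZMod (p ^ j)) • v 1 :
        Submodule.torsionBy ℤ G ((p ^ j : ℕ) : ℤ)) : G)
      rw [hcomb, hv0, map_zsmul, h₁]
      module
    · change τ (v 1) = (((β : ZMod (p ^ j)) • v 0 + (δ : ZMod (p ^ j)) • v 1 :
        Submodule.torsionBy ℤ G ((p ^ j : ℕ) : ℤ)) : G)
      rw [hcomb, hv1, map_zsmul, h₂]
      module
  have hcast : ∀ z w : ℤ, (p : ℤ) ^ j ∣ z - w → (z : ZMod (p ^ j)) = (w : ZMod (p ^ j)) := by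
    intro z w h
    rw [eq_comm, ZMod.intCast_eq_intCast_iff_dvd_sub, Nat.cast_pow]
    exact h
  constructor
  · rw [hfM, LinearMap.trace_eq_matrix_trace (ZMod (p ^ j)) b, LinearMap.toMatrix_toLin,
      Matrix.trace_fin_two_of, ← Int.cast_add]
    exact hcast _ _ htr
  · rw [hfM, LinearMap.det_toLin, Matrix.det_fin_two_of, ← Int.cast_mul, ← Int.cast_mul,
      ← Int.cast_sub]
    exact hcast _ _ hdet

end Main

end Fermat.Agent.FrobTrace
end MergeWrap_Lib_FrobTrace_Abstract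

section MergeWrap_Lib_FrobTrace_KernelBoundAux -- from Lib/FrobTrace/KernelBoundAux.lean

/-!
# FrobTrace / KernelBoundAux: the degree form `deg (m φ + n) = ℓ m² + a m n + n²` on a generic point,
and the universality of a generic point (helper64)
-/

set_option autoImplicit false

open Polynomial WeierstrassCurve WeierstrassCurve.Affine

namespace Fermat.Agent.FrobTrace

open Fermat.Agent.S52 (shortW frobPt)
open Fermat.Agent.F1

section Quad

variable {ℓ : ℕ} [Fact ℓ.Prime] {A B : ZMod ℓ}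
variable (k : Type) [Field k] [Algebra (ZMod ℓ) k]
variable {L : Type} [Field L] [Algebra (ZMod ℓ) L] [Algebra k L] [IsScalarTower (ZMod ℓ) k L]
  [DecidableEq L]
variable {ξ η : L} (hns : ((shortW A B)⁄L).Nonsingular ξ η)

/-- the combination `m φ P + n P` of a generic point is odd-rational -/
theorem kb_comb_mem (hℓ : 5 ≤ ℓ) (m n : ℤ) :
    m • frobPt (shortW A B) L (Point.some ξ η hns) + n • Point.some ξ η hns ∈ oddRat k hns :=
  (oddRat k hns).add_mem
    ((oddRat k hns).zsmul_mem (frob_mem_oddRat k hns hℓ (gen_mem_oddRat k hns)) m)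
    ((oddRat k hns).zsmul_mem (gen_mem_oddRat k hns) n)

/-- **the degree form**: `ht (m φ P + n P) = ℓ m² + a m n + n²` for a generic point `P`. -/
theorem kb_ht_comb (hℓ : 5 ≤ ℓ) (hΔ : (shortW A B).Δ ≠ 0) (htr : Transcendental k ξ) (m n : ℤ) :
    (ht k ξ (m • frobPt (shortW A B) L (Point.some ξ η hns) + n • Point.some ξ η hns) : ℤ)
      = ℓ * m ^ 2 + (shortW A B).traceOfFrobenius * m * n + n ^ 2 := by
  have : (shortW A B).IsElliptic := ⟨isUnit_iff_ne_zero.mpr hΔ⟩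
  have hW : ((shortW A B).map (algebraMap (ZMod ℓ) k)).map (algebraMap k L) = (shortW A B)⁄L := by
    rw [WeierstrassCurve.map_map, ← IsScalarTower.algebraMap_eq]
    rfl
  let d : oddRat k hns → ℤ := fun Q => (ht k ξ (Q : ((shortW A B)⁄L).Point) : ℤ)
  have hpar : Fermat.Agent.F1Quad.Parallelogram d := by
    intro x y
    have h := ht_parallelogram ((shortW A B).map (algebraMap (ZMod ℓ) k)) hW htr x.1 y.1
      (exists_xRat_of_mem k hns x.2) (exists_xRat_of_mem k hns y.2)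
      (exists_xRat_of_mem k hns (x + y).2) (exists_xRat_of_mem k hns (x - y).2)
    simp only [d, AddSubgroup.coe_add, AddSubgroup.coe_sub]
    exact_mod_cast h
  let φ : oddRat k hns →+ oddRat k hns :=
    ((frobPt (shortW A B) L).comp (oddRat k hns).subtype).codRestrict (oddRat k hns)
      (fun Q => frob_mem_oddRat k hns hℓ Q.2)
  have hφ : ∀ x, d (φ x) = ℓ * d x := by
    intro x
    have h := ht_frob k htr (exists_xRat_of_mem k hns x.2)
    simp only [d]
    exact_mod_cast h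
  have hφc : ∀ x : oddRat k hns, ((φ x : oddRat k hns) : ((shortW A B)⁄L).Point)
      = frobPt (shortW A B) L x := fun x => rfl
  let e : oddRat k hns := ⟨Point.some ξ η hns, gen_mem_oddRat k hns⟩
  have he : d e = 1 := by
    simp only [d, e]
    exact_mod_cast ht_gen k hns htr
  have hsubfrob : ∀ x : oddRat k hns,
      d (x - φ x) = ((ℓ : ℤ) + 1 - (shortW A B).traceOfFrobenius) * d x := by
    intro x
    have h := ht_sub_frob k hns hℓ hΔ htr x.2
    simp only [d, AddSubgroup.coe_sub, hφc]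
    exact h
  have hf : d (φ e) = ℓ := by rw [hφ, he, mul_one]
  have hN : d (φ e - e) = (ℓ : ℤ) + 1 - (shortW A B).traceOfFrobenius := by
    rw [hpar.map_sub_comm, hsubfrob, he, mul_one]
  have hpol : Fermat.Agent.F1Quad.polar d (φ e) e = (shortW A B).traceOfFrobenius := by
    have h1 := Fermat.Agent.F1Quad.Parallelogram.map_add (d := d) (φ e) (-e)
    rw [← sub_eq_add_neg, hN, hf, hpar.map_neg, he, hpar.polar_neg_right] at h1
    linarith
  have key : d (m • φ e + n • e) =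
      ℓ * m ^ 2 + (shortW A B).traceOfFrobenius * m * n + n ^ 2 := by
    rw [Fermat.Agent.F1Quad.Parallelogram.map_add (d := d), hpar.map_zsmul, hpar.map_zsmul, hpar.polar_zsmul_left,
      hpar.polar_zsmul_right, hpol, hf, he]
    ring
  have hcoe : ((m • φ e + n • e : oddRat k hns) : ((shortW A B)⁄L).Point)
      = m • frobPt (shortW A B) L (Point.some ξ η hns) + n • Point.some ξ η hns := by
    simp [e, hφc]
  simp only [d] at key
  rw [hcoe] at key
  exact key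

end Quad

end Fermat.Agent.FrobTrace

namespace Fermat.Agent.FrobTrace

open Fermat.Agent.S52 (shortW frobPt)
open Fermat.Agent.F1

section Univ

/-- **Universality of the generic point**: every transcendental element of
`AlgebraicClosure (RatFunc k)` is the image of `X` under a `k`-algebra endomorphism. -/
theorem kb_exists_algHom (k : Type) [Field k] (ξ' : AlgebraicClosure (RatFunc k))
    (hξ' : Transcendental k ξ') :
    ∃ σ : AlgebraicClosure (RatFunc k) →ₐ[k] AlgebraicClosure (RatFunc k),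
      σ (algebraMap (RatFunc k) (AlgebraicClosure (RatFunc k)) RatFunc.X) = ξ' := by
  let f : RatFunc k →ₐ[k] AlgebraicClosure (RatFunc k) := RatFunc.liftAlgHom (Polynomial.aeval ξ')
    (nonZeroDivisors_le_comap_nonZeroDivisors_of_injective _ (transcendental_iff_injective.mp hξ'))
  obtain ⟨φ, hφ⟩ := IntermediateField.exists_algHom_of_splits' (E := AlgebraicClosure (RatFunc k)) f
    (fun s => ⟨(AlgebraicClosure.isAlgebraic (RatFunc k)).isIntegral.isIntegral s,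
      IsAlgClosed.splits _⟩)
  refine ⟨φ, ?_⟩
  have h := DFunLike.congr_fun hφ RatFunc.X
  have hf : f RatFunc.X = ξ' := by
    simp only [f]
    rw [← RatFunc.algebraMap_X, RatFunc.liftAlgHom_apply]
    simp
  rw [hf] at h
  exact h

/-- the generic point of `AlgebraicClosure (RatFunc k)` with `x`-coordinate `X`. -/
theorem kb_exists_generic {F₀ : Type*} [Field F₀] (E : WeierstrassCurve F₀) (hΔ : E.Δ ≠ 0)
    (k : Type) [Field k] [Algebra F₀ k] :
    Transcendental k (algebraMap (RatFunc k) (AlgebraicClosure (RatFunc k)) RatFunc.X) ∧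
    ∃ η : AlgebraicClosure (RatFunc k),
      (E⁄(AlgebraicClosure (RatFunc k))).Nonsingular
        (algebraMap (RatFunc k) (AlgebraicClosure (RatFunc k)) RatFunc.X) η := by
  set L := AlgebraicClosure (RatFunc k) with hL
  set ξ : L := algebraMap (RatFunc k) L RatFunc.X with hξdef
  have hξ : Transcendental k ξ := by
    have h0 : Transcendental k (RatFunc.X : RatFunc k) := RatFunc.transcendental_X
    intro halg
    apply h0
    exact (isAlgebraic_algebraMap_iff (FaithfulSMul.algebraMap_injective (RatFunc k) L)).mp halg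
  refine ⟨hξ, ?_⟩
  set W := (E⁄L) with hW
  let p : L[X] := X ^ 2 + C (W.a₁ * ξ + W.a₃) * X
    - C (ξ ^ 3 + W.a₂ * ξ ^ 2 + W.a₄ * ξ + W.a₆)
  have hpdeg : p.degree = 2 := by
    have : p = C 1 * X ^ 2 + C (W.a₁ * ξ + W.a₃) * X
        + C (-(ξ ^ 3 + W.a₂ * ξ ^ 2 + W.a₄ * ξ + W.a₆)) := by
      simp only [p, C_neg, C_1]; ring
    rw [this]
    exact degree_quadratic one_ne_zero
  obtain ⟨η, hη⟩ := IsAlgClosed.exists_root p (by rw [hpdeg]; norm_num)
  have hη' : η ^ 2 + (W.a₁ * ξ + W.a₃) * η - (ξ ^ 3 + W.a₂ * ξ ^ 2 + W.a₄ * ξ + W.a₆) = 0 := by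
    simpa [p] using hη
  have hEq : W.Equation ξ η := by
    rw [Affine.equation_iff]
    linear_combination hη'
  have hΔL : W.Δ ≠ 0 := by
    have : W.Δ = algebraMap F₀ L E.Δ := by
      rw [hW]
      exact WeierstrassCurve.map_Δ E (algebraMap F₀ L)
    rw [this]
    exact (map_ne_zero_iff _ (FaithfulSMul.algebraMap_injective F₀ L)).mpr hΔ
  exact ⟨η, (W.equation_iff_nonsingular_of_Δ_ne_zero hΔL).mp hEq⟩

end Univ

section Pieces

variable {ℓ : ℕ} [Fact ℓ.Prime] {A B : ZMod ℓ}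
variable {k : Type} [Field k] [Algebra (ZMod ℓ) k]
variable {L : Type} [Field L] [Algebra (ZMod ℓ) L] [Algebra k L] [IsScalarTower (ZMod ℓ) k L]
  [DecidableEq L]

/-- `xRep` commutes with `Point.map`. -/
theorem kb_xRep_map (σ : L →ₐ[ZMod ℓ] L) (Q : ((shortW A B)⁄L).Point) (i : Fin 2) :
    (Affine.Point.map (W' := shortW A B) σ Q).xRep i = σ (Q.xRep i) := by
  rcases Q with _ | ⟨x, y, h⟩
  · rw [← Point.zero_def, map_zero, Point.xRep_zero]
    fin_cases i <;> simp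
  · rw [Point.map_some, Point.xRep_some, Point.xRep_some]
    fin_cases i <;> simp

/-- constant points have height `0`. -/
theorem kb_ht_map_const [DecidableEq k] {ξ : L} (htr : Transcendental k ξ)
    (R : ((shortW A B)⁄k).Point) :
    ht k ξ (Affine.Point.map (W' := shortW A B) (IsScalarTower.toAlgHom (ZMod ℓ) k L) R) = 0 := by
  rcases R with _ | ⟨a, b, h⟩
  · rw [← Point.zero_def, map_zero]
    exact ht_zero htr
  · have hX : XRat (k := k) ξ (Affine.Point.map (W' := shortW A B)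
        (IsScalarTower.toAlgHom (ZMod ℓ) k L) (Point.some a b h)) (C a) 1 := by
      refine ⟨isCoprime_one_right, 1, one_ne_zero, ?_, ?_⟩
      · rw [Point.map_some, Point.xRep_some]
        simp
      · rw [Point.map_some, Point.xRep_some]
        simp
    rw [ht_eq htr hX]
    simp [hpair]

/-- a coprime pair `F, G` with `F(Z) u = G(Z) v` where `(v, u)` is proportional to
`(F(ξ), G(ξ))`, `ξ` transcendental, consists of constants. -/
theorem kb_hpair_eq_zero_of_prop {ξ : L} (htr : Transcendental k ξ) {F G : k[X]}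
    (hcop : IsCoprime F G) {c₀ u v : L} (hF : aeval ξ F = c₀ * v)
    (hG : aeval ξ G = c₀ * u)
    (hp : F.map (algebraMap k L) * C u - G.map (algebraMap k L) * C v = 0) :
    hpair F G = 0 := by
  set F' := F.map (algebraMap k L) with hF'
  set G' := G.map (algebraMap k L) with hG'
  have hinj : Function.Injective (algebraMap k L) := (algebraMap k L).injective
  have h1 : F' * C (aeval ξ G) = G' * C (aeval ξ F) := by
    rw [hF, hG, C_mul, C_mul]
    linear_combination (C c₀) * hp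
  obtain ⟨U, V, hUV⟩ := hcop
  have hUV' : U.map (algebraMap k L) * F' + V.map (algebraMap k L) * G' = 1 := by
    rw [hF', hG', ← Polynomial.map_mul, ← Polynomial.map_mul, ← Polynomial.map_add, hUV,
      Polynomial.map_one]
  have key : ∀ (H : k[X]) (H' : L[X]), H' = H.map (algebraMap k L) →
      (∃ M : L[X], C (aeval ξ H) = H' * M) → H.natDegree = 0 := by
    intro H H' hH' ⟨M, hM⟩
    by_cases h0 : aeval ξ H = 0
    · have : H = 0 := by
        apply (transcendental_iff_injective.mp htr)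
        rw [h0, map_zero]
      rw [this, natDegree_zero]
    · have hd := congrArg natDegree hM
      rw [natDegree_C] at hd
      have hH'0 : H' ≠ 0 := by
        rintro rfl
        rw [zero_mul] at hM
        exact h0 (C_eq_zero.mp hM)
      have hM0 : M ≠ 0 := by
        rintro rfl
        rw [mul_zero] at hM
        exact h0 (C_eq_zero.mp hM)
      rw [natDegree_mul hH'0 hM0] at hd
      have : H'.natDegree = 0 := by omega
      rw [hH', natDegree_map_eq_of_injective hinj] at this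
      exact this
  have hG0 : G.natDegree = 0 := by
    apply key G G' hG'
    refine ⟨U.map (algebraMap k L) * C (aeval ξ F) + V.map (algebraMap k L) * C (aeval ξ G), ?_⟩
    linear_combination (-C (aeval ξ G)) * hUV' + (U.map (algebraMap k L)) * h1
  have hF0 : F.natDegree = 0 := by
    apply key F F' hF'
    refine ⟨U.map (algebraMap k L) * C (aeval ξ F) + V.map (algebraMap k L) * C (aeval ξ G), ?_⟩
    linear_combination (-C (aeval ξ F)) * hUV' - (V.map (algebraMap k L)) * h1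
  simp [hpair, hF0, hG0]

end Pieces

end Fermat.Agent.FrobTrace
end MergeWrap_Lib_FrobTrace_KernelBoundAux

section MergeWrap_Lib_FrobTrace_KernelBound -- from Lib/FrobTrace/KernelBound.lean

/-!
# FrobTrace / KernelBound: `#ker(φ - c) ≤ c² - a c + ℓ` (owner: helper64)

In the F1 framework (`L = AlgebraicClosure (RatFunc k)`, generic point `P = (ξ, η)`): for `ψ = φ - c`,
`ht (ψ P) = c² - a c + ℓ =: D` (quadratic form, `F1Quad`), `D ≠ 0` (else `ℓ = c²`).  If `T ∈ E(k)` with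
`ψ T = 0` then `ψ (P + T) = ψ P`, so `x(P + T)` is a root of `F(Z) - R G(Z)` (`R = F/G = x(ψ P)` in
lowest terms, universality of `R` for transcendental points); distinct `T` give distinct roots.
-/

set_option autoImplicit false

open Polynomial WeierstrassCurve WeierstrassCurve.Affine

namespace Fermat.Agent.FrobTrace

open Fermat.Agent.S52 (shortW frobPt)
open Fermat.Agent.F1

local notation "𝕃" => AlgebraicClosure (RatFunc _)

/-- `c² - a c + ℓ > 0` -/
theorem kb_D_pos {ℓ : ℕ} [Fact ℓ.Prime] (h5 : 5 ≤ ℓ) (A B : ZMod ℓ)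
    (hΔ : (shortW A B).Δ ≠ 0) (c : ℤ) :
    0 < c ^ 2 - (shortW A B).traceOfFrobenius * c + ℓ := by
  classical
  obtain ⟨htr, η, hns⟩ := kb_exists_generic (shortW A B) hΔ (ZMod ℓ)
  have h1 := kb_ht_comb (ZMod ℓ) hns h5 hΔ htr 2 (-(shortW A B).traceOfFrobenius)
  have h2 : (0 : ℤ) ≤ 4 * ℓ - (shortW A B).traceOfFrobenius ^ 2 := by
    have h3 : (0 : ℤ) ≤ ℓ * 2 ^ 2 + (shortW A B).traceOfFrobenius * 2
        * -(shortW A B).traceOfFrobenius + (-(shortW A B).traceOfFrobenius) ^ 2 := by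
      rw [← h1]
      exact Int.natCast_nonneg _
    linarith
  set a := (shortW A B).traceOfFrobenius with ha
  by_contra hneg
  push Not at hneg
  have h4 : (2 * c - a) ^ 2 + (4 * ℓ - a ^ 2) ≤ 0 := by nlinarith
  have h5' : (2 * c - a) ^ 2 = 0 := by nlinarith [sq_nonneg (2 * c - a)]
  have h6 : 2 * c = a := by
    have := pow_eq_zero_iff (two_ne_zero) |>.mp h5'
    linarith
  have h7 : (ℓ : ℤ) ≤ c ^ 2 := by nlinarith
  have h8 : c ^ 2 ≤ (ℓ : ℤ) := by nlinarith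
  have h9 : c ^ 2 = (ℓ : ℤ) := le_antisymm h8 h7
  have hprime : ℓ.Prime := Fact.out
  have h10 : c.natAbs * c.natAbs = ℓ := by
    have : ((c.natAbs * c.natAbs : ℕ) : ℤ) = (ℓ : ℤ) := by
      rw [Nat.cast_mul, Int.natCast_natAbs, ← h9, sq, abs_mul_abs_self]
    exact_mod_cast this
  have h11 : c.natAbs ≠ 1 := by
    intro h
    rw [h] at h10
    omega
  exact Nat.not_prime_mul h11 h11 (h10 ▸ hprime)

/-- the kernel bound on the short model (the real work) -/
theorem card_frob_eq_smul_le_short {ℓ : ℕ} [Fact ℓ.Prime] (h5 : 5 ≤ ℓ) (A B : ZMod ℓ)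
    (hΔ : (shortW A B).Δ ≠ 0) (k : Type) [Field k] [Algebra (ZMod ℓ) k] [IsAlgClosed k]
    [DecidableEq k] (c : ℤ) (S : Finset ((shortW A B)⁄k).Point)
    (hS : ∀ P ∈ S, frobPt (shortW A B) k P = c • P) :
    (S.card : ℤ) ≤ c ^ 2 - (shortW A B).traceOfFrobenius * c + ℓ := by
  classical
  obtain ⟨htr, η, hns⟩ := kb_exists_generic (shortW A B) hΔ k
  generalize hξ : (algebraMap (RatFunc k) (AlgebraicClosure (RatFunc k)) RatFunc.X) = ξ at htr hns
  set ι : k →ₐ[ZMod ℓ] AlgebraicClosure (RatFunc k) :=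
    IsScalarTower.toAlgHom (ZMod ℓ) k (AlgebraicClosure (RatFunc k)) with hι
  set P₀ : ((shortW A B)⁄𝕃).Point := Point.some ξ η hns with hP₀
  -- the point `Q = ψ P₀`
  set Q : ((shortW A B)⁄𝕃).Point := frobPt (shortW A B) 𝕃 P₀ - c • P₀ with hQ
  have hQ' : Q = (1 : ℤ) • frobPt (shortW A B) 𝕃 P₀ + (-c) • P₀ := by
    rw [hQ, one_zsmul, neg_zsmul, sub_eq_add_neg]
  have hQmem : Q ∈ oddRat k hns := by
    rw [hQ']
    exact kb_comb_mem k hns h5 1 (-c)
  have hD : (ht k ξ Q : ℤ) = c ^ 2 - (shortW A B).traceOfFrobenius * c + ℓ := by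
    rw [hQ', kb_ht_comb k hns h5 hΔ htr 1 (-c)]
    ring
  have hDpos : 0 < ht k ξ Q := by
    have := kb_D_pos h5 A B hΔ c
    rw [← hD] at this
    exact_mod_cast this
  obtain ⟨F, G, hFG⟩ := exists_xRat_of_mem k hns hQmem
  have hht : ht k ξ Q = hpair F G := ht_eq htr hFG
  obtain ⟨hcop, c₀, hc₀, hF, hG⟩ := hFG
  -- translates of the generic point
  have htrans : ∀ T : ((shortW A B)⁄k).Point, ∃ (ξ' η' : 𝕃)
      (hns' : ((shortW A B)⁄𝕃).Nonsingular ξ' η'), Transcendental k ξ' ∧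
      P₀ + Affine.Point.map (W' := shortW A B) ι T = Point.some ξ' η' hns' :=
    fun T => transfer_translate (shortW A B) hns htr T
  choose r s hns' htr' hsum using htrans
  -- `ψ` kills the constant points of `S`
  have hψ : ∀ T ∈ S, frobPt (shortW A B) 𝕃 (Point.some (r T) (s T) (hns' T))
      - c • Point.some (r T) (s T) (hns' T) = Q := by
    intro T hT
    rw [← hsum T, map_add, zsmul_add, transfer_frobPt_map, hS T hT, map_zsmul, hQ]
    abel
  -- the polynomial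
  set p : 𝕃[X] := F.map (algebraMap k 𝕃) * C (Q.xRep 1) - G.map (algebraMap k 𝕃) * C (Q.xRep 0)
    with hp
  have hp0 : p ≠ 0 := by
    intro h0
    have := kb_hpair_eq_zero_of_prop htr hcop hF hG h0
    omega
  have hdeg : p.natDegree ≤ hpair F G := by
    refine (natDegree_sub_le _ _).trans (max_le ?_ ?_)
    · exact (natDegree_mul_C_le _ _).trans ((natDegree_map_le).trans (le_max_left _ _))
    · exact (natDegree_mul_C_le _ _).trans ((natDegree_map_le).trans (le_max_right _ _))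
  have hroot : ∀ T ∈ S, p.IsRoot (r T) := by
    intro T hT
    obtain ⟨σ, hσ⟩ := kb_exists_algHom k (r T) (htr' T)
    set σ' : 𝕃 →ₐ[ZMod ℓ] 𝕃 := σ.restrictScalars (ZMod ℓ) with hσ'
    have hσapp : ∀ x, σ' x = σ x := fun x => rfl
    -- `σ P₀ = ± P_T`
    have hmap : Affine.Point.map (W' := shortW A B) σ' P₀ = Point.some (r T) (s T) (hns' T) ∨
        Affine.Point.map (W' := shortW A B) σ' P₀ = -Point.some (r T) (s T) (hns' T) := by
      rw [hP₀, Point.map_some]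
      apply Point.X_eq_iff.mp
      rw [hσapp, ← hξ]
      exact hσ
    -- `σ Q = ± Q`
    have hmapQ : Affine.Point.map (W' := shortW A B) σ' Q = Q ∨
        Affine.Point.map (W' := shortW A B) σ' Q = -Q := by
      have e : Affine.Point.map (W' := shortW A B) σ' Q
          = frobPt (shortW A B) 𝕃 (Affine.Point.map (W' := shortW A B) σ' P₀)
            - c • Affine.Point.map (W' := shortW A B) σ' P₀ := by
        rw [hQ, map_sub, map_zsmul, transfer_frobPt_map]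
      rcases hmap with h | h
      · left
        rw [e, h, hψ T hT]
      · right
        rw [e, h, map_neg, smul_neg, ← neg_sub', hψ T hT]
    have hfix : ∀ i, σ (Q.xRep i) = Q.xRep i := by
      intro i
      rw [← hσapp, ← kb_xRep_map]
      rcases hmapQ with h | h
      · rw [h]
      · rw [h, Point.xRep_neg]
    have eF : aeval (r T) F = σ c₀ * Q.xRep 0 := by
      rw [← hσ, hξ, Polynomial.aeval_algHom_apply, hF, map_mul, hfix]
    have eG : aeval (r T) G = σ c₀ * Q.xRep 1 := by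
      rw [← hσ, hξ, Polynomial.aeval_algHom_apply, hG, map_mul, hfix]
    rw [Polynomial.IsRoot, hp, eval_sub, eval_mul, eval_mul, eval_C, eval_C,
      eval_map_algebraMap, eval_map_algebraMap, eF, eG]
    ring
  have hinj : Set.InjOn r (S : Set ((shortW A B)⁄k).Point) := by
    intro T _ T' _ hrr
    have h := (Point.X_eq_iff (h₁ := hns' T) (h₂ := hns' T')).mp hrr
    rw [← hsum T, ← hsum T'] at h
    rcases h with h | h
    · exact Affine.Point.map_injective _ (add_left_cancel h)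
    · exfalso
      have e2 : (0 : ℤ) • frobPt (shortW A B) 𝕃 P₀ + (2 : ℤ) • P₀
          = Affine.Point.map (W' := shortW A B) ι (-T - T') := by
        rw [zero_zsmul, zero_add, two_zsmul, map_sub, map_neg]
        have := h
        rw [neg_add] at this
        calc P₀ + P₀ = (P₀ + Affine.Point.map (W' := shortW A B) ι T)
              + (P₀ - Affine.Point.map (W' := shortW A B) ι T) := by abel
          _ = (-P₀ + -Affine.Point.map (W' := shortW A B) ι T')
              + (P₀ - Affine.Point.map (W' := shortW A B) ι T) := by rw [this]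
          _ = _ := by abel
      have h4 := kb_ht_comb k hns h5 hΔ htr 0 2
      rw [e2, kb_ht_map_const htr] at h4
      norm_num at h4
  have hcard : S.card ≤ p.natDegree := by
    rw [← Finset.card_image_of_injOn hinj]
    apply Polynomial.card_le_degree_of_subset_roots
    intro x hx
    obtain ⟨T, hT, rfl⟩ := Finset.mem_image.mp (Finset.mem_def.mpr hx)
    exact (mem_roots hp0).mpr (hroot T hT)
  rw [← hD, hht]
  exact_mod_cast hcard.trans hdeg

/-- the kernel bound for a general Weierstrass equation, `ℓ ≥ 5` -/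
theorem card_frob_eq_smul_le {ℓ : ℕ} [Fact ℓ.Prime] (h5 : 5 ≤ ℓ) (W : WeierstrassCurve (ZMod ℓ))
    (hΔ : W.Δ ≠ 0) (k : Type) [Field k] [Algebra (ZMod ℓ) k] [IsAlgClosed k]
    [DecidableEq k] (c : ℤ) (S : Finset (W⁄k).Point)
    (hS : ∀ P ∈ S, frobPt W k P = c • P) :
    (S.card : ℤ) ≤ c ^ 2 - W.traceOfFrobenius * c + ℓ := by
  classical
  have hprime : ℓ.Prime := Fact.out
  have h2 : (2 : ZMod ℓ) ≠ 0 := by
    have : ((2 : ℕ) : ZMod ℓ) ≠ 0 := by
      rw [Ne, ZMod.natCast_eq_zero_iff]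
      intro h
      have := Nat.le_of_dvd (by norm_num) h
      omega
    exact_mod_cast this
  have h3 : (3 : ZMod ℓ) ≠ 0 := by
    have : ((3 : ℕ) : ZMod ℓ) ≠ 0 := by
      rw [Ne, ZMod.natCast_eq_zero_iff]
      intro h
      have := Nat.le_of_dvd (by norm_num) h
      omega
    exact_mod_cast this
  obtain ⟨h, hinj, hfrob⟩ := exists_shortHom h5 W k
  have key := card_frob_eq_smul_le_short h5 _ _ (shortW_Δ_ne_zero h5 W hΔ) k c (S.image h) (by
    intro Q hQ
    obtain ⟨P, hP, rfl⟩ := Finset.mem_image.mp hQ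
    rw [← hfrob, hS P hP, map_zsmul])
  rw [Finset.card_image_of_injective _ hinj] at key
  rw [Fermat.Agent.S52.traceOfFrobenius_eq_shortModel W h2 h3]
  exact key

end Fermat.Agent.FrobTrace
end MergeWrap_Lib_FrobTrace_KernelBound

section MergeWrap_Lib_FrobTrace_Main -- from Lib/FrobTrace/Main.lean

/-!
# FrobTrace / Main: trace and determinant of Frobenius on `E[p^j](Q̄)` (F1-full; owner: helper4)

`W / ℤ`, `ℓ ≥ 5` a good prime, `p ≠ ℓ` prime, `τ` a Frobenius element at a valuation subring `A | ℓ` of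
`Q̄`: on `E[p^j](Q̄)`, `tr τ = a_ℓ(W)` and `det τ = ℓ` in `ZMod (p^j)`.
-/

set_option autoImplicit false

open WeierstrassCurve WeierstrassCurve.Affine WeierstrassCurve.Affine.Point

namespace Fermat.Agent.FrobTrace

open Fermat.Agent.S52 (frobPt)

theorem galois_trace_det_frobenius (W : WeierstrassCurve ℤ) {ℓ p : ℕ} [Fact ℓ.Prime]
    [Fact p.Prime] (h5 : 5 ≤ ℓ) (hℓp : ℓ ≠ p) (hgood : W.IsGoodPrimeFor ℓ)
    [DecidableEq (AlgebraicClosure ℚ)]
    (A : ValuationSubring (AlgebraicClosure ℚ)) (hA : A.LiesOverPrime ℓ)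
    (τ : AlgebraicClosure ℚ ≃ₐ[ℚ] AlgebraicClosure ℚ) (hτ : A.IsFrobeniusAt τ ℓ) (j : ℕ) :
    galoisTrace ℚ (W.map (Int.castRingHom ℚ)) (p ^ j) τ = ((W.apOfModel ℓ : ℤ) : ZMod (p ^ j)) ∧
      LinearMap.det (galoisRepModuleEnd ℚ (K := AlgebraicClosure ℚ) (W.map (Int.castRingHom ℚ))
        (p ^ j) τ) = (((ℓ : ℤ)) : ZMod (p ^ j)) := by
  classical
  have hℓprime : ℓ.Prime := Fact.out
  have hpprime : p.Prime := Fact.out
  -- instances on the residue field
  haveI : CharP (IsLocalRing.ResidueField A) ℓ := charP_residueField A hA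
  letI : Algebra (ZMod ℓ) (IsLocalRing.ResidueField A) := ZMod.algebra _ ℓ
  haveI : IsAlgClosed (IsLocalRing.ResidueField A) := isAlgClosed_residueField A
  -- discriminants
  have hΔZ : W.Δ ≠ 0 := by
    intro h
    exact hgood (by rw [h]; exact dvd_zero _)
  have hΔ : ((W.map (Int.castRingHom ℚ))⁄(AlgebraicClosure ℚ)).Δ ≠ 0 := by
    change ((W.map (Int.castRingHom ℚ)).map (algebraMap ℚ (AlgebraicClosure ℚ))).Δ ≠ 0
    rw [WeierstrassCurve.map_Δ, WeierstrassCurve.map_Δ]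
    simpa using hΔZ
  have hΔℓ : (W.reductionMod ℓ).Δ ≠ 0 := by
    change (W.map (Int.castRingHom (ZMod ℓ))).Δ ≠ 0
    rw [WeierstrassCurve.map_Δ]
    intro h
    apply hgood
    have := (ZMod.intCast_zmod_eq_zero_iff_dvd W.Δ ℓ).mp (by simpa using h)
    exact this
  obtain ⟨red, hinj, hfrob⟩ := exists_reduction W hgood A hA
  -- the Galois element as an endomorphism
  let T : ((W.map (Int.castRingHom ℚ))⁄(AlgebraicClosure ℚ)).Point →+
      ((W.map (Int.castRingHom ℚ))⁄(AlgebraicClosure ℚ)).Point :=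
    DistribSMul.toAddMonoidHom _ τ
  have hT : ∀ x, T x = τ • x := fun _ => rfl
  have hnot : ∀ n : ℕ, ¬ ℓ ∣ p ^ n := by
    intro n h
    have := (Nat.prime_dvd_prime_iff_eq hℓprime hpprime).mp (hℓprime.dvd_of_dvd_pow h)
    exact hℓp this
  have hredT : ∀ x, red (T x) = frobPt (W.reductionMod ℓ) (IsLocalRing.ResidueField A) (red x) :=
    fun x => hfrob τ hτ x
  refine abstract_trace_det p T (W.apOfModel ℓ) (ℓ : ℤ) (by exact_mod_cast hℓprime.pos) ?_ ?_ ?_ ?_ j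
    (galoisRepModuleEnd ℚ (K := AlgebraicClosure ℚ) (W.map (Int.castRingHom ℚ)) (p ^ j) τ)
    (fun x => rfl)
  · intro n
    rw [Fermat.Agent.Torsion.card_torsionBy hΔ (n := p ^ n) (Nat.one_le_pow _ _ hpprime.pos)]
    ring
  · intro x _
    exact Fermat.Agent.Torsion.smul_surjective hΔ (n := p) hpprime.one_lt.le x
  · rintro x ⟨n, hn⟩
    apply hinj (p ^ n) (hnot n)
    · have hn' : ((p ^ n : ℕ) : ℤ) • x = 0 := by rw [natCast_zsmul]; exact hn
      have e : ((p ^ n : ℕ) : ℤ) • (T (T x) - W.apOfModel ℓ • T x + (ℓ : ℤ) • x)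
          = T (T (((p ^ n : ℕ) : ℤ) • x)) - W.apOfModel ℓ • T (((p ^ n : ℕ) : ℤ) • x)
            + (ℓ : ℤ) • (((p ^ n : ℕ) : ℤ) • x) := by
        simp only [map_zsmul]
        module
      rw [← natCast_zsmul, e, hn']
      simp [zsmul_zero]
    · rw [map_add, map_sub, map_zsmul, map_zsmul, hredT, hredT]
      exact frobCharEq_gen h5 (W.reductionMod ℓ) hΔℓ _ (red x)
  · intro c S hS
    have hinjS : Set.InjOn red (S : Set _) := by
      intro x hx y hy hxy
      obtain ⟨⟨n, hn⟩, -⟩ := hS x hx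
      obtain ⟨⟨m, hm⟩, -⟩ := hS y hy
      have h0 : x - y = 0 := by
        apply hinj (p ^ (n + m)) (hnot _)
        · have hn' : ((p ^ n : ℕ) : ℤ) • x = 0 := by rw [natCast_zsmul]; exact hn
          have hm' : ((p ^ m : ℕ) : ℤ) • y = 0 := by rw [natCast_zsmul]; exact hm
          have e : ((p ^ (n + m) : ℕ) : ℤ) • (x - y)
              = ((p ^ m : ℕ) : ℤ) • (((p ^ n : ℕ) : ℤ) • x)
                - ((p ^ n : ℕ) : ℤ) • (((p ^ m : ℕ) : ℤ) • y) := by
            rw [pow_add, Nat.cast_mul]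
            module
          rw [← natCast_zsmul, e, hn', hm']
          simp [zsmul_zero]
        · rw [map_sub, hxy, sub_self]
      exact sub_eq_zero.mp h0
    have key := card_frob_eq_smul_le h5 (W.reductionMod ℓ) hΔℓ (IsLocalRing.ResidueField A) c
      (S.image red) (by
        intro Q hQ
        obtain ⟨x, hx, rfl⟩ := Finset.mem_image.mp hQ
        rw [← hredT, (hS x hx).2, map_zsmul])
    rw [Finset.card_image_of_injOn hinjS] at key
    exact key

end Fermat.Agent.FrobTrace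
end MergeWrap_Lib_FrobTrace_Main

section MergeWrap_Lib_FrobTrace_DetCycloEll -- from Lib/FrobTrace/DetCycloEll.lean

/-!
# The determinant of the Galois action on `E[p^j](Q̄)` is the cyclotomic character (helper96)

`W / ℤ` with `Δ ≠ 0`, `p` prime: for every `g ∈ G_ℚ`, `det (g | E[p^j]) = χ_{p^j}(g)`.
From `galois_trace_det_frobenius` (determinant at Frobenius elements) and weak Chebotarev.
Consequences: oddness (`det (c | E[p^j]) = -1`) and the congruence form of the Prelude's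
`GaloisRepAdic.DetIsCyclotomic`.
-/

set_option autoImplicit false

open WeierstrassCurve WeierstrassCurve.Affine WeierstrassCurve.Affine.Point

namespace Fermat.Agent.FrobTrace

open Fermat.Agent.Cyclo (Qb GQ modChar)

/-- The kernel of the action of `G_ℚ` on a finite torsion module `E[n](Q̄)` is open. -/
theorem isOpen_galoisRepModuleEnd_eq_one (W' : Affine ℚ) [inst : DecidableEq Qb] (n : ℕ)
    [Finite (Submodule.torsionBy ℤ (W'⁄Qb).Point n)] :
    IsOpen {σ : GQ | galoisRepModuleEnd ℚ (K := Qb) W' n σ = 1} := by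
  obtain rfl : inst = instDecEqAlgebraicClosureRat := Subsingleton.elim _ _
  have hset : {σ : GQ | galoisRepModuleEnd ℚ (K := Qb) W' n σ = 1}
      = ⋂ x : Submodule.torsionBy ℤ (W'⁄Qb).Point n, {σ : GQ | σ • x = x} := by
    ext σ
    simp only [Set.mem_ofPred_eq, Set.mem_iInter]
    constructor
    · intro h x
      have := congrArg (fun f : Module.End (ZMod n) _ => f x) h
      simpa using this
    · intro h
      ext x
      simpa using congrArg Subtype.val (h x)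
  rw [hset]
  exact isOpen_iInter_of_finite fun x =>
    Fermat.Agent.S13Open.isOpen_stabilizer_torsion W' n x

/-- The finite set of primes excluded in the density argument. -/
noncomputable def badSet (W : WeierstrassCurve ℤ) (p : ℕ) : Finset ℕ :=
  Finset.range 5 ∪ {p} ∪ W.Δ.natAbs.primeFactors

theorem five_le_of_not_mem_badSet {W : WeierstrassCurve ℤ} {p ℓ : ℕ} (h : ℓ ∉ badSet W p) :
    5 ≤ ℓ := by
  by_contra hlt
  apply h
  simp only [badSet, Finset.mem_union, Finset.mem_range]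
  exact Or.inl (Or.inl (by omega))

theorem ne_of_not_mem_badSet {W : WeierstrassCurve ℤ} {p ℓ : ℕ} (h : ℓ ∉ badSet W p) :
    ℓ ≠ p := by
  rintro rfl
  apply h
  simp [badSet]

theorem isGoodPrimeFor_of_not_mem_badSet {W : WeierstrassCurve ℤ} (hΔ : W.Δ ≠ 0) {p ℓ : ℕ}
    (hℓ : ℓ.Prime) (h : ℓ ∉ badSet W p) : W.IsGoodPrimeFor ℓ := by
  intro hdvd
  apply h
  simp only [badSet, Finset.mem_union, Nat.mem_primeFactors]
  refine Or.inr ⟨hℓ, ?_, ?_⟩
  · exact Int.natCast_dvd.mp hdvd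
  · simpa using hΔ

theorem mem_badSet_of_dvd_pow {W : WeierstrassCurve ℤ} {p : ℕ} (hp : p.Prime) (j : ℕ) {ℓ : ℕ}
    (hℓ : ℓ.Prime) (h : ℓ ∣ p ^ j) : ℓ ∈ badSet W p := by
  have : ℓ = p := (Nat.prime_dvd_prime_iff_eq hℓ hp).mp (hℓ.dvd_of_dvd_pow h)
  subst this
  simp [badSet]

section Main

variable (W : WeierstrassCurve ℤ) (hΔ : W.Δ ≠ 0) {p : ℕ} [Fact p.Prime] [DecidableEq Qb]

include hΔ

theorem finite_torsionBy_pow (j : ℕ) :
    Finite (Submodule.torsionBy ℤ ((W.map (Int.castRingHom ℚ))⁄Qb).Point (p ^ j : ℕ)) := by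
  have hp : p.Prime := Fact.out
  have hΔ' : ((W.map (Int.castRingHom ℚ))⁄Qb).Δ ≠ 0 := by
    change ((W.map (Int.castRingHom ℚ)).map (algebraMap ℚ Qb)).Δ ≠ 0
    rw [WeierstrassCurve.map_Δ, WeierstrassCurve.map_Δ]
    simpa using hΔ
  exact Fermat.Agent.Torsion.finite_torsionBy hΔ' (n := p ^ j) (Nat.one_le_pow _ _ hp.pos)

/-- **`det ρ_{E,p^j} = χ_{p^j}`.** -/
theorem galois_det_eq_modChar (j : ℕ) (g : GQ) :
    haveI : NeZero (p ^ j) := ⟨pow_ne_zero j (Fact.out : p.Prime).ne_zero⟩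
    LinearMap.det (galoisRepModuleEnd ℚ (K := Qb) (W.map (Int.castRingHom ℚ)) (p ^ j) g)
      = ((modChar (p ^ j) g : (ZMod (p ^ j))ˣ) : ZMod (p ^ j)) := by
  haveI : NeZero (p ^ j) := ⟨pow_ne_zero j (Fact.out : p.Prime).ne_zero⟩
  have hp : p.Prime := Fact.out
  haveI := finite_torsionBy_pow W hΔ (p := p) j
  have key := det_eq_modChar_of_frobenius (p ^ j) (RingHom.id (ZMod (p ^ j)))
    (galoisRepModuleEnd ℚ (K := Qb) (W.map (Int.castRingHom ℚ)) (p ^ j))
    (isOpen_galoisRepModuleEnd_eq_one _ _) (badSet W p)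
    (fun ℓ hℓ h => mem_badSet_of_dvd_pow hp j hℓ h)
    (fun ℓ hℓ hℓS B τ hB hτ => by
      haveI : Fact ℓ.Prime := ⟨hℓ⟩
      have := (galois_trace_det_frobenius W (five_le_of_not_mem_badSet hℓS)
        (ne_of_not_mem_badSet hℓS) (isGoodPrimeFor_of_not_mem_badSet hΔ hℓ hℓS) B hB τ hτ j).2
      rw [this]
      simp) g
  simpa using key

/-- **Oddness** of the Galois action on `E[p^j]`. -/
theorem galois_det_complexConjugation (j : ℕ) :
    LinearMap.det (galoisRepModuleEnd ℚ (K := Qb) (W.map (Int.castRingHom ℚ)) (p ^ j)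
      complexConjugation) = -1 := by
  haveI : NeZero (p ^ j) := ⟨pow_ne_zero j (Fact.out : p.Prime).ne_zero⟩
  have h := galois_det_eq_modChar W hΔ (p := p) j complexConjugation
  rw [h, Fermat.Agent.Cyclo.modChar_complexConjugation (p ^ j)]
  simp

/-- Congruence form: if `σ μ = μ ^ a` on `μ_{p^j}`, then `det (σ | E[p^j]) = a`. -/
theorem galois_det_eq_natCast (j : ℕ) (σ : GQ) (a : ℕ)
    (ha : ∀ μ : Qb, μ ^ p ^ j = 1 → σ μ = μ ^ a) :
    LinearMap.det (galoisRepModuleEnd ℚ (K := Qb) (W.map (Int.castRingHom ℚ)) (p ^ j) σ)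
      = (a : ZMod (p ^ j)) := by
  haveI : NeZero (p ^ j) := ⟨pow_ne_zero j (Fact.out : p.Prime).ne_zero⟩
  have h := galois_det_eq_modChar W hΔ (p := p) j σ
  rw [h, Fermat.Agent.Cyclo.modChar_eq_natCast_of_pow (p ^ j) σ a ha]

end Main

end Fermat.Agent.FrobTrace
end MergeWrap_Lib_FrobTrace_DetCycloEll
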