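import Mathlib
import Fermat.Agent.S52.Iface
import Fermat.Agent.Lib.Torsion.CountBasic
import Fermat.Agent.F1.Defs
import Fermat.Agent.MU.F1.Ht
import Fermat.Agent.MU.F1.Mult
import Fermat.Agent.MU.F1.Transfer
import Fermat.Agent.F1.QuadEndgame
import Fermat.Agent.MU.Lib.FrobTrace.DetCycloEll

section MergeWrap_Lib_FrobTrace_Char2_Basic -- from Lib/FrobTrace/Char2/Basic.lean

/-!
# FrobTrace / Char2 / Basic: tools for `φ² - a φ + 2 = 0` over `F₂`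
(helper51)

Over `F₂` there are 16 smooth Weierstrass equations.  For each of them the relation
`φ² - a φ + 2 = 0` is checked on all points outside a finite set by explicit chord/tangent
computations (polynomial identity certificates), and extended to all points because a
homomorphism of an infinite group vanishing outside a finite set vanishes identically.

This file: the chord and tangent formulas in "relation form", Frobenius on affine points,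
the curve equation over an extension, the point count over `F₂`.
-/

set_option autoImplicit false

open WeierstrassCurve WeierstrassCurve.Affine

namespace Fermat.Agent.FrobTrace.Char2

open Fermat.Agent.S52 (frobPt)

section Field

variable {k : Type*} [Field k] [DecidableEq k]

/-- equality of affine points from equality of coordinates -/
lemma some_eq_some_of (E : Affine k) {x y X Y : k} (h : E.Nonsingular x y) (hX : x = X)
    (hY : y = Y) : ∃ h' : E.Nonsingular X Y, Point.some x y h = Point.some X Y h' := by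
  subst hX hY
  exact ⟨h, rfl⟩

/-- the chord formula in relation form -/
lemma chord_some (E : Affine k) {x₁ y₁ x₂ y₂ : k} (h₁ : E.Nonsingular x₁ y₁)
    (h₂ : E.Nonsingular x₂ y₂) (hx : x₁ - x₂ ≠ 0) {m X Y : k}
    (hm : m * (x₁ - x₂) = y₁ - y₂)
    (hX : X = m ^ 2 + E.a₁ * m - E.a₂ - x₁ - x₂)
    (hY : Y = -(m * (X - x₁) + y₁) - E.a₁ * X - E.a₃) :
    ∃ h₃ : E.Nonsingular X Y, Point.some x₁ y₁ h₁ + Point.some x₂ y₂ h₂ = Point.some X Y h₃ := by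
  have hx' : x₁ ≠ x₂ := sub_ne_zero.mp hx
  have hs : E.slope x₁ x₂ y₁ y₂ = m := by
    rw [Affine.slope_of_X_ne hx', div_eq_iff hx]
    exact hm.symm
  rw [Point.add_of_X_ne hx']
  apply some_eq_some_of
  · rw [hs, Affine.addX, hX]
  · rw [hs, Affine.addY, Affine.negAddY, Affine.negY, Affine.addX, hY, hX]

/-- the tangent formula in relation form -/
lemma tangent_some (E : Affine k) {x y : k} (h : E.Nonsingular x y)
    (hD : 2 * y + E.a₁ * x + E.a₃ ≠ 0) {l X Y : k}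
    (hl : l * (2 * y + E.a₁ * x + E.a₃) = 3 * x ^ 2 + 2 * E.a₂ * x + E.a₄ - E.a₁ * y)
    (hX : X = l ^ 2 + E.a₁ * l - E.a₂ - x - x)
    (hY : Y = -(l * (X - x) + y) - E.a₁ * X - E.a₃) :
    ∃ h₃ : E.Nonsingular X Y, Point.some x y h + Point.some x y h = Point.some X Y h₃ := by
  have hD' : y - E.negY x y ≠ 0 := by
    have : y - E.negY x y = 2 * y + E.a₁ * x + E.a₃ := by rw [Affine.negY]; ring
    rw [this]
    exact hD
  have hy : y ≠ E.negY x y := sub_ne_zero.mp hD'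
  have hs : E.slope x x y y = l := by
    rw [Affine.slope_of_Y_ne rfl hy, div_eq_iff hD']
    rw [Affine.negY]
    linear_combination -hl
  rw [Point.add_self_of_Y_ne hy]
  apply some_eq_some_of
  · rw [hs, Affine.addX, hX]
  · rw [hs, Affine.addY, Affine.negAddY, Affine.negY, Affine.addX, hY, hX]

/-- the sum of opposite points -/
lemma add_some_eq_zero (E : Affine k) {x₁ y₁ x₂ y₂ : k} (h₁ : E.Nonsingular x₁ y₁)
    (h₂ : E.Nonsingular x₂ y₂) (hx : x₁ = x₂) (hy : y₁ = -y₂ - E.a₁ * x₂ - E.a₃) :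
    Point.some x₁ y₁ h₁ + Point.some x₂ y₂ h₂ = 0 :=
  Point.add_of_Y_eq hx (by rw [Affine.negY]; exact hy)

/-- the negative of an affine point -/
lemma neg_some_eq (E : Affine k) {x y : k} (h : E.Nonsingular x y) :
    ∃ h' : E.Nonsingular x (-y - E.a₁ * x - E.a₃),
      -Point.some x y h = Point.some x (-y - E.a₁ * x - E.a₃) h' := by
  rw [Point.neg_some]
  exact ⟨_, rfl⟩

end Field

section Frob

variable {ℓ : ℕ} [Fact ℓ.Prime] (W : WeierstrassCurve (ZMod ℓ))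
variable {k : Type*} [Field k] [Algebra (ZMod ℓ) k] [DecidableEq k]

/-- Frobenius on an affine point is the coordinatewise `ℓ`-th power. -/
theorem frobPt_some_pow {x y : k} (h : (W⁄k).Nonsingular x y) :
    ∃ h' : (W⁄k).Nonsingular (x ^ ℓ) (y ^ ℓ),
      frobPt W k (Point.some x y h) = Point.some (x ^ ℓ) (y ^ ℓ) h' := by
  have hcard : Fintype.card (ZMod ℓ) = ℓ := ZMod.card ℓ
  have e : frobPt W k (Point.some x y h) = Point.some _ _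
      ((Affine.baseChange_nonsingular (W := W)
        (FiniteField.frobeniusAlgHom (ZMod ℓ) k).injective x y).mpr h) := by
    simp only [frobPt]
    exact Point.map_some _ _
  rw [e]
  apply some_eq_some_of
  · simp [hcard]
  · simp [hcard]

theorem frobPt_zero' : frobPt W k 0 = 0 := map_zero _

omit [DecidableEq k] in
lemma baseChange_a₁ : (W⁄k).a₁ = algebraMap (ZMod ℓ) k W.a₁ := rfl
omit [DecidableEq k] in
lemma baseChange_a₂ : (W⁄k).a₂ = algebraMap (ZMod ℓ) k W.a₂ := rfl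
omit [DecidableEq k] in
lemma baseChange_a₃ : (W⁄k).a₃ = algebraMap (ZMod ℓ) k W.a₃ := rfl
omit [DecidableEq k] in
lemma baseChange_a₄ : (W⁄k).a₄ = algebraMap (ZMod ℓ) k W.a₄ := rfl
omit [DecidableEq k] in
lemma baseChange_a₆ : (W⁄k).a₆ = algebraMap (ZMod ℓ) k W.a₆ := rfl

omit [DecidableEq k] in
lemma baseChange_Δ_ne_zero (hΔ : W.Δ ≠ 0) : (W⁄k).Δ ≠ 0 := by
  change (W.map (algebraMap (ZMod ℓ) k)).Δ ≠ 0
  rw [WeierstrassCurve.map_Δ]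
  exact (map_ne_zero_iff _ (FaithfulSMul.algebraMap_injective (ZMod ℓ) k)).mpr hΔ

end Frob

section Two

variable {k : Type*} [Field k] [Algebra (ZMod 2) k]

lemma two_eq_zero_of_algebra : (2 : k) = 0 := by
  have h : (2 : ZMod 2) = 0 := by decide
  have := congrArg (algebraMap (ZMod 2) k) h
  rwa [map_ofNat, map_zero] at this

lemma zmod_two_cases (a : ZMod 2) : a = 0 ∨ a = 1 := by
  revert a
  decide

end Two

end Fermat.Agent.FrobTrace.Char2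
end MergeWrap_Lib_FrobTrace_Char2_Basic

section MergeWrap_Lib_FrobTrace_Char2_Ord -- from Lib/FrobTrace/Char2/Ord.lean

/-!
# FrobTrace / Char2 / Ord: the ordinary curves over `F₂` (`a₁ = 1`), skeleton
(helper51)

For `P = (x, y)` with `x ∉ {0, 1}`: `Q = φP ∓ P` is given by the chord formula, `2P` by the
tangent formula, and `φ Q = -2P` is a pair of rational identities (`OrdIdPos`, `OrdIdNeg`),
checked curve by curve.  The finitely many other points are handled by translation.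
-/

set_option autoImplicit false

open WeierstrassCurve WeierstrassCurve.Affine

namespace Fermat.Agent.FrobTrace.Char2

open Fermat.Agent.S52 (frobPt)

/-- `x`-coordinate of the third point on a line of slope `m` -/
def cX {k : Type*} [Field k] (a1 a2 x₁ x₂ m : k) : k := m ^ 2 + a1 * m - a2 - x₁ - x₂

/-- `y`-coordinate of the sum, line of slope `m` through `(x₁, y₁)`, sum has `x`-coordinate `X` -/
def cY {k : Type*} [Field k] (a1 a3 x₁ y₁ m X : k) : k := -(m * (X - x₁) + y₁) - a1 * X - a3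

/-- `y`-coordinate of the negative -/
def nY {k : Type*} [Field k] (a1 a3 X Y : k) : k := -Y - a1 * X - a3

/-- `w² = W` from `w D = A` and `W D² = A²` -/
lemma finish_sq1 {k : Type*} [Field k] {w W D A : k} (hD : D ≠ 0) (h1 : w * D = A)
    (h2 : W * D ^ 2 = A ^ 2) : w ^ 2 = W := by
  have key : D ^ 2 * (w ^ 2 - W) = 0 := by
    linear_combination (w * D + A) * h1 - h2
  exact sub_eq_zero.mp ((mul_eq_zero.mp key).resolve_left (pow_ne_zero _ hD))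

/-- `w² = W` from `w D² = E` and `W D⁴ = E²` -/
lemma finish_sq2 {k : Type*} [Field k] {w W D E : k} (hD : D ≠ 0) (h1 : w * D ^ 2 = E)
    (h2 : W * D ^ 4 = E ^ 2) : w ^ 2 = W := by
  have key : D ^ 4 * (w ^ 2 - W) = 0 := by
    linear_combination (w * D ^ 2 + E) * h1 - h2
  exact sub_eq_zero.mp ((mul_eq_zero.mp key).resolve_left (pow_ne_zero _ hD))

/-- identity package, ordinary case, `φ(φP - P) = -2P` (trace `+1`) -/
def OrdIdPos {k : Type*} [Field k] (a1 a2 a3 a4 a6 : k) : Prop :=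
  ∀ x y m l : k, y ^ 2 + a1 * x * y + a3 * y = x ^ 3 + a2 * x ^ 2 + a4 * x + a6 →
    x ^ 2 - x ≠ 0 → 2 * y + a1 * x + a3 ≠ 0 →
    m * (x ^ 2 - x) = y ^ 2 - (-y - a1 * x - a3) →
    l * (2 * y + a1 * x + a3) = 3 * x ^ 2 + 2 * a2 * x + a4 - a1 * y →
    (cX a1 a2 (x ^ 2) x m) ^ 2 = cX a1 a2 x x l ∧
    (cY a1 a3 (x ^ 2) (y ^ 2) m (cX a1 a2 (x ^ 2) x m)) ^ 2
      = nY a1 a3 (cX a1 a2 x x l) (cY a1 a3 x y l (cX a1 a2 x x l))

/-- identity package, ordinary case, `φ(φP + P) = -2P` (trace `-1`) -/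
def OrdIdNeg {k : Type*} [Field k] (a1 a2 a3 a4 a6 : k) : Prop :=
  ∀ x y m l : k, y ^ 2 + a1 * x * y + a3 * y = x ^ 3 + a2 * x ^ 2 + a4 * x + a6 →
    x ^ 2 - x ≠ 0 → 2 * y + a1 * x + a3 ≠ 0 →
    m * (x ^ 2 - x) = y ^ 2 - y →
    l * (2 * y + a1 * x + a3) = 3 * x ^ 2 + 2 * a2 * x + a4 - a1 * y →
    (cX a1 a2 (x ^ 2) x m) ^ 2 = cX a1 a2 x x l ∧
    (cY a1 a3 (x ^ 2) (y ^ 2) m (cX a1 a2 (x ^ 2) x m)) ^ 2
      = nY a1 a3 (cX a1 a2 x x l) (cY a1 a3 x y l (cX a1 a2 x x l))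

section Skeleton

variable (W : WeierstrassCurve (ZMod 2))
variable (k : Type*) [Field k] [Algebra (ZMod 2) k] [DecidableEq k]

/-- a homomorphism vanishing at all affine points with `x ∉ {0, 1}` vanishes identically -/
lemma hom_eq_zero_of_generic [IsAlgClosed k] (hΔ : W.Δ ≠ 0)
    (ψ : (W⁄k).Point →+ (W⁄k).Point)
    (h : ∀ (x y : k) (hxy : (W⁄k).Nonsingular x y), x ≠ 0 → x ≠ 1 →
      ψ (Point.some x y hxy) = 0) (P : (W⁄k).Point) : ψ P = 0 := by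
  haveI : Infinite k := IsAlgClosed.instInfinite
  haveI : Infinite (W⁄k).Point :=
    Fermat.Agent.Torsion.infinite_point (baseChange_Δ_ne_zero W hΔ)
  have hfin : ((ψ.ker : Set (W⁄k).Point)ᶜ).Finite := by
    have hS : ({0, 1} : Set k).Finite := Set.toFinite _
    refine (Fermat.Agent.Torsion.finite_px_mem (W := W⁄k) ({0, 1} : Set k) hS).subset ?_
    intro Q hQ
    rcases Q with _ | ⟨x, y, hxy⟩
    · exfalso
      apply hQ
      change ψ 0 = 0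
      exact map_zero ψ
    · refine ⟨Point.some_ne_zero _, ?_⟩
      by_contra hx
      apply hQ
      change ψ (Point.some x y hxy) = 0
      apply h
      · intro h0
        exact hx (Or.inl h0)
      · intro h1
        exact hx (Or.inr h1)
  have htop := Fermat.Agent.Torsion.addSubgroup_eq_top_of_finite_compl ψ.ker hfin
  have : P ∈ ψ.ker := by rw [htop]; trivial
  exact this

variable {W k}

/-- the generic computation, ordinary case -/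
lemma ord_generic (e1 : W.a₁ = 1) (s : Bool)
    (hid : if s then OrdIdPos (W⁄k).a₁ (W⁄k).a₂ (W⁄k).a₃ (W⁄k).a₄ (W⁄k).a₆
      else OrdIdNeg (W⁄k).a₁ (W⁄k).a₂ (W⁄k).a₃ (W⁄k).a₄ (W⁄k).a₆)
    (x y : k) (hxy : (W⁄k).Nonsingular x y) (hx0 : x ≠ 0) (hx1 : x ≠ 1) :
    frobPt W k (frobPt W k (Point.some x y hxy)
        + (if s then -Point.some x y hxy else Point.some x y hxy))
      + (Point.some x y hxy + Point.some x y hxy) = 0 := by
  have h2 : (2 : k) = 0 := two_eq_zero_of_algebra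
  have hC := hxy.1
  rw [Affine.equation_iff] at hC
  have ea1 : (W⁄k).a₁ = 1 := by rw [baseChange_a₁, e1, map_one]
  have hD1 : x ^ 2 - x ≠ 0 := by
    have : x ^ 2 - x = x * (x - 1) := by ring
    rw [this]
    exact mul_ne_zero hx0 (sub_ne_zero.mpr hx1)
  have hD2 : 2 * y + (W⁄k).a₁ * x + (W⁄k).a₃ ≠ 0 := by
    rw [ea1, baseChange_a₃]
    rcases zmod_two_cases W.a₃ with e3 | e3
    · rw [e3, map_zero]
      intro h0
      apply hx0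
      linear_combination h0 - y * h2
    · rw [e3, map_one]
      intro h0
      apply hx1
      linear_combination h0 - (y + 1) * h2
  obtain ⟨h₁, hφ⟩ := frobPt_some_pow W hxy
  obtain ⟨hn, hneg⟩ := neg_some_eq (W⁄k) hxy
  -- the tangent
  set l : k := (3 * x ^ 2 + 2 * (W⁄k).a₂ * x + (W⁄k).a₄ - (W⁄k).a₁ * y)
    / (2 * y + (W⁄k).a₁ * x + (W⁄k).a₃) with hldef
  have hl : l * (2 * y + (W⁄k).a₁ * x + (W⁄k).a₃)
      = 3 * x ^ 2 + 2 * (W⁄k).a₂ * x + (W⁄k).a₄ - (W⁄k).a₁ * y := by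
    rw [hldef, div_mul_cancel₀ _ hD2]
  obtain ⟨h₂, hdbl⟩ := tangent_some (W⁄k) hxy hD2 hl rfl rfl
  cases s with
  | true =>
    simp only [if_true] at hid ⊢
    set m : k := (y ^ 2 - (-y - (W⁄k).a₁ * x - (W⁄k).a₃)) / (x ^ 2 - x) with hmdef
    have hm : m * (x ^ 2 - x) = y ^ 2 - (-y - (W⁄k).a₁ * x - (W⁄k).a₃) := by
      rw [hmdef, div_mul_cancel₀ _ hD1]
    obtain ⟨hQ, hchord⟩ := chord_some (W⁄k) h₁ hn hD1 hm rfl rfl
    obtain ⟨h₃, hφQ⟩ := frobPt_some_pow W hQ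
    obtain ⟨hX, hY⟩ := hid x y m l hC hD1 hD2 hm hl
    rw [hφ, hneg, hchord, hφQ, hdbl]
    exact add_some_eq_zero (W⁄k) h₃ h₂ hX hY
  | false =>
    simp only [Bool.false_eq_true, if_false] at hid ⊢
    set m : k := (y ^ 2 - y) / (x ^ 2 - x) with hmdef
    have hm : m * (x ^ 2 - x) = y ^ 2 - y := by
      rw [hmdef, div_mul_cancel₀ _ hD1]
    obtain ⟨hQ, hchord⟩ := chord_some (W⁄k) h₁ hxy hD1 hm rfl rfl
    obtain ⟨h₃, hφQ⟩ := frobPt_some_pow W hQ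
    obtain ⟨hX, hY⟩ := hid x y m l hC hD1 hD2 hm hl
    rw [hφ, hchord, hφQ, hdbl]
    exact add_some_eq_zero (W⁄k) h₃ h₂ hX hY

/-- ordinary case, trace `+1` -/
theorem ord_pos [IsAlgClosed k] (e1 : W.a₁ = 1) (hΔ : W.Δ ≠ 0)
    (hid : OrdIdPos (W⁄k).a₁ (W⁄k).a₂ (W⁄k).a₃ (W⁄k).a₄ (W⁄k).a₆) (P : (W⁄k).Point) :
    frobPt W k (frobPt W k P) - frobPt W k P + (P + P) = 0 := by
  have key := hom_eq_zero_of_generic W k hΔ
    ((frobPt W k).comp (frobPt W k) - frobPt W k + (AddMonoidHom.id _ + AddMonoidHom.id _))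
    (by
      intro x y hxy hx0 hx1
      have := ord_generic e1 true (by simpa using hid) x y hxy hx0 hx1
      simp only [if_true] at this
      change frobPt W k (frobPt W k (Point.some x y hxy)) - frobPt W k (Point.some x y hxy)
        + (Point.some x y hxy + Point.some x y hxy) = 0
      rw [← this, map_add, map_neg, sub_eq_add_neg]) P
  exact key

/-- ordinary case, trace `-1` -/
theorem ord_neg [IsAlgClosed k] (e1 : W.a₁ = 1) (hΔ : W.Δ ≠ 0)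
    (hid : OrdIdNeg (W⁄k).a₁ (W⁄k).a₂ (W⁄k).a₃ (W⁄k).a₄ (W⁄k).a₆) (P : (W⁄k).Point) :
    frobPt W k (frobPt W k P) + frobPt W k P + (P + P) = 0 := by
  have key := hom_eq_zero_of_generic W k hΔ
    ((frobPt W k).comp (frobPt W k) + frobPt W k + (AddMonoidHom.id _ + AddMonoidHom.id _))
    (by
      intro x y hxy hx0 hx1
      have := ord_generic e1 false (by simpa using hid) x y hxy hx0 hx1
      simp only [Bool.false_eq_true, if_false] at this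
      change frobPt W k (frobPt W k (Point.some x y hxy)) + frobPt W k (Point.some x y hxy)
        + (Point.some x y hxy + Point.some x y hxy) = 0
      rw [← this, map_add]) P
  exact key

end Skeleton

end Fermat.Agent.FrobTrace.Char2
end MergeWrap_Lib_FrobTrace_Char2_Ord

section MergeWrap_Lib_FrobTrace_Char2_OrdId -- from Lib/FrobTrace/Char2/OrdId.lean

/-!
# FrobTrace / Char2 / OrdId: the identity certificates for the 8 ordinary curves over `F₂`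
(helper51; generated by a script)

For `Q = φP ∓ P = (X_Q, Y_Q)` and `D = 2y + x + a₃`: `X_Q D = A(x)`, `Y_Q D² = E(x, y)` (chord
formula), and `x(2P) D² = A²`, `y(-2P) D⁴ = E²` (tangent formula), with explicit polynomials
`A`, `E`; each is a `linear_combination` of the slope relation, the curve equation and `2 = 0`.
-/

set_option autoImplicit false

namespace Fermat.Agent.FrobTrace.Char2

theorem ordId_c10001 {k : Type*} [Field k] (h2 : (2 : k) = 0) :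
    OrdIdNeg (1 : k) 0 0 0 1 := by
  unfold OrdIdNeg
  intro x y m l hC hD1 hD2 hm hl
  have h1X : cX 1 0 (x ^ 2) x m * (2 * y + 1 * x + 0) = (x ^ 2 + 1) := by
    have key : (x ^ 2 - x) ^ 2 * (cX 1 0 (x ^ 2) x m * (2 * y + 1 * x + 0) - (x ^ 2 + 1)) = 0 := by
      simp only [cX]
      linear_combination (x ^ 3 * m + x ^ 3 + x ^ 2 * m + x ^ 2 + x * y ^ 2 + x * y) * hm + (x ^ 4
        + x ^ 2 * y + x ^ 2 + x * y ^ 2) * hC + (-x ^ 6 * y + x ^ 5 * y + 2 * x ^ 5 + x ^ 4 * y * m ^ 2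
        + x ^ 4 * y * m + x ^ 4 * y - x ^ 4 * m ^ 2 - x ^ 4 * m - x ^ 4 - 2 * x ^ 3 * y * m ^ 2
        - 3 * x ^ 3 * y * m - 2 * x ^ 3 * y + x ^ 3 * m ^ 2 + x ^ 3 * m + x ^ 3 - x ^ 2 * y ^ 3
        + x ^ 2 * y ^ 2 * m + x ^ 2 * y * m ^ 2 + x ^ 2 * y * m) * h2
    exact sub_eq_zero.mp ((mul_eq_zero.mp key).resolve_left (pow_ne_zero _ hD1))
  have h1Y : cY 1 0 (x ^ 2) (y ^ 2) m (cX 1 0 (x ^ 2) x m) * (2 * y + 1 * x + 0) ^ 2
      = (x ^ 3 + x ^ 2 * y + x ^ 2 + y + 1) := by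
    have key : (x ^ 2 - x) ^ 3 * (cY 1 0 (x ^ 2) (y ^ 2) m (cX 1 0 (x ^ 2) x m) * (2 * y + 1 * x + 0) ^ 2
        - (x ^ 3 + x ^ 2 * y + x ^ 2 + y + 1)) = 0 := by
      simp only [cX, cY]
      linear_combination (x ^ 7 + x ^ 6 * m ^ 2 + x ^ 6 + x ^ 5 + x ^ 4 * y ^ 2 * m + x ^ 4 * y * m
        + x ^ 4 * m ^ 2 + x ^ 4 + x ^ 3 * y ^ 2 * m + x ^ 3 * y * m + x ^ 2 * y ^ 4 + x ^ 2 * y ^ 2) * hm
        + (x ^ 7 + x ^ 6 + x ^ 5 * y ^ 2 + x ^ 4 * y ^ 2 + x ^ 4 * y + x ^ 4 + x ^ 3 * y ^ 3 + x ^ 3 * y ^ 2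
        + x ^ 3 * y + x ^ 3 + x ^ 2 * y ^ 4 + x ^ 2 * y ^ 3) * hC + (x ^ 10 * m + x ^ 10 + 4 * x ^ 9 * y * m
        + 2 * x ^ 9 * y - 3 * x ^ 9 * m - x ^ 9 + 4 * x ^ 8 * y ^ 2 * m + 2 * x ^ 8 * y ^ 2 - 10 * x ^ 8 * y * m
        - 5 * x ^ 8 * y - x ^ 8 * m ^ 3 - x ^ 8 * m ^ 2 + x ^ 8 * m + x ^ 8 - 2 * x ^ 7 * y ^ 3
        - 10 * x ^ 7 * y ^ 2 * m - 2 * x ^ 7 * y ^ 2 - 2 * x ^ 7 * y * m ^ 3 - 4 * x ^ 7 * y * m ^ 2
        + 4 * x ^ 7 * y * m + x ^ 7 * y + 2 * x ^ 7 * m ^ 3 + 3 * x ^ 7 * m ^ 2 + 2 * x ^ 7 * m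
        + 2 * x ^ 7 - 2 * x ^ 6 * y ^ 4 + 6 * x ^ 6 * y ^ 3 - 2 * x ^ 6 * y ^ 2 * m ^ 3 - 4 * x ^ 6 * y ^ 2 * m ^ 2
        + 4 * x ^ 6 * y ^ 2 * m - x ^ 6 * y ^ 2 + 6 * x ^ 6 * y * m ^ 3 + 11 * x ^ 6 * y * m ^ 2
        + 8 * x ^ 6 * y * m + 2 * x ^ 6 * y - 2 * x ^ 6 * m ^ 3 - 3 * x ^ 6 * m ^ 2 - 2 * x ^ 6 * m
        - x ^ 6 + 6 * x ^ 5 * y ^ 4 - 6 * x ^ 5 * y ^ 3 + 6 * x ^ 5 * y ^ 2 * m ^ 3 + 12 * x ^ 5 * y ^ 2 * m ^ 2
        + 8 * x ^ 5 * y ^ 2 * m + 5 * x ^ 5 * y ^ 2 - 6 * x ^ 5 * y * m ^ 3 - 12 * x ^ 5 * y * m ^ 2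
        - 8 * x ^ 5 * y * m - x ^ 5 * y + x ^ 5 * m ^ 3 + x ^ 5 * m ^ 2 + x ^ 5 * m + 2 * x ^ 5
        - 7 * x ^ 4 * y ^ 4 + x ^ 4 * y ^ 3 - 6 * x ^ 4 * y ^ 2 * m ^ 3 - 11 * x ^ 4 * y ^ 2 * m ^ 2
        - 9 * x ^ 4 * y ^ 2 * m - 2 * x ^ 4 * y ^ 2 + 2 * x ^ 4 * y * m ^ 3 + 4 * x ^ 4 * y * m ^ 2
        + 2 * x ^ 4 * y * m - 2 * x ^ 4 * y - x ^ 4 - x ^ 3 * y ^ 5 + x ^ 3 * y ^ 4 * m + x ^ 3 * y ^ 4
        + 2 * x ^ 3 * y ^ 2 * m ^ 3 + 4 * x ^ 3 * y ^ 2 * m ^ 2 + 2 * x ^ 3 * y ^ 2 * m + x ^ 3 * y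
        + x ^ 3 - x ^ 2 * y ^ 5 + x ^ 2 * y ^ 4) * h2
    exact sub_eq_zero.mp ((mul_eq_zero.mp key).resolve_left (pow_ne_zero _ hD1))
  have h2X : cX 1 0 x x l * (2 * y + 1 * x + 0) ^ 2 = (x ^ 2 + 1) ^ 2 := by
    simp only [cX]
    linear_combination (x ^ 2 + x * l + x + y) * hl + (1) * hC + (x ^ 4 + x ^ 3 * l + x ^ 3 - x ^ 2 * y * l
      - 3 * x ^ 2 * y - x ^ 2 - 4 * x * y ^ 2 + x * y * l ^ 2 - x * y + 2 * y ^ 2 * l ^ 2 + y ^ 2 * l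
      - y ^ 2) * h2
  have h2Y : nY 1 0 (cX 1 0 x x l) (cY 1 0 x y l (cX 1 0 x x l)) * (2 * y + 1 * x + 0) ^ 4
      = (x ^ 3 + x ^ 2 * y + x ^ 2 + y + 1) ^ 2 := by
    simp only [cX, cY, nY]
    linear_combination (x ^ 5 + x ^ 4 * l + x ^ 3 * l ^ 2 + x ^ 3 * l + x ^ 2 * y * l + x ^ 2 * y
      + x * y ^ 2) * hl + (x ^ 4 + x ^ 3 + x * y + 1) * hC + (2 * x ^ 7 + x ^ 6 * l - x ^ 5 * y * l
      - 2 * x ^ 5 * y + x ^ 5 * l ^ 2 - x ^ 5 - x ^ 4 * y ^ 2 - x ^ 4 * y * l ^ 2 - 11 * x ^ 4 * y * l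
      + x ^ 4 * y - 36 * x ^ 3 * y ^ 2 * l + 5 * x ^ 3 * y ^ 2 + 3 * x ^ 3 * y * l ^ 3 + 2 * x ^ 3 * y * l ^ 2
      - x ^ 3 * y * l - x ^ 3 * y - 48 * x ^ 2 * y ^ 3 * l + 12 * x ^ 2 * y ^ 3 + 12 * x ^ 2 * y ^ 2 * l ^ 3
      + 11 * x ^ 2 * y ^ 2 * l ^ 2 - 2 * x ^ 2 * y ^ 2 * l - 2 * x ^ 2 * y ^ 2 - 2 * x ^ 2 * y
      - x ^ 2 - 24 * x * y ^ 4 * l + 16 * x * y ^ 4 + 16 * x * y ^ 3 * l ^ 3 + 16 * x * y ^ 3 * l ^ 2
      - x * y ^ 3 * l - x * y ^ 3 + 8 * y ^ 5 + 8 * y ^ 4 * l ^ 3 + 8 * y ^ 4 * l ^ 2 - y ^ 2 - y) * h2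
  exact ⟨finish_sq1 hD2 h1X h2X, finish_sq2 hD2 h1Y h2Y⟩

theorem ordId_c10010 {k : Type*} [Field k] (h2 : (2 : k) = 0) :
    OrdIdNeg (1 : k) 0 0 1 0 := by
  unfold OrdIdNeg
  intro x y m l hC hD1 hD2 hm hl
  have h1X : cX 1 0 (x ^ 2) x m * (2 * y + 1 * x + 0) = (x ^ 2 + 1) := by
    have key : (x ^ 2 - x) ^ 2 * (cX 1 0 (x ^ 2) x m * (2 * y + 1 * x + 0) - (x ^ 2 + 1)) = 0 := by
      simp only [cX]
      linear_combination (x ^ 3 * m + x ^ 3 + x ^ 2 * m + x ^ 2 + x * y ^ 2 + x * y) * hm + (x ^ 4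
        + x ^ 2 * y + x * y ^ 2 + x) * hC + (-x ^ 6 * y + x ^ 5 * y + 2 * x ^ 5 + x ^ 4 * y * m ^ 2
        + x ^ 4 * y * m + x ^ 4 * y - x ^ 4 * m ^ 2 - x ^ 4 * m - x ^ 4 - 2 * x ^ 3 * y * m ^ 2
        - 3 * x ^ 3 * y * m - x ^ 3 * y + x ^ 3 * m ^ 2 + x ^ 3 * m + x ^ 3 - x ^ 2 * y ^ 3 + x ^ 2 * y ^ 2 * m
        + x ^ 2 * y ^ 2 + x ^ 2 * y * m ^ 2 + x ^ 2 * y * m - x ^ 2 * y - x * y ^ 2) * h2
    exact sub_eq_zero.mp ((mul_eq_zero.mp key).resolve_left (pow_ne_zero _ hD1))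
  have h1Y : cY 1 0 (x ^ 2) (y ^ 2) m (cX 1 0 (x ^ 2) x m) * (2 * y + 1 * x + 0) ^ 2
      = (x ^ 3 + x ^ 2 * y + x ^ 2 + y) := by
    have key : (x ^ 2 - x) ^ 3 * (cY 1 0 (x ^ 2) (y ^ 2) m (cX 1 0 (x ^ 2) x m) * (2 * y + 1 * x + 0) ^ 2
        - (x ^ 3 + x ^ 2 * y + x ^ 2 + y)) = 0 := by
      simp only [cX, cY]
      linear_combination (x ^ 7 + x ^ 6 * m ^ 2 + x ^ 6 + x ^ 5 + x ^ 4 * y ^ 2 * m + x ^ 4 * y * m
        + x ^ 4 * m ^ 2 + x ^ 4 + x ^ 3 * y ^ 2 * m + x ^ 3 * y * m + x ^ 2 * y ^ 4 + x ^ 2 * y ^ 2) * hm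
        + (x ^ 7 + x ^ 6 + x ^ 5 * y ^ 2 + x ^ 5 + x ^ 4 * y ^ 2 + x ^ 4 * y + x ^ 4 + x ^ 3 * y ^ 3
        + x ^ 2 * y ^ 4 + x ^ 2 * y ^ 3 + x ^ 2 * y ^ 2 + x ^ 2 * y) * hC + (x ^ 10 * m + x ^ 10
        + 4 * x ^ 9 * y * m + 2 * x ^ 9 * y - 3 * x ^ 9 * m - x ^ 9 + 4 * x ^ 8 * y ^ 2 * m + 2 * x ^ 8 * y ^ 2
        - 10 * x ^ 8 * y * m - 5 * x ^ 8 * y - x ^ 8 * m ^ 3 - x ^ 8 * m ^ 2 + x ^ 8 * m + 2 * x ^ 8
        - 2 * x ^ 7 * y ^ 3 - 10 * x ^ 7 * y ^ 2 * m - 2 * x ^ 7 * y ^ 2 - 2 * x ^ 7 * y * m ^ 3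
        - 4 * x ^ 7 * y * m ^ 2 + 4 * x ^ 7 * y * m + x ^ 7 * y + 2 * x ^ 7 * m ^ 3 + 3 * x ^ 7 * m ^ 2
        + 2 * x ^ 7 * m + 2 * x ^ 7 - 2 * x ^ 6 * y ^ 4 + 6 * x ^ 6 * y ^ 3 - 2 * x ^ 6 * y ^ 2 * m ^ 3
        - 4 * x ^ 6 * y ^ 2 * m ^ 2 + 4 * x ^ 6 * y ^ 2 * m - x ^ 6 * y ^ 2 + 6 * x ^ 6 * y * m ^ 3
        + 11 * x ^ 6 * y * m ^ 2 + 8 * x ^ 6 * y * m + x ^ 6 * y - 2 * x ^ 6 * m ^ 3 - 3 * x ^ 6 * m ^ 2
        - 2 * x ^ 6 * m - x ^ 6 + 6 * x ^ 5 * y ^ 4 - 6 * x ^ 5 * y ^ 3 + 6 * x ^ 5 * y ^ 2 * m ^ 3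
        + 12 * x ^ 5 * y ^ 2 * m ^ 2 + 8 * x ^ 5 * y ^ 2 * m + 5 * x ^ 5 * y ^ 2 - 6 * x ^ 5 * y * m ^ 3
        - 12 * x ^ 5 * y * m ^ 2 - 8 * x ^ 5 * y * m + x ^ 5 * m ^ 3 + x ^ 5 * m ^ 2 + x ^ 5 * m
        + x ^ 5 - 7 * x ^ 4 * y ^ 4 + 2 * x ^ 4 * y ^ 3 - 6 * x ^ 4 * y ^ 2 * m ^ 3 - 11 * x ^ 4 * y ^ 2 * m ^ 2
        - 9 * x ^ 4 * y ^ 2 * m - 2 * x ^ 4 * y ^ 2 + 2 * x ^ 4 * y * m ^ 3 + 4 * x ^ 4 * y * m ^ 2
        + 2 * x ^ 4 * y * m - 2 * x ^ 4 * y - x ^ 3 * y ^ 5 + x ^ 3 * y ^ 4 * m + 2 * x ^ 3 * y ^ 4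
        + 2 * x ^ 3 * y ^ 2 * m ^ 3 + 4 * x ^ 3 * y ^ 2 * m ^ 2 + 2 * x ^ 3 * y ^ 2 * m + x ^ 3 * y
        - x ^ 2 * y ^ 5 - x ^ 2 * y ^ 3) * h2
    exact sub_eq_zero.mp ((mul_eq_zero.mp key).resolve_left (pow_ne_zero _ hD1))
  have h2X : cX 1 0 x x l * (2 * y + 1 * x + 0) ^ 2 = (x ^ 2 + 1) ^ 2 := by
    simp only [cX]
    linear_combination (x ^ 2 + x * l + x + y + 1) * hl + (1) * hC + (x ^ 4 + x ^ 3 * l + x ^ 3
      - x ^ 2 * y * l - 3 * x ^ 2 * y + x ^ 2 - 4 * x * y ^ 2 + x * y * l ^ 2 - x * y + x + 2 * y ^ 2 * l ^ 2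
      + y ^ 2 * l - y ^ 2 - y * l) * h2
  have h2Y : nY 1 0 (cX 1 0 x x l) (cY 1 0 x y l (cX 1 0 x x l)) * (2 * y + 1 * x + 0) ^ 4
      = (x ^ 3 + x ^ 2 * y + x ^ 2 + y) ^ 2 := by
    simp only [cX, cY, nY]
    linear_combination (x ^ 5 + x ^ 4 * l + x ^ 3 * l ^ 2 + x ^ 3 * l + x ^ 2 * y * l + x ^ 2 * y
      + x ^ 2 * l + x ^ 2 + x * y ^ 2 + x) * hl + (x ^ 4 + x ^ 3 + x * y + x + 1) * hC + (2 * x ^ 7
      + x ^ 6 * l - x ^ 5 * y * l - 2 * x ^ 5 * y + x ^ 5 * l ^ 2 - x ^ 4 * y ^ 2 - x ^ 4 * y * l ^ 2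
      - 11 * x ^ 4 * y * l + x ^ 4 * y + 2 * x ^ 4 * l + 2 * x ^ 4 - 36 * x ^ 3 * y ^ 2 * l + 5 * x ^ 3 * y ^ 2
      + 3 * x ^ 3 * y * l ^ 3 + 2 * x ^ 3 * y * l ^ 2 - x ^ 3 * y * l - x ^ 3 * y + 2 * x ^ 3 - 48 * x ^ 2 * y ^ 3 * l
      + 12 * x ^ 2 * y ^ 3 + 12 * x ^ 2 * y ^ 2 * l ^ 3 + 11 * x ^ 2 * y ^ 2 * l ^ 2 - 2 * x ^ 2 * y ^ 2 * l
      - 2 * x ^ 2 * y ^ 2 - x ^ 2 * y * l ^ 2 - x ^ 2 * y * l - x ^ 2 * y + x ^ 2 - 24 * x * y ^ 4 * l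
      + 16 * x * y ^ 4 + 16 * x * y ^ 3 * l ^ 3 + 16 * x * y ^ 3 * l ^ 2 - x * y ^ 3 * l - x * y ^ 3
      - x * y * l - x * y + x + 8 * y ^ 5 + 8 * y ^ 4 * l ^ 3 + 8 * y ^ 4 * l ^ 2 - y ^ 2) * h2
  exact ⟨finish_sq1 hD2 h1X h2X, finish_sq2 hD2 h1Y h2Y⟩

theorem ordId_c10101 {k : Type*} [Field k] (h2 : (2 : k) = 0) :
    OrdIdPos (1 : k) 0 1 0 1 := by
  unfold OrdIdPos
  intro x y m l hC hD1 hD2 hm hl
  have h1X : cX 1 0 (x ^ 2) x m * (2 * y + 1 * x + 1) = (x ^ 2 + x + 1) := by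
    have key : (x ^ 2 - x) ^ 2 * (cX 1 0 (x ^ 2) x m * (2 * y + 1 * x + 1) - (x ^ 2 + x + 1)) = 0 := by
      simp only [cX]
      linear_combination (x ^ 3 * m + x ^ 3 + x ^ 2 + x * y ^ 2 + x * y + x * m + x + y ^ 2 + y
        + 1) * hm + (x ^ 4 + x ^ 3 + x ^ 2 * y + x ^ 2 + x * y ^ 2 + y ^ 2 + y + 1) * hC + (-x ^ 6 * y
        + x ^ 5 * y + 2 * x ^ 5 + x ^ 4 * y * m ^ 2 + x ^ 4 * y * m + x ^ 4 - 2 * x ^ 3 * y * m ^ 2
        - 2 * x ^ 3 * y * m - x ^ 3 * y - x ^ 3 * m ^ 2 + 2 * x ^ 3 - x ^ 2 * y ^ 3 + x ^ 2 * y * m ^ 2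
        + x ^ 2 * y * m + x ^ 2 * y + x ^ 2 * m ^ 2 + x ^ 2 * m + x ^ 2 + x * y ^ 2 * m + 2 * x * y ^ 2
        + x * y * m + x * y + x * m + x + y ^ 2 + y + 1) * h2
    exact sub_eq_zero.mp ((mul_eq_zero.mp key).resolve_left (pow_ne_zero _ hD1))
  have h1Y : cY 1 1 (x ^ 2) (y ^ 2) m (cX 1 0 (x ^ 2) x m) * (2 * y + 1 * x + 1) ^ 2
      = (x ^ 2 * y + x ^ 2 + x) := by
    have key : (x ^ 2 - x) ^ 3 * (cY 1 1 (x ^ 2) (y ^ 2) m (cX 1 0 (x ^ 2) x m) * (2 * y + 1 * x + 1) ^ 2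
        - (x ^ 2 * y + x ^ 2 + x)) = 0 := by
      simp only [cX, cY]
      linear_combination (x ^ 7 + x ^ 6 * m ^ 2 + x ^ 6 + x ^ 5 * m + x ^ 4 * y ^ 2 * m + x ^ 4 * y * m
        + x ^ 4 + x ^ 3 * y ^ 2 * m + x ^ 3 * y * m + x ^ 3 + x ^ 2 * y ^ 4 + x ^ 2 * y ^ 2 * m
        + x ^ 2 * y ^ 2 + x ^ 2 * y * m + x ^ 2 * m ^ 2 + x ^ 2 + x * y ^ 2 * m + x * y * m + x * m
        + y ^ 4 + y ^ 2 + 1) * hm + (x ^ 7 + x ^ 5 * y ^ 2 + x ^ 4 * y ^ 2 + x ^ 4 * y + x ^ 3 * y ^ 3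
        + x ^ 3 * y ^ 2 + x ^ 2 * y ^ 4 + x ^ 2 * y + x ^ 2 + x * y ^ 3 + x + y ^ 4 + y ^ 2 + 1) * hC
        + (x ^ 10 * m + x ^ 10 + 4 * x ^ 9 * y * m + 2 * x ^ 9 * y - x ^ 9 * m + 4 * x ^ 8 * y ^ 2 * m
        + 2 * x ^ 8 * y ^ 2 - 6 * x ^ 8 * y * m - 3 * x ^ 8 * y - x ^ 8 * m ^ 3 - x ^ 8 * m ^ 2
        - 3 * x ^ 8 * m - 2 * x ^ 8 - 2 * x ^ 7 * y ^ 3 - 10 * x ^ 7 * y ^ 2 * m - 3 * x ^ 7 * y ^ 2
        - 2 * x ^ 7 * y * m ^ 3 - 4 * x ^ 7 * y * m ^ 2 - 6 * x ^ 7 * y * m - 4 * x ^ 7 * y + x ^ 7 * m ^ 3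
        + x ^ 7 * m ^ 2 + 2 * x ^ 7 * m + 3 * x ^ 7 - 2 * x ^ 6 * y ^ 4 + 4 * x ^ 6 * y ^ 3 - 2 * x ^ 6 * y ^ 2 * m ^ 3
        - 4 * x ^ 6 * y ^ 2 * m ^ 2 + 4 * x ^ 6 * y ^ 2 * m + 4 * x ^ 6 * y * m ^ 3 + 8 * x ^ 6 * y * m ^ 2
        + 12 * x ^ 6 * y * m + 7 * x ^ 6 * y + x ^ 6 * m ^ 3 + 3 * x ^ 6 * m ^ 2 + 3 * x ^ 6 * m
        + 3 * x ^ 6 + 6 * x ^ 5 * y ^ 4 - x ^ 5 * y ^ 3 + 6 * x ^ 5 * y ^ 2 * m ^ 3 + 12 * x ^ 5 * y ^ 2 * m ^ 2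
        + 9 * x ^ 5 * y ^ 2 * m + 9 * x ^ 5 * y ^ 2 + x ^ 5 * y * m + 3 * x ^ 5 * y - x ^ 5 * m ^ 3
        - 2 * x ^ 5 * m ^ 2 - x ^ 5 * m - x ^ 5 - 7 * x ^ 4 * y ^ 4 + x ^ 4 * y ^ 3 * m - 5 * x ^ 4 * y ^ 3
        - 6 * x ^ 4 * y ^ 2 * m ^ 3 - 12 * x ^ 4 * y ^ 2 * m ^ 2 - 7 * x ^ 4 * y ^ 2 * m - 8 * x ^ 4 * y ^ 2
        - 4 * x ^ 4 * y * m ^ 3 - 8 * x ^ 4 * y * m ^ 2 - 5 * x ^ 4 * y * m - 5 * x ^ 4 * y - x ^ 4 * m ^ 3
        - x ^ 4 * m ^ 2 - x ^ 4 * m + x ^ 4 - x ^ 3 * y ^ 5 + x ^ 3 * y ^ 4 * m + 2 * x ^ 3 * y ^ 4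
        + x ^ 3 * y ^ 3 * m + 2 * x ^ 3 * y ^ 3 + 2 * x ^ 3 * y ^ 2 * m ^ 3 + 4 * x ^ 3 * y ^ 2 * m ^ 2
        + 4 * x ^ 3 * y ^ 2 * m + 4 * x ^ 3 * y ^ 2 + 2 * x ^ 3 * y * m ^ 3 + 4 * x ^ 3 * y * m ^ 2
        + 3 * x ^ 3 * y * m + 2 * x ^ 3 * y + x ^ 3 * m ^ 3 + x ^ 3 * m ^ 2 + x ^ 3 * m + 2 * x ^ 3
        + x ^ 2 * y ^ 4 + x ^ 2 * y ^ 3 * m + x ^ 2 * y ^ 2 * m ^ 2 + x ^ 2 * y ^ 2 * m + x ^ 2 * y * m ^ 2
        + x ^ 2 * y * m + x ^ 2 * m ^ 2 + x ^ 2 - x * y ^ 5 + x * y ^ 4 * m + x * y ^ 3 * m + 2 * x * y ^ 2 * m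
        + x * y * m - x * y + x * m + x + y ^ 4 + y ^ 2 + 1) * h2
    exact sub_eq_zero.mp ((mul_eq_zero.mp key).resolve_left (pow_ne_zero _ hD1))
  have h2X : cX 1 0 x x l * (2 * y + 1 * x + 1) ^ 2 = (x ^ 2 + x + 1) ^ 2 := by
    simp only [cX]
    linear_combination (x ^ 2 + x * l + x + y + l + 1) * hl + (1) * hC + (x ^ 4 + x ^ 3 * l - x ^ 2 * y * l
      - 3 * x ^ 2 * y + x ^ 2 * l - 2 * x ^ 2 - 4 * x * y ^ 2 + x * y * l ^ 2 - 5 * x * y - 2 * x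
      + 2 * y ^ 2 * l ^ 2 + y ^ 2 * l - y ^ 2 + y * l ^ 2 - y) * h2
  have h2Y : nY 1 1 (cX 1 0 x x l) (cY 1 1 x y l (cX 1 0 x x l)) * (2 * y + 1 * x + 1) ^ 4
      = (x ^ 2 * y + x ^ 2 + x) ^ 2 := by
    simp only [cX, cY, nY]
    linear_combination (x ^ 5 + x ^ 4 * l + x ^ 4 + x ^ 3 * l ^ 2 + x ^ 3 * l + x ^ 3 + x ^ 2 * y * l
      + x ^ 2 * y + x ^ 2 * l ^ 2 + x * y ^ 2 + x * l ^ 2 + x * l + x + y ^ 2 + y * l + y + l ^ 2
      + l) * hl + (x ^ 4 + x ^ 3 + x ^ 2 + x * y + y) * hC + (2 * x ^ 7 + x ^ 6 * l + 2 * x ^ 6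
      - x ^ 5 * y * l - x ^ 5 * y + x ^ 5 * l ^ 2 - x ^ 5 * l + 2 * x ^ 5 - x ^ 4 * y ^ 2 - x ^ 4 * y * l ^ 2
      - 12 * x ^ 4 * y * l + x ^ 4 * l ^ 2 - 7 * x ^ 4 * l - 36 * x ^ 3 * y ^ 2 * l + 5 * x ^ 3 * y ^ 2
      + 3 * x ^ 3 * y * l ^ 3 + 2 * x ^ 3 * y * l ^ 2 - 38 * x ^ 3 * y * l + x ^ 3 * l ^ 3 + 3 * x ^ 3 * l ^ 2
      - 8 * x ^ 3 * l + x ^ 3 - 48 * x ^ 2 * y ^ 3 * l + 12 * x ^ 2 * y ^ 3 + 12 * x ^ 2 * y ^ 2 * l ^ 3
      + 11 * x ^ 2 * y ^ 2 * l ^ 2 - 74 * x ^ 2 * y ^ 2 * l + 12 * x ^ 2 * y ^ 2 + 11 * x ^ 2 * y * l ^ 3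
      + 11 * x ^ 2 * y * l ^ 2 - 35 * x ^ 2 * y * l + 4 * x ^ 2 * y + 2 * x ^ 2 * l ^ 3 + 4 * x ^ 2 * l ^ 2
      - 5 * x ^ 2 * l - 24 * x * y ^ 4 * l + 16 * x * y ^ 4 + 16 * x * y ^ 3 * l ^ 3 + 16 * x * y ^ 3 * l ^ 2
      - 49 * x * y ^ 3 * l + 23 * x * y ^ 3 + 24 * x * y ^ 2 * l ^ 3 + 24 * x * y ^ 2 * l ^ 2 - 37 * x * y ^ 2 * l
      + 11 * x * y ^ 2 + 11 * x * y * l ^ 3 + 10 * x * y * l ^ 2 - 14 * x * y * l + 2 * x * y + x * l ^ 3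
      + x * l ^ 2 - 2 * x * l + 8 * y ^ 5 + 8 * y ^ 4 * l ^ 3 + 8 * y ^ 4 * l ^ 2 + 16 * y ^ 4
      + 16 * y ^ 3 * l ^ 3 + 16 * y ^ 3 * l ^ 2 - y ^ 3 * l + 11 * y ^ 3 + 12 * y ^ 2 * l ^ 3 + 11 * y ^ 2 * l ^ 2
      - 2 * y ^ 2 * l + 3 * y ^ 2 + 3 * y * l ^ 3 + 2 * y * l ^ 2 - y * l + y) * h2
  exact ⟨finish_sq1 hD2 h1X h2X, finish_sq2 hD2 h1Y h2Y⟩

theorem ordId_c10111 {k : Type*} [Field k] (h2 : (2 : k) = 0) :
    OrdIdPos (1 : k) 0 1 1 1 := by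
  unfold OrdIdPos
  intro x y m l hC hD1 hD2 hm hl
  have h1X : cX 1 0 (x ^ 2) x m * (2 * y + 1 * x + 1) = (x ^ 2 + x + 1) := by
    have key : (x ^ 2 - x) ^ 2 * (cX 1 0 (x ^ 2) x m * (2 * y + 1 * x + 1) - (x ^ 2 + x + 1)) = 0 := by
      simp only [cX]
      linear_combination (x ^ 3 * m + x ^ 3 + x ^ 2 + x * y ^ 2 + x * y + x * m + x + y ^ 2 + y
        + 1) * hm + (x ^ 4 + x ^ 3 + x ^ 2 * y + x * y ^ 2 + x + y ^ 2 + y + 1) * hC + (-x ^ 6 * y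
        + x ^ 5 * y + 2 * x ^ 5 + x ^ 4 * y * m ^ 2 + x ^ 4 * y * m + 2 * x ^ 4 - 2 * x ^ 3 * y * m ^ 2
        - 2 * x ^ 3 * y * m - x ^ 3 * m ^ 2 + 2 * x ^ 3 - x ^ 2 * y ^ 3 + x ^ 2 * y ^ 2 + x ^ 2 * y * m ^ 2
        + x ^ 2 * y * m + x ^ 2 * y + x ^ 2 * m ^ 2 + x ^ 2 * m + x ^ 2 + x * y ^ 2 * m + 2 * x * y ^ 2
        + x * y * m + x * y + x * m + 2 * x + y ^ 2 + y + 1) * h2
    exact sub_eq_zero.mp ((mul_eq_zero.mp key).resolve_left (pow_ne_zero _ hD1))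
  have h1Y : cY 1 1 (x ^ 2) (y ^ 2) m (cX 1 0 (x ^ 2) x m) * (2 * y + 1 * x + 1) ^ 2
      = (x ^ 2 * y + x ^ 2 + x + 1) := by
    have key : (x ^ 2 - x) ^ 3 * (cY 1 1 (x ^ 2) (y ^ 2) m (cX 1 0 (x ^ 2) x m) * (2 * y + 1 * x + 1) ^ 2
        - (x ^ 2 * y + x ^ 2 + x + 1)) = 0 := by
      simp only [cX, cY]
      linear_combination (x ^ 7 + x ^ 6 * m ^ 2 + x ^ 6 + x ^ 5 * m + x ^ 4 * y ^ 2 * m + x ^ 4 * y * m
        + x ^ 4 + x ^ 3 * y ^ 2 * m + x ^ 3 * y * m + x ^ 3 + x ^ 2 * y ^ 4 + x ^ 2 * y ^ 2 * m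
        + x ^ 2 * y ^ 2 + x ^ 2 * y * m + x ^ 2 * m ^ 2 + x ^ 2 + x * y ^ 2 * m + x * y * m + x * m
        + y ^ 4 + y ^ 2 + 1) * hm + (x ^ 7 + x ^ 5 * y ^ 2 + x ^ 5 + x ^ 4 * y ^ 2 + x ^ 4 * y
        + x ^ 3 * y ^ 3 + x ^ 3 * y + x ^ 2 * y ^ 4 + x ^ 2 * y + x ^ 2 + x * y ^ 3 + x * y ^ 2
        + x * y + y ^ 4 + y ^ 2 + 1) * hC + (x ^ 10 * m + x ^ 10 + 4 * x ^ 9 * y * m + 2 * x ^ 9 * y
        - x ^ 9 * m + 4 * x ^ 8 * y ^ 2 * m + 2 * x ^ 8 * y ^ 2 - 6 * x ^ 8 * y * m - 3 * x ^ 8 * y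
        - x ^ 8 * m ^ 3 - x ^ 8 * m ^ 2 - 3 * x ^ 8 * m - x ^ 8 - 2 * x ^ 7 * y ^ 3 - 10 * x ^ 7 * y ^ 2 * m
        - 3 * x ^ 7 * y ^ 2 - 2 * x ^ 7 * y * m ^ 3 - 4 * x ^ 7 * y * m ^ 2 - 6 * x ^ 7 * y * m
        - 4 * x ^ 7 * y + x ^ 7 * m ^ 3 + x ^ 7 * m ^ 2 + 2 * x ^ 7 * m + 3 * x ^ 7 - 2 * x ^ 6 * y ^ 4
        + 4 * x ^ 6 * y ^ 3 - 2 * x ^ 6 * y ^ 2 * m ^ 3 - 4 * x ^ 6 * y ^ 2 * m ^ 2 + 4 * x ^ 6 * y ^ 2 * m
        + 4 * x ^ 6 * y * m ^ 3 + 8 * x ^ 6 * y * m ^ 2 + 12 * x ^ 6 * y * m + 7 * x ^ 6 * y + x ^ 6 * m ^ 3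
        + 3 * x ^ 6 * m ^ 2 + 3 * x ^ 6 * m + 3 * x ^ 6 + 6 * x ^ 5 * y ^ 4 - x ^ 5 * y ^ 3 + 6 * x ^ 5 * y ^ 2 * m ^ 3
        + 12 * x ^ 5 * y ^ 2 * m ^ 2 + 9 * x ^ 5 * y ^ 2 * m + 9 * x ^ 5 * y ^ 2 + x ^ 5 * y * m
        + 3 * x ^ 5 * y - x ^ 5 * m ^ 3 - 2 * x ^ 5 * m ^ 2 - x ^ 5 * m + x ^ 5 - 7 * x ^ 4 * y ^ 4
        + x ^ 4 * y ^ 3 * m - 4 * x ^ 4 * y ^ 3 - 6 * x ^ 4 * y ^ 2 * m ^ 3 - 12 * x ^ 4 * y ^ 2 * m ^ 2
        - 7 * x ^ 4 * y ^ 2 * m - 8 * x ^ 4 * y ^ 2 - 4 * x ^ 4 * y * m ^ 3 - 8 * x ^ 4 * y * m ^ 2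
        - 5 * x ^ 4 * y * m - 4 * x ^ 4 * y - x ^ 4 * m ^ 3 - x ^ 4 * m ^ 2 - x ^ 4 * m - x ^ 4
        - x ^ 3 * y ^ 5 + x ^ 3 * y ^ 4 * m + 3 * x ^ 3 * y ^ 4 + x ^ 3 * y ^ 3 * m + 2 * x ^ 3 * y ^ 3
        + 2 * x ^ 3 * y ^ 2 * m ^ 3 + 4 * x ^ 3 * y ^ 2 * m ^ 2 + 4 * x ^ 3 * y ^ 2 * m + 3 * x ^ 3 * y ^ 2
        + 2 * x ^ 3 * y * m ^ 3 + 4 * x ^ 3 * y * m ^ 2 + 3 * x ^ 3 * y * m + 3 * x ^ 3 * y + x ^ 3 * m ^ 3
        + x ^ 3 * m ^ 2 + x ^ 3 * m + 3 * x ^ 3 + x ^ 2 * y ^ 4 + x ^ 2 * y ^ 3 * m + x ^ 2 * y ^ 2 * m ^ 2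
        + x ^ 2 * y ^ 2 * m + x ^ 2 * y * m ^ 2 + x ^ 2 * y * m + x ^ 2 * y + x ^ 2 * m ^ 2 + x ^ 2
        - x * y ^ 5 + x * y ^ 4 * m + x * y ^ 3 * m - x * y ^ 3 + 2 * x * y ^ 2 * m + x * y ^ 2
        + x * y * m + x * m + x + y ^ 4 + y ^ 2 + 1) * h2
    exact sub_eq_zero.mp ((mul_eq_zero.mp key).resolve_left (pow_ne_zero _ hD1))
  have h2X : cX 1 0 x x l * (2 * y + 1 * x + 1) ^ 2 = (x ^ 2 + x + 1) ^ 2 := by
    simp only [cX]
    linear_combination (x ^ 2 + x * l + x + y + l) * hl + (1) * hC + (x ^ 4 + x ^ 3 * l - x ^ 2 * y * l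
      - 3 * x ^ 2 * y + x ^ 2 * l - 3 * x ^ 2 - 4 * x * y ^ 2 + x * y * l ^ 2 - 5 * x * y + x * l
      - x + 2 * y ^ 2 * l ^ 2 + y ^ 2 * l - y ^ 2 + y * l ^ 2 + y * l + l) * h2
  have h2Y : nY 1 1 (cX 1 0 x x l) (cY 1 1 x y l (cX 1 0 x x l)) * (2 * y + 1 * x + 1) ^ 4
      = (x ^ 2 * y + x ^ 2 + x + 1) ^ 2 := by
    simp only [cX, cY, nY]
    linear_combination (x ^ 5 + x ^ 4 * l + x ^ 4 + x ^ 3 * l ^ 2 + x ^ 3 * l + x ^ 3 + x ^ 2 * y * l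
      + x ^ 2 * y + x ^ 2 * l ^ 2 + x ^ 2 * l + x ^ 2 + x * y ^ 2 + x * l ^ 2 + x * l + y ^ 2 + y * l
      + y + l ^ 2) * hl + (x ^ 4 + x ^ 3 + x ^ 2 + x * y + x + y + 1) * hC + (2 * x ^ 7 + x ^ 6 * l
      + 2 * x ^ 6 - x ^ 5 * y * l - x ^ 5 * y + x ^ 5 * l ^ 2 - x ^ 5 * l + 3 * x ^ 5 - x ^ 4 * y ^ 2
      - x ^ 4 * y * l ^ 2 - 12 * x ^ 4 * y * l + x ^ 4 * l ^ 2 - 5 * x ^ 4 * l + 3 * x ^ 4 - 36 * x ^ 3 * y ^ 2 * l
      + 5 * x ^ 3 * y ^ 2 + 3 * x ^ 3 * y * l ^ 3 + 2 * x ^ 3 * y * l ^ 2 - 38 * x ^ 3 * y * l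
      + x ^ 3 * l ^ 3 + 3 * x ^ 3 * l ^ 2 - 8 * x ^ 3 * l + x ^ 3 - 48 * x ^ 2 * y ^ 3 * l + 12 * x ^ 2 * y ^ 3
      + 12 * x ^ 2 * y ^ 2 * l ^ 3 + 11 * x ^ 2 * y ^ 2 * l ^ 2 - 74 * x ^ 2 * y ^ 2 * l + 12 * x ^ 2 * y ^ 2
      + 11 * x ^ 2 * y * l ^ 3 + 10 * x ^ 2 * y * l ^ 2 - 36 * x ^ 2 * y * l + 3 * x ^ 2 * y + 2 * x ^ 2 * l ^ 3
      + 4 * x ^ 2 * l ^ 2 - 6 * x ^ 2 * l - 24 * x * y ^ 4 * l + 16 * x * y ^ 4 + 16 * x * y ^ 3 * l ^ 3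
      + 16 * x * y ^ 3 * l ^ 2 - 49 * x * y ^ 3 * l + 23 * x * y ^ 3 + 24 * x * y ^ 2 * l ^ 3 + 24 * x * y ^ 2 * l ^ 2
      - 37 * x * y ^ 2 * l + 11 * x * y ^ 2 + 11 * x * y * l ^ 3 + 10 * x * y * l ^ 2 - 13 * x * y * l
      + 2 * x * y + x * l ^ 3 + 2 * x * l ^ 2 - x * l + 8 * y ^ 5 + 8 * y ^ 4 * l ^ 3 + 8 * y ^ 4 * l ^ 2
      + 16 * y ^ 4 + 16 * y ^ 3 * l ^ 3 + 16 * y ^ 3 * l ^ 2 - y ^ 3 * l + 11 * y ^ 3 + 12 * y ^ 2 * l ^ 3
      + 11 * y ^ 2 * l ^ 2 - 2 * y ^ 2 * l + 3 * y ^ 2 + 3 * y * l ^ 3 + 3 * y * l ^ 2 + y + l ^ 2) * h2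
  exact ⟨finish_sq1 hD2 h1X h2X, finish_sq2 hD2 h1Y h2Y⟩

theorem ordId_c11001 {k : Type*} [Field k] (h2 : (2 : k) = 0) :
    OrdIdPos (1 : k) 1 0 0 1 := by
  unfold OrdIdPos
  intro x y m l hC hD1 hD2 hm hl
  have h1X : cX 1 1 (x ^ 2) x m * (2 * y + 1 * x + 0) = (x ^ 2 + 1) := by
    have key : (x ^ 2 - x) ^ 2 * (cX 1 1 (x ^ 2) x m * (2 * y + 1 * x + 0) - (x ^ 2 + 1)) = 0 := by
      simp only [cX]
      linear_combination (x ^ 3 * m + x ^ 3 + x ^ 2 * m + x * y ^ 2 + x * y) * hm + (x ^ 4 + x ^ 3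
        + x ^ 2 * y + x ^ 2 + x * y ^ 2) * hC + (-x ^ 6 * y + x ^ 6 + x ^ 5 * y + 2 * x ^ 5 + x ^ 4 * y * m ^ 2
        + x ^ 4 * y * m - x ^ 4 * m ^ 2 + x ^ 4 - 2 * x ^ 3 * y * m ^ 2 - 2 * x ^ 3 * y * m + x ^ 3 * y
        + x ^ 3 * m ^ 2 + x ^ 3 * m + x ^ 3 - x ^ 2 * y ^ 3 + x ^ 2 * y ^ 2 * m + x ^ 2 * y * m ^ 2
        + 2 * x ^ 2 * y * m + x * y ^ 3 + x * y ^ 2) * h2
    exact sub_eq_zero.mp ((mul_eq_zero.mp key).resolve_left (pow_ne_zero _ hD1))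
  have h1Y : cY 1 0 (x ^ 2) (y ^ 2) m (cX 1 1 (x ^ 2) x m) * (2 * y + 1 * x + 0) ^ 2
      = (x ^ 2 * y + x ^ 2 + x + y + 1) := by
    have key : (x ^ 2 - x) ^ 3 * (cY 1 0 (x ^ 2) (y ^ 2) m (cX 1 1 (x ^ 2) x m) * (2 * y + 1 * x + 0) ^ 2
        - (x ^ 2 * y + x ^ 2 + x + y + 1)) = 0 := by
      simp only [cX, cY]
      linear_combination (x ^ 7 + x ^ 6 * m ^ 2 + x ^ 5 * m + x ^ 5 + x ^ 4 * y ^ 2 * m + x ^ 4 * y * m
        + x ^ 4 * m ^ 2 + x ^ 4 * m + x ^ 4 + x ^ 3 * y ^ 2 * m + x ^ 3 * y * m + x ^ 2 * y ^ 4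
        + x ^ 2 * y ^ 2) * hm + (x ^ 7 + x ^ 6 + x ^ 5 * y ^ 2 + x ^ 4 * y + x ^ 3 * y ^ 3 + x ^ 3 * y
        + x ^ 3 + x ^ 2 * y ^ 4 + x ^ 2 * y ^ 3) * hC + (x ^ 10 * m + x ^ 10 + 4 * x ^ 9 * y * m
        + 2 * x ^ 9 * y - 3 * x ^ 9 * m + 4 * x ^ 8 * y ^ 2 * m + 2 * x ^ 8 * y ^ 2 - 10 * x ^ 8 * y * m
        - 5 * x ^ 8 * y - x ^ 8 * m ^ 3 - x ^ 8 * m ^ 2 + 2 * x ^ 8 * m + x ^ 8 - 2 * x ^ 7 * y ^ 3
        - 10 * x ^ 7 * y ^ 2 * m - 2 * x ^ 7 * y ^ 2 - 2 * x ^ 7 * y * m ^ 3 - 4 * x ^ 7 * y * m ^ 2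
        + 6 * x ^ 7 * y * m + 4 * x ^ 7 * y + 2 * x ^ 7 * m ^ 3 + 3 * x ^ 7 * m ^ 2 + x ^ 7 - 2 * x ^ 6 * y ^ 4
        + 6 * x ^ 6 * y ^ 3 - 2 * x ^ 6 * y ^ 2 * m ^ 3 - 4 * x ^ 6 * y ^ 2 * m ^ 2 + 6 * x ^ 6 * y ^ 2 * m
        + 6 * x ^ 6 * y * m ^ 3 + 12 * x ^ 6 * y * m ^ 2 + 2 * x ^ 6 * y * m - 3 * x ^ 6 * y - 2 * x ^ 6 * m ^ 3
        - 3 * x ^ 6 * m ^ 2 + 2 * x ^ 6 + 6 * x ^ 5 * y ^ 4 - 5 * x ^ 5 * y ^ 3 + 6 * x ^ 5 * y ^ 2 * m ^ 3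
        + 12 * x ^ 5 * y ^ 2 * m ^ 2 + 3 * x ^ 5 * y ^ 2 * m - x ^ 5 * y ^ 2 - 6 * x ^ 5 * y * m ^ 3
        - 12 * x ^ 5 * y * m ^ 2 - x ^ 5 * y * m + 7 * x ^ 5 * y + x ^ 5 * m ^ 3 + 2 * x ^ 5 * m ^ 2
        + x ^ 5 * m + x ^ 5 - 6 * x ^ 4 * y ^ 4 + x ^ 4 * y ^ 3 * m + 2 * x ^ 4 * y ^ 3 - 6 * x ^ 4 * y ^ 2 * m ^ 3
        - 11 * x ^ 4 * y ^ 2 * m ^ 2 - x ^ 4 * y ^ 2 * m + 4 * x ^ 4 * y ^ 2 + 2 * x ^ 4 * y * m ^ 3
        + 5 * x ^ 4 * y * m ^ 2 + x ^ 4 * y * m - 3 * x ^ 4 * y - x ^ 4 - x ^ 3 * y ^ 5 + x ^ 3 * y ^ 4 * m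
        + 2 * x ^ 3 * y ^ 4 + x ^ 3 * y ^ 3 * m + 2 * x ^ 3 * y ^ 2 * m ^ 3 + 4 * x ^ 3 * y ^ 2 * m ^ 2
        + x ^ 3 * y ^ 2 * m - 2 * x ^ 3 * y ^ 2 + x ^ 3 * y + x ^ 3 + x ^ 2 * y ^ 4 + x ^ 2 * y ^ 3) * h2
    exact sub_eq_zero.mp ((mul_eq_zero.mp key).resolve_left (pow_ne_zero _ hD1))
  have h2X : cX 1 1 x x l * (2 * y + 1 * x + 0) ^ 2 = (x ^ 2 + 1) ^ 2 := by
    simp only [cX]
    linear_combination (x ^ 2 + x * l + x + y) * hl + (1) * hC + (x ^ 4 + x ^ 3 * l + 2 * x ^ 3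
      - x ^ 2 * y * l - 3 * x ^ 2 * y + x ^ 2 * l - 4 * x * y ^ 2 + x * y * l ^ 2 - 2 * x * y + 2 * y ^ 2 * l ^ 2
      + y ^ 2 * l - 3 * y ^ 2) * h2
  have h2Y : nY 1 0 (cX 1 1 x x l) (cY 1 0 x y l (cX 1 1 x x l)) * (2 * y + 1 * x + 0) ^ 4
      = (x ^ 2 * y + x ^ 2 + x + y + 1) ^ 2 := by
    simp only [cX, cY, nY]
    linear_combination (x ^ 5 + x ^ 4 * l + x ^ 3 * l ^ 2 + x ^ 3 * l + x ^ 3 + x ^ 2 * y * l + x ^ 2 * y
      + x * y ^ 2) * hl + (x ^ 4 + x ^ 3 + x * y + 1) * hC + (2 * x ^ 7 + x ^ 6 * l + 2 * x ^ 6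
      - x ^ 5 * y * l - x ^ 5 * y + x ^ 5 * l ^ 2 + x ^ 5 * l + 2 * x ^ 5 - x ^ 4 * y ^ 2 - x ^ 4 * y * l ^ 2
      - 11 * x ^ 4 * y * l + x ^ 4 * y + x ^ 4 * l ^ 2 + x ^ 4 - 36 * x ^ 3 * y ^ 2 * l + 5 * x ^ 3 * y ^ 2
      + 3 * x ^ 3 * y * l ^ 3 + 2 * x ^ 3 * y * l ^ 2 - 5 * x ^ 3 * y * l - 48 * x ^ 2 * y ^ 3 * l
      + 12 * x ^ 2 * y ^ 3 + 12 * x ^ 2 * y ^ 2 * l ^ 3 + 11 * x ^ 2 * y ^ 2 * l ^ 2 - 14 * x ^ 2 * y ^ 2 * l
      - x ^ 2 * y ^ 2 - 2 * x ^ 2 * y - x ^ 2 - 24 * x * y ^ 4 * l + 16 * x * y ^ 4 + 16 * x * y ^ 3 * l ^ 3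
      + 16 * x * y ^ 3 * l ^ 2 - 17 * x * y ^ 3 * l - x * y ^ 3 - x * y - x + 8 * y ^ 5 + 8 * y ^ 4 * l ^ 3
      + 8 * y ^ 4 * l ^ 2 - 8 * y ^ 4 * l - y ^ 2 - y) * h2
  exact ⟨finish_sq1 hD2 h1X h2X, finish_sq2 hD2 h1Y h2Y⟩

theorem ordId_c11010 {k : Type*} [Field k] (h2 : (2 : k) = 0) :
    OrdIdPos (1 : k) 1 0 1 0 := by
  unfold OrdIdPos
  intro x y m l hC hD1 hD2 hm hl
  have h1X : cX 1 1 (x ^ 2) x m * (2 * y + 1 * x + 0) = (x ^ 2 + 1) := by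
    have key : (x ^ 2 - x) ^ 2 * (cX 1 1 (x ^ 2) x m * (2 * y + 1 * x + 0) - (x ^ 2 + 1)) = 0 := by
      simp only [cX]
      linear_combination (x ^ 3 * m + x ^ 3 + x ^ 2 * m + x * y ^ 2 + x * y) * hm + (x ^ 4 + x ^ 3
        + x ^ 2 * y + x * y ^ 2 + x) * hC + (-x ^ 6 * y + x ^ 6 + x ^ 5 * y + 2 * x ^ 5 + x ^ 4 * y * m ^ 2
        + x ^ 4 * y * m - x ^ 4 * m ^ 2 + x ^ 4 - 2 * x ^ 3 * y * m ^ 2 - 2 * x ^ 3 * y * m + 2 * x ^ 3 * y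
        + x ^ 3 * m ^ 2 + x ^ 3 * m + x ^ 3 - x ^ 2 * y ^ 3 + x ^ 2 * y ^ 2 * m + x ^ 2 * y ^ 2
        + x ^ 2 * y * m ^ 2 + 2 * x ^ 2 * y * m - x ^ 2 * y + x * y ^ 3) * h2
    exact sub_eq_zero.mp ((mul_eq_zero.mp key).resolve_left (pow_ne_zero _ hD1))
  have h1Y : cY 1 0 (x ^ 2) (y ^ 2) m (cX 1 1 (x ^ 2) x m) * (2 * y + 1 * x + 0) ^ 2
      = (x ^ 2 * y + x ^ 2 + x + y) := by
    have key : (x ^ 2 - x) ^ 3 * (cY 1 0 (x ^ 2) (y ^ 2) m (cX 1 1 (x ^ 2) x m) * (2 * y + 1 * x + 0) ^ 2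
        - (x ^ 2 * y + x ^ 2 + x + y)) = 0 := by
      simp only [cX, cY]
      linear_combination (x ^ 7 + x ^ 6 * m ^ 2 + x ^ 5 * m + x ^ 5 + x ^ 4 * y ^ 2 * m + x ^ 4 * y * m
        + x ^ 4 * m ^ 2 + x ^ 4 * m + x ^ 4 + x ^ 3 * y ^ 2 * m + x ^ 3 * y * m + x ^ 2 * y ^ 4
        + x ^ 2 * y ^ 2) * hm + (x ^ 7 + x ^ 6 + x ^ 5 * y ^ 2 + x ^ 5 + x ^ 4 * y + x ^ 4 + x ^ 3 * y ^ 3
        + x ^ 3 * y ^ 2 + x ^ 3 + x ^ 2 * y ^ 4 + x ^ 2 * y ^ 3 + x ^ 2 * y ^ 2 + x ^ 2 * y) * hC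
        + (x ^ 10 * m + x ^ 10 + 4 * x ^ 9 * y * m + 2 * x ^ 9 * y - 3 * x ^ 9 * m + 4 * x ^ 8 * y ^ 2 * m
        + 2 * x ^ 8 * y ^ 2 - 10 * x ^ 8 * y * m - 5 * x ^ 8 * y - x ^ 8 * m ^ 3 - x ^ 8 * m ^ 2
        + 2 * x ^ 8 * m + 2 * x ^ 8 - 2 * x ^ 7 * y ^ 3 - 10 * x ^ 7 * y ^ 2 * m - 2 * x ^ 7 * y ^ 2
        - 2 * x ^ 7 * y * m ^ 3 - 4 * x ^ 7 * y * m ^ 2 + 6 * x ^ 7 * y * m + 4 * x ^ 7 * y + 2 * x ^ 7 * m ^ 3
        + 3 * x ^ 7 * m ^ 2 + 2 * x ^ 7 - 2 * x ^ 6 * y ^ 4 + 6 * x ^ 6 * y ^ 3 - 2 * x ^ 6 * y ^ 2 * m ^ 3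
        - 4 * x ^ 6 * y ^ 2 * m ^ 2 + 6 * x ^ 6 * y ^ 2 * m + x ^ 6 * y ^ 2 + 6 * x ^ 6 * y * m ^ 3
        + 12 * x ^ 6 * y * m ^ 2 + 2 * x ^ 6 * y * m - 4 * x ^ 6 * y - 2 * x ^ 6 * m ^ 3 - 3 * x ^ 6 * m ^ 2
        + 3 * x ^ 6 + 6 * x ^ 5 * y ^ 4 - 5 * x ^ 5 * y ^ 3 + 6 * x ^ 5 * y ^ 2 * m ^ 3 + 12 * x ^ 5 * y ^ 2 * m ^ 2
        + 3 * x ^ 5 * y ^ 2 * m - x ^ 5 * y ^ 2 - 6 * x ^ 5 * y * m ^ 3 - 12 * x ^ 5 * y * m ^ 2
        - x ^ 5 * y * m + 7 * x ^ 5 * y + x ^ 5 * m ^ 3 + 2 * x ^ 5 * m ^ 2 + x ^ 5 * m - 6 * x ^ 4 * y ^ 4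
        + x ^ 4 * y ^ 3 * m + 2 * x ^ 4 * y ^ 3 - 6 * x ^ 4 * y ^ 2 * m ^ 3 - 11 * x ^ 4 * y ^ 2 * m ^ 2
        - x ^ 4 * y ^ 2 * m + 5 * x ^ 4 * y ^ 2 + 2 * x ^ 4 * y * m ^ 3 + 5 * x ^ 4 * y * m ^ 2
        + x ^ 4 * y * m - 3 * x ^ 4 * y + x ^ 4 - x ^ 3 * y ^ 5 + x ^ 3 * y ^ 4 * m + 2 * x ^ 3 * y ^ 4
        + x ^ 3 * y ^ 3 * m + 2 * x ^ 3 * y ^ 2 * m ^ 3 + 4 * x ^ 3 * y ^ 2 * m ^ 2 + x ^ 3 * y ^ 2 * m
        - 2 * x ^ 3 * y ^ 2 + x ^ 3 * y) * h2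
    exact sub_eq_zero.mp ((mul_eq_zero.mp key).resolve_left (pow_ne_zero _ hD1))
  have h2X : cX 1 1 x x l * (2 * y + 1 * x + 0) ^ 2 = (x ^ 2 + 1) ^ 2 := by
    simp only [cX]
    linear_combination (x ^ 2 + x * l + x + y + 1) * hl + (1) * hC + (x ^ 4 + x ^ 3 * l + 2 * x ^ 3
      - x ^ 2 * y * l - 3 * x ^ 2 * y + x ^ 2 * l + 2 * x ^ 2 - 4 * x * y ^ 2 + x * y * l ^ 2 - 2 * x * y
      + 2 * x + 2 * y ^ 2 * l ^ 2 + y ^ 2 * l - 3 * y ^ 2 - y * l) * h2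
  have h2Y : nY 1 0 (cX 1 1 x x l) (cY 1 0 x y l (cX 1 1 x x l)) * (2 * y + 1 * x + 0) ^ 4
      = (x ^ 2 * y + x ^ 2 + x + y) ^ 2 := by
    simp only [cX, cY, nY]
    linear_combination (x ^ 5 + x ^ 4 * l + x ^ 3 * l ^ 2 + x ^ 3 * l + x ^ 3 + x ^ 2 * y * l + x ^ 2 * y
      + x ^ 2 * l + x ^ 2 + x * y ^ 2 + x) * hl + (x ^ 4 + x ^ 3 + x * y + x + 1) * hC + (2 * x ^ 7
      + x ^ 6 * l + 2 * x ^ 6 - x ^ 5 * y * l - x ^ 5 * y + x ^ 5 * l ^ 2 + x ^ 5 * l + 3 * x ^ 5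
      - x ^ 4 * y ^ 2 - x ^ 4 * y * l ^ 2 - 11 * x ^ 4 * y * l + x ^ 4 * y + x ^ 4 * l ^ 2 + 2 * x ^ 4 * l
      + 3 * x ^ 4 - 36 * x ^ 3 * y ^ 2 * l + 5 * x ^ 3 * y ^ 2 + 3 * x ^ 3 * y * l ^ 3 + 2 * x ^ 3 * y * l ^ 2
      - 5 * x ^ 3 * y * l + x ^ 3 * l + 3 * x ^ 3 - 48 * x ^ 2 * y ^ 3 * l + 12 * x ^ 2 * y ^ 3
      + 12 * x ^ 2 * y ^ 2 * l ^ 3 + 11 * x ^ 2 * y ^ 2 * l ^ 2 - 14 * x ^ 2 * y ^ 2 * l - x ^ 2 * y ^ 2
      - x ^ 2 * y * l ^ 2 - x ^ 2 * y * l - x ^ 2 * y + 2 * x ^ 2 - 24 * x * y ^ 4 * l + 16 * x * y ^ 4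
      + 16 * x * y ^ 3 * l ^ 3 + 16 * x * y ^ 3 * l ^ 2 - 17 * x * y ^ 3 * l - x * y ^ 3 - x * y * l
      - 2 * x * y + x + 8 * y ^ 5 + 8 * y ^ 4 * l ^ 3 + 8 * y ^ 4 * l ^ 2 - 8 * y ^ 4 * l - y ^ 2) * h2
  exact ⟨finish_sq1 hD2 h1X h2X, finish_sq2 hD2 h1Y h2Y⟩

theorem ordId_c11100 {k : Type*} [Field k] (h2 : (2 : k) = 0) :
    OrdIdNeg (1 : k) 1 1 0 0 := by
  unfold OrdIdNeg
  intro x y m l hC hD1 hD2 hm hl
  have h1X : cX 1 1 (x ^ 2) x m * (2 * y + 1 * x + 1) = (x ^ 2 + x + 1) := by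
    have key : (x ^ 2 - x) ^ 2 * (cX 1 1 (x ^ 2) x m * (2 * y + 1 * x + 1) - (x ^ 2 + x + 1)) = 0 := by
      simp only [cX]
      linear_combination (x ^ 3 * m + x ^ 3 + x * y ^ 2 + x * y + x * m + x + y ^ 2 + y) * hm + (x ^ 4
        + x ^ 2 * y + x * y ^ 2 + x + y ^ 2 + y) * hC + (-x ^ 6 * y + x ^ 5 * y + x ^ 5 + x ^ 4 * y * m ^ 2
        + x ^ 4 * y * m + x ^ 4 + x ^ 3 * y ^ 2 - 2 * x ^ 3 * y * m ^ 2 - 3 * x ^ 3 * y * m + x ^ 3 * y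
        - x ^ 3 * m ^ 2 - x ^ 3 * m + x ^ 3 - x ^ 2 * y ^ 3 + x ^ 2 * y * m ^ 2 + x ^ 2 * y * m
        - x ^ 2 * y + x ^ 2 * m ^ 2 + x ^ 2 * m - x ^ 2 - x * y ^ 3 + x * y ^ 2 * m - x * y ^ 2
        - x * y - y ^ 3 - y ^ 2) * h2
    exact sub_eq_zero.mp ((mul_eq_zero.mp key).resolve_left (pow_ne_zero _ hD1))
  have h1Y : cY 1 1 (x ^ 2) (y ^ 2) m (cX 1 1 (x ^ 2) x m) * (2 * y + 1 * x + 1) ^ 2
      = (x ^ 3 + x ^ 2 * y + x) := by
    have key : (x ^ 2 - x) ^ 3 * (cY 1 1 (x ^ 2) (y ^ 2) m (cX 1 1 (x ^ 2) x m) * (2 * y + 1 * x + 1) ^ 2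
        - (x ^ 3 + x ^ 2 * y + x)) = 0 := by
      simp only [cX, cY]
      linear_combination (x ^ 7 + x ^ 6 * m ^ 2 + x ^ 4 * y ^ 2 * m + x ^ 4 * y * m + x ^ 3 * y ^ 2 * m
        + x ^ 3 * y * m + x ^ 3 + x ^ 2 * y ^ 4 + x ^ 2 * y ^ 2 * m + x ^ 2 * y ^ 2 + x ^ 2 * y * m
        + x ^ 2 * m ^ 2 + x * y ^ 2 * m + x * y * m + y ^ 4 + y ^ 2) * hm + (x ^ 7 + x ^ 5 * y ^ 2
        + x ^ 4 * y + x ^ 3 * y ^ 3 + x ^ 3 + x ^ 2 * y ^ 4 + x ^ 2 * y ^ 2 + x ^ 2 * y + x * y ^ 3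
        + x * y ^ 2 + y ^ 4 + y ^ 2) * hC + (x ^ 10 * m + x ^ 10 + 4 * x ^ 9 * y * m + 2 * x ^ 9 * y
        - x ^ 9 * m + 4 * x ^ 8 * y ^ 2 * m + 2 * x ^ 8 * y ^ 2 - 6 * x ^ 8 * y * m - 3 * x ^ 8 * y
        - x ^ 8 * m ^ 3 - x ^ 8 * m ^ 2 - 2 * x ^ 8 * m - 2 * x ^ 7 * y ^ 3 - 10 * x ^ 7 * y ^ 2 * m
        - 3 * x ^ 7 * y ^ 2 - 2 * x ^ 7 * y * m ^ 3 - 4 * x ^ 7 * y * m ^ 2 - 4 * x ^ 7 * y * m
        - 3 * x ^ 7 * y + x ^ 7 * m ^ 3 + x ^ 7 * m ^ 2 + x ^ 7 * m - 2 * x ^ 7 - 2 * x ^ 6 * y ^ 4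
        + 4 * x ^ 6 * y ^ 3 - 2 * x ^ 6 * y ^ 2 * m ^ 3 - 4 * x ^ 6 * y ^ 2 * m ^ 2 + 6 * x ^ 6 * y ^ 2 * m
        + x ^ 6 * y ^ 2 + 4 * x ^ 6 * y * m ^ 3 + 7 * x ^ 6 * y * m ^ 2 + 8 * x ^ 6 * y * m + 3 * x ^ 6 * y
        + x ^ 6 * m ^ 3 + 2 * x ^ 6 * m ^ 2 + 2 * x ^ 6 * m + 4 * x ^ 6 + 6 * x ^ 5 * y ^ 4 + 6 * x ^ 5 * y ^ 2 * m ^ 3
        + 12 * x ^ 5 * y ^ 2 * m ^ 2 + 2 * x ^ 5 * y ^ 2 * m + 3 * x ^ 5 * y ^ 2 + 3 * x ^ 5 * y
        - x ^ 5 * m ^ 3 - 2 * x ^ 5 * m ^ 2 - x ^ 5 * m - x ^ 5 - 6 * x ^ 4 * y ^ 4 - 4 * x ^ 4 * y ^ 3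
        - 6 * x ^ 4 * y ^ 2 * m ^ 3 - 12 * x ^ 4 * y ^ 2 * m ^ 2 - 3 * x ^ 4 * y ^ 2 * m - 2 * x ^ 4 * y ^ 2
        - 4 * x ^ 4 * y * m ^ 3 - 8 * x ^ 4 * y * m ^ 2 - 2 * x ^ 4 * y * m - 2 * x ^ 4 * y - x ^ 4 * m ^ 3
        - x ^ 4 * m ^ 2 - x ^ 3 * y ^ 5 + x ^ 3 * y ^ 4 * m + 2 * x ^ 3 * y ^ 4 + 2 * x ^ 3 * y ^ 3
        + 2 * x ^ 3 * y ^ 2 * m ^ 3 + 4 * x ^ 3 * y ^ 2 * m ^ 2 + x ^ 3 * y ^ 2 + 2 * x ^ 3 * y * m ^ 3
        + 4 * x ^ 3 * y * m ^ 2 - x ^ 3 * y + x ^ 3 * m ^ 3 + x ^ 3 * m ^ 2 - x ^ 2 * y ^ 5 - 2 * x ^ 2 * y ^ 3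
        + x ^ 2 * y ^ 2 * m ^ 2 - x ^ 2 * y ^ 2 * m - x * y ^ 5 + x * y ^ 4 * m - x * y ^ 4 - x * y ^ 3
        - y ^ 5 - y ^ 3) * h2
    exact sub_eq_zero.mp ((mul_eq_zero.mp key).resolve_left (pow_ne_zero _ hD1))
  have h2X : cX 1 1 x x l * (2 * y + 1 * x + 1) ^ 2 = (x ^ 2 + x + 1) ^ 2 := by
    simp only [cX]
    linear_combination (x ^ 2 + x * l + x + y + l + 1) * hl + (1) * hC + (x ^ 4 + x ^ 3 * l + x ^ 3
      - x ^ 2 * y * l - 3 * x ^ 2 * y + 2 * x ^ 2 * l - x ^ 2 - 4 * x * y ^ 2 + x * y * l ^ 2 - 6 * x * y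
      + x * l - 2 * x + 2 * y ^ 2 * l ^ 2 + y ^ 2 * l - 3 * y ^ 2 + y * l ^ 2 - 3 * y - 1) * h2
  have h2Y : nY 1 1 (cX 1 1 x x l) (cY 1 1 x y l (cX 1 1 x x l)) * (2 * y + 1 * x + 1) ^ 4
      = (x ^ 3 + x ^ 2 * y + x) ^ 2 := by
    simp only [cX, cY, nY]
    linear_combination (x ^ 5 + x ^ 4 * l + x ^ 4 + x ^ 3 * l ^ 2 + x ^ 3 * l + x ^ 2 * y * l + x ^ 2 * y
      + x ^ 2 * l ^ 2 + x ^ 2 + x * y ^ 2 + x * l ^ 2 + x * l + y ^ 2 + y * l + y + l ^ 2 + l + 1) * hl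
      + (x ^ 4 + x ^ 3 + x ^ 2 + x * y + y) * hC + (2 * x ^ 7 + x ^ 6 * l + 3 * x ^ 6 - x ^ 5 * y * l
      - 2 * x ^ 5 * y + x ^ 5 * l ^ 2 + 2 * x ^ 5 - x ^ 4 * y ^ 2 - x ^ 4 * y * l ^ 2 - 12 * x ^ 4 * y * l
      + x ^ 4 * y + 2 * x ^ 4 * l ^ 2 - 6 * x ^ 4 * l + x ^ 4 - 36 * x ^ 3 * y ^ 2 * l + 5 * x ^ 3 * y ^ 2
      + 3 * x ^ 3 * y * l ^ 3 + 2 * x ^ 3 * y * l ^ 2 - 40 * x ^ 3 * y * l + 2 * x ^ 3 * y + x ^ 3 * l ^ 3
      + 4 * x ^ 3 * l ^ 2 - 10 * x ^ 3 * l + x ^ 3 - 48 * x ^ 2 * y ^ 3 * l + 12 * x ^ 2 * y ^ 3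
      + 12 * x ^ 2 * y ^ 2 * l ^ 3 + 11 * x ^ 2 * y ^ 2 * l ^ 2 - 86 * x ^ 2 * y ^ 2 * l + 13 * x ^ 2 * y ^ 2
      + 11 * x ^ 2 * y * l ^ 3 + 11 * x ^ 2 * y * l ^ 2 - 48 * x ^ 2 * y * l + 4 * x ^ 2 * y + 2 * x ^ 2 * l ^ 3
      + 5 * x ^ 2 * l ^ 2 - 7 * x ^ 2 * l + x ^ 2 - 24 * x * y ^ 4 * l + 16 * x * y ^ 4 + 16 * x * y ^ 3 * l ^ 3
      + 16 * x * y ^ 3 * l ^ 2 - 65 * x * y ^ 3 * l + 23 * x * y ^ 3 + 24 * x * y ^ 2 * l ^ 3 + 24 * x * y ^ 2 * l ^ 2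
      - 61 * x * y ^ 2 * l + 12 * x * y ^ 2 + 11 * x * y * l ^ 3 + 10 * x * y * l ^ 2 - 24 * x * y * l
      + 3 * x * y + x * l ^ 3 + 2 * x * l ^ 2 - 3 * x * l + x + 8 * y ^ 5 + 8 * y ^ 4 * l ^ 3 + 8 * y ^ 4 * l ^ 2
      - 8 * y ^ 4 * l + 16 * y ^ 4 + 16 * y ^ 3 * l ^ 3 + 16 * y ^ 3 * l ^ 2 - 17 * y ^ 3 * l + 11 * y ^ 3
      + 12 * y ^ 2 * l ^ 3 + 11 * y ^ 2 * l ^ 2 - 14 * y ^ 2 * l + 3 * y ^ 2 + 3 * y * l ^ 3 + 2 * y * l ^ 2
      - 6 * y * l - l) * h2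
  exact ⟨finish_sq1 hD2 h1X h2X, finish_sq2 hD2 h1Y h2Y⟩

theorem ordId_c11110 {k : Type*} [Field k] (h2 : (2 : k) = 0) :
    OrdIdNeg (1 : k) 1 1 1 0 := by
  unfold OrdIdNeg
  intro x y m l hC hD1 hD2 hm hl
  have h1X : cX 1 1 (x ^ 2) x m * (2 * y + 1 * x + 1) = (x ^ 2 + x + 1) := by
    have key : (x ^ 2 - x) ^ 2 * (cX 1 1 (x ^ 2) x m * (2 * y + 1 * x + 1) - (x ^ 2 + x + 1)) = 0 := by
      simp only [cX]
      linear_combination (x ^ 3 * m + x ^ 3 + x * y ^ 2 + x * y + x * m + x + y ^ 2 + y) * hm + (x ^ 4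
        + x ^ 2 * y + x ^ 2 + x * y ^ 2 + y ^ 2 + y) * hC + (-x ^ 6 * y + x ^ 5 * y + 2 * x ^ 5
        + x ^ 4 * y * m ^ 2 + x ^ 4 * y * m + x ^ 4 + x ^ 3 * y ^ 2 - 2 * x ^ 3 * y * m ^ 2 - 3 * x ^ 3 * y * m
        + x ^ 3 * y - x ^ 3 * m ^ 2 - x ^ 3 * m + x ^ 3 - x ^ 2 * y ^ 3 + x ^ 2 * y * m ^ 2 + x ^ 2 * y * m
        - x ^ 2 * y + x ^ 2 * m ^ 2 + x ^ 2 * m - x ^ 2 - x * y ^ 3 + x * y ^ 2 * m - y ^ 3 - y ^ 2) * h2
    exact sub_eq_zero.mp ((mul_eq_zero.mp key).resolve_left (pow_ne_zero _ hD1))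
  have h1Y : cY 1 1 (x ^ 2) (y ^ 2) m (cX 1 1 (x ^ 2) x m) * (2 * y + 1 * x + 1) ^ 2
      = (x ^ 3 + x ^ 2 * y + x + 1) := by
    have key : (x ^ 2 - x) ^ 3 * (cY 1 1 (x ^ 2) (y ^ 2) m (cX 1 1 (x ^ 2) x m) * (2 * y + 1 * x + 1) ^ 2
        - (x ^ 3 + x ^ 2 * y + x + 1)) = 0 := by
      simp only [cX, cY]
      linear_combination (x ^ 7 + x ^ 6 * m ^ 2 + x ^ 4 * y ^ 2 * m + x ^ 4 * y * m + x ^ 3 * y ^ 2 * m
        + x ^ 3 * y * m + x ^ 3 + x ^ 2 * y ^ 4 + x ^ 2 * y ^ 2 * m + x ^ 2 * y ^ 2 + x ^ 2 * y * m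
        + x ^ 2 * m ^ 2 + x * y ^ 2 * m + x * y * m + y ^ 4 + y ^ 2) * hm + (x ^ 7 + x ^ 5 * y ^ 2
        + x ^ 5 + x ^ 4 * y + x ^ 4 + x ^ 3 * y ^ 3 + x ^ 3 * y ^ 2 + x ^ 3 * y + x ^ 2 * y ^ 4
        + x ^ 2 * y ^ 2 + x ^ 2 * y + x ^ 2 + x * y ^ 3 + x * y + y ^ 4 + y ^ 2) * hC + (x ^ 10 * m
        + x ^ 10 + 4 * x ^ 9 * y * m + 2 * x ^ 9 * y - x ^ 9 * m + 4 * x ^ 8 * y ^ 2 * m + 2 * x ^ 8 * y ^ 2
        - 6 * x ^ 8 * y * m - 3 * x ^ 8 * y - x ^ 8 * m ^ 3 - x ^ 8 * m ^ 2 - 2 * x ^ 8 * m + x ^ 8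
        - 2 * x ^ 7 * y ^ 3 - 10 * x ^ 7 * y ^ 2 * m - 3 * x ^ 7 * y ^ 2 - 2 * x ^ 7 * y * m ^ 3
        - 4 * x ^ 7 * y * m ^ 2 - 4 * x ^ 7 * y * m - 3 * x ^ 7 * y + x ^ 7 * m ^ 3 + x ^ 7 * m ^ 2
        + x ^ 7 * m - x ^ 7 - 2 * x ^ 6 * y ^ 4 + 4 * x ^ 6 * y ^ 3 - 2 * x ^ 6 * y ^ 2 * m ^ 3
        - 4 * x ^ 6 * y ^ 2 * m ^ 2 + 6 * x ^ 6 * y ^ 2 * m + 2 * x ^ 6 * y ^ 2 + 4 * x ^ 6 * y * m ^ 3
        + 7 * x ^ 6 * y * m ^ 2 + 8 * x ^ 6 * y * m + 3 * x ^ 6 * y + x ^ 6 * m ^ 3 + 2 * x ^ 6 * m ^ 2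
        + 2 * x ^ 6 * m + 4 * x ^ 6 + 6 * x ^ 5 * y ^ 4 + 6 * x ^ 5 * y ^ 2 * m ^ 3 + 12 * x ^ 5 * y ^ 2 * m ^ 2
        + 2 * x ^ 5 * y ^ 2 * m + 3 * x ^ 5 * y ^ 2 + 3 * x ^ 5 * y - x ^ 5 * m ^ 3 - 2 * x ^ 5 * m ^ 2
        - x ^ 5 * m + x ^ 5 - 6 * x ^ 4 * y ^ 4 - 4 * x ^ 4 * y ^ 3 - 6 * x ^ 4 * y ^ 2 * m ^ 3
        - 12 * x ^ 4 * y ^ 2 * m ^ 2 - 3 * x ^ 4 * y ^ 2 * m - 3 * x ^ 4 * y ^ 2 - 4 * x ^ 4 * y * m ^ 3
        - 8 * x ^ 4 * y * m ^ 2 - 2 * x ^ 4 * y * m - x ^ 4 * y - x ^ 4 * m ^ 3 - x ^ 4 * m ^ 2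
        - x ^ 4 - x ^ 3 * y ^ 5 + x ^ 3 * y ^ 4 * m + 2 * x ^ 3 * y ^ 4 + x ^ 3 * y ^ 3 + 2 * x ^ 3 * y ^ 2 * m ^ 3
        + 4 * x ^ 3 * y ^ 2 * m ^ 2 + x ^ 3 * y ^ 2 + 2 * x ^ 3 * y * m ^ 3 + 4 * x ^ 3 * y * m ^ 2
        + x ^ 3 * m ^ 3 + x ^ 3 * m ^ 2 + x ^ 3 - x ^ 2 * y ^ 5 - x ^ 2 * y ^ 3 + x ^ 2 * y ^ 2 * m ^ 2
        - x ^ 2 * y ^ 2 * m - x ^ 2 * y ^ 2 - x * y ^ 5 + x * y ^ 4 * m - x * y ^ 3 - y ^ 5 - y ^ 3) * h2
    exact sub_eq_zero.mp ((mul_eq_zero.mp key).resolve_left (pow_ne_zero _ hD1))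
  have h2X : cX 1 1 x x l * (2 * y + 1 * x + 1) ^ 2 = (x ^ 2 + x + 1) ^ 2 := by
    simp only [cX]
    linear_combination (x ^ 2 + x * l + x + y + l) * hl + (1) * hC + (x ^ 4 + x ^ 3 * l + x ^ 3
      - x ^ 2 * y * l - 3 * x ^ 2 * y + 2 * x ^ 2 * l - 2 * x ^ 2 - 4 * x * y ^ 2 + x * y * l ^ 2
      - 6 * x * y + 2 * x * l - 2 * x + 2 * y ^ 2 * l ^ 2 + y ^ 2 * l - 3 * y ^ 2 + y * l ^ 2 + y * l
      - 2 * y + l - 1) * h2
  have h2Y : nY 1 1 (cX 1 1 x x l) (cY 1 1 x y l (cX 1 1 x x l)) * (2 * y + 1 * x + 1) ^ 4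
      = (x ^ 3 + x ^ 2 * y + x + 1) ^ 2 := by
    simp only [cX, cY, nY]
    linear_combination (x ^ 5 + x ^ 4 * l + x ^ 4 + x ^ 3 * l ^ 2 + x ^ 3 * l + x ^ 2 * y * l + x ^ 2 * y
      + x ^ 2 * l ^ 2 + x ^ 2 * l + x * y ^ 2 + x * l ^ 2 + x * l + x + y ^ 2 + y * l + y + l ^ 2
      + 1) * hl + (x ^ 4 + x ^ 3 + x ^ 2 + x * y + x + y + 1) * hC + (2 * x ^ 7 + x ^ 6 * l + 3 * x ^ 6
      - x ^ 5 * y * l - 2 * x ^ 5 * y + x ^ 5 * l ^ 2 + 3 * x ^ 5 - x ^ 4 * y ^ 2 - x ^ 4 * y * l ^ 2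
      - 12 * x ^ 4 * y * l + x ^ 4 * y + 2 * x ^ 4 * l ^ 2 - 4 * x ^ 4 * l + x ^ 4 - 36 * x ^ 3 * y ^ 2 * l
      + 5 * x ^ 3 * y ^ 2 + 3 * x ^ 3 * y * l ^ 3 + 2 * x ^ 3 * y * l ^ 2 - 40 * x ^ 3 * y * l
      + 2 * x ^ 3 * y + x ^ 3 * l ^ 3 + 4 * x ^ 3 * l ^ 2 - 8 * x ^ 3 * l + 2 * x ^ 3 - 48 * x ^ 2 * y ^ 3 * l
      + 12 * x ^ 2 * y ^ 3 + 12 * x ^ 2 * y ^ 2 * l ^ 3 + 11 * x ^ 2 * y ^ 2 * l ^ 2 - 86 * x ^ 2 * y ^ 2 * l
      + 13 * x ^ 2 * y ^ 2 + 11 * x ^ 2 * y * l ^ 3 + 10 * x ^ 2 * y * l ^ 2 - 47 * x ^ 2 * y * l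
      + 4 * x ^ 2 * y + 2 * x ^ 2 * l ^ 3 + 5 * x ^ 2 * l ^ 2 - 8 * x ^ 2 * l + 3 * x ^ 2 - 24 * x * y ^ 4 * l
      + 16 * x * y ^ 4 + 16 * x * y ^ 3 * l ^ 3 + 16 * x * y ^ 3 * l ^ 2 - 65 * x * y ^ 3 * l + 23 * x * y ^ 3
      + 24 * x * y ^ 2 * l ^ 3 + 24 * x * y ^ 2 * l ^ 2 - 61 * x * y ^ 2 * l + 12 * x * y ^ 2 + 11 * x * y * l ^ 3
      + 10 * x * y * l ^ 2 - 25 * x * y * l + 2 * x * y + x * l ^ 3 + 3 * x * l ^ 2 - 4 * x * l
      + x + 8 * y ^ 5 + 8 * y ^ 4 * l ^ 3 + 8 * y ^ 4 * l ^ 2 - 8 * y ^ 4 * l + 16 * y ^ 4 + 16 * y ^ 3 * l ^ 3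
      + 16 * y ^ 3 * l ^ 2 - 17 * y ^ 3 * l + 11 * y ^ 3 + 12 * y ^ 2 * l ^ 3 + 11 * y ^ 2 * l ^ 2
      - 14 * y ^ 2 * l + 3 * y ^ 2 + 3 * y * l ^ 3 + 3 * y * l ^ 2 - 5 * y * l + l ^ 2 - l) * h2
  exact ⟨finish_sq1 hD2 h1X h2X, finish_sq2 hD2 h1Y h2Y⟩

end Fermat.Agent.FrobTrace.Char2
end MergeWrap_Lib_FrobTrace_Char2_OrdId

section MergeWrap_Lib_FrobTrace_Char2_SS -- from Lib/FrobTrace/Char2/SS.lean

/-!
# FrobTrace / Char2 / SS: the supersingular curves over `F₂` (`a₁ = 0`, `a₃ = 1`), skeleton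
(helper51)

Here `2y + a₁x + a₃ = 1` in characteristic 2, there is no 2-torsion and all the formulas are
valid at every affine point.
-/

set_option autoImplicit false

open WeierstrassCurve WeierstrassCurve.Affine

namespace Fermat.Agent.FrobTrace.Char2

open Fermat.Agent.S52 (frobPt)

/-- identity package, supersingular case, `φ²P = -2P` (trace `0`) -/
def SSIdZero {k : Type*} [Field k] (a1 a2 a3 a4 a6 : k) : Prop :=
  ∀ x y l : k, y ^ 2 + a1 * x * y + a3 * y = x ^ 3 + a2 * x ^ 2 + a4 * x + a6 →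
    l * (2 * y + a1 * x + a3) = 3 * x ^ 2 + 2 * a2 * x + a4 - a1 * y →
    (x ^ 2) ^ 2 = cX a1 a2 x x l ∧
    (y ^ 2) ^ 2 = nY a1 a3 (cX a1 a2 x x l) (cY a1 a3 x y l (cX a1 a2 x x l))

/-- identity package, supersingular case, `φ²P + 2P = 2 φP` (trace `2`) -/
def SSIdPos2 {k : Type*} [Field k] (a1 a2 a3 a4 a6 : k) : Prop :=
  ∀ x y l : k, y ^ 2 + a1 * x * y + a3 * y = x ^ 3 + a2 * x ^ 2 + a4 * x + a6 →
    l * (2 * y + a1 * x + a3) = 3 * x ^ 2 + 2 * a2 * x + a4 - a1 * y →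
    (x ^ 2) ^ 2 - cX a1 a2 x x l ≠ 0 ∧
    ∀ m n : k,
      m * ((x ^ 2) ^ 2 - cX a1 a2 x x l) = (y ^ 2) ^ 2 - cY a1 a3 x y l (cX a1 a2 x x l) →
      n * (2 * y ^ 2 + a1 * x ^ 2 + a3) = 3 * (x ^ 2) ^ 2 + 2 * a2 * x ^ 2 + a4 - a1 * y ^ 2 →
      cX a1 a2 ((x ^ 2) ^ 2) (cX a1 a2 x x l) m = cX a1 a2 (x ^ 2) (x ^ 2) n ∧
      cY a1 a3 ((x ^ 2) ^ 2) ((y ^ 2) ^ 2) m (cX a1 a2 ((x ^ 2) ^ 2) (cX a1 a2 x x l) m)
        = cY a1 a3 (x ^ 2) (y ^ 2) n (cX a1 a2 (x ^ 2) (x ^ 2) n)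

/-- identity package, supersingular case, `φ²P + 2P = -2 φP` (trace `-2`) -/
def SSIdNeg2 {k : Type*} [Field k] (a1 a2 a3 a4 a6 : k) : Prop :=
  ∀ x y l : k, y ^ 2 + a1 * x * y + a3 * y = x ^ 3 + a2 * x ^ 2 + a4 * x + a6 →
    l * (2 * y + a1 * x + a3) = 3 * x ^ 2 + 2 * a2 * x + a4 - a1 * y →
    (x ^ 2) ^ 2 - cX a1 a2 x x l ≠ 0 ∧
    ∀ m n : k,
      m * ((x ^ 2) ^ 2 - cX a1 a2 x x l) = (y ^ 2) ^ 2 - cY a1 a3 x y l (cX a1 a2 x x l) →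
      n * (2 * y ^ 2 + a1 * x ^ 2 + a3) = 3 * (x ^ 2) ^ 2 + 2 * a2 * x ^ 2 + a4 - a1 * y ^ 2 →
      cX a1 a2 ((x ^ 2) ^ 2) (cX a1 a2 x x l) m = cX a1 a2 (x ^ 2) (x ^ 2) n ∧
      cY a1 a3 ((x ^ 2) ^ 2) ((y ^ 2) ^ 2) m (cX a1 a2 ((x ^ 2) ^ 2) (cX a1 a2 x x l) m)
        = nY a1 a3 (cX a1 a2 (x ^ 2) (x ^ 2) n)
            (cY a1 a3 (x ^ 2) (y ^ 2) n (cX a1 a2 (x ^ 2) (x ^ 2) n))

section Skeleton

variable {W : WeierstrassCurve (ZMod 2)}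
variable {k : Type*} [Field k] [Algebra (ZMod 2) k] [DecidableEq k]

omit [DecidableEq k] in
/-- `2y + a₁x + a₃ ≠ 0` on a supersingular curve -/
lemma ss_den_ne_zero (e1 : W.a₁ = 0) (e3 : W.a₃ = 1) (x y : k) :
    2 * y + (W⁄k).a₁ * x + (W⁄k).a₃ ≠ 0 := by
  have h2 : (2 : k) = 0 := two_eq_zero_of_algebra
  have ea1 : (W⁄k).a₁ = 0 := by rw [baseChange_a₁, e1, map_zero]
  have ea3 : (W⁄k).a₃ = 1 := by rw [baseChange_a₃, e3, map_one]
  rw [ea1, ea3]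
  have : 2 * y + 0 * x + 1 = (1 : k) := by linear_combination y * h2
  rw [this]
  exact one_ne_zero

/-- the tangent at an affine point of a supersingular curve -/
lemma ss_tangent (e1 : W.a₁ = 0) (e3 : W.a₃ = 1) {x y : k} (hxy : (W⁄k).Nonsingular x y) :
    ∃ l : k, l * (2 * y + (W⁄k).a₁ * x + (W⁄k).a₃)
        = 3 * x ^ 2 + 2 * (W⁄k).a₂ * x + (W⁄k).a₄ - (W⁄k).a₁ * y ∧
      ∃ h₂ : (W⁄k).Nonsingular (cX (W⁄k).a₁ (W⁄k).a₂ x x l)
          (cY (W⁄k).a₁ (W⁄k).a₃ x y l (cX (W⁄k).a₁ (W⁄k).a₂ x x l)),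
        Point.some x y hxy + Point.some x y hxy = Point.some _ _ h₂ := by
  have hD := ss_den_ne_zero (k := k) e1 e3 x y
  refine ⟨(3 * x ^ 2 + 2 * (W⁄k).a₂ * x + (W⁄k).a₄ - (W⁄k).a₁ * y)
    / (2 * y + (W⁄k).a₁ * x + (W⁄k).a₃), div_mul_cancel₀ _ hD, ?_⟩
  exact tangent_some (W⁄k) hxy hD (div_mul_cancel₀ _ hD) rfl rfl

/-- supersingular case, trace `0` -/
theorem ss_zero (e1 : W.a₁ = 0) (e3 : W.a₃ = 1)
    (hid : SSIdZero (W⁄k).a₁ (W⁄k).a₂ (W⁄k).a₃ (W⁄k).a₄ (W⁄k).a₆) (P : (W⁄k).Point) :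
    frobPt W k (frobPt W k P) + (P + P) = 0 := by
  rcases P with _ | ⟨x, y, hxy⟩
  · change frobPt W k (frobPt W k 0) + (0 + 0) = 0
    simp only [map_zero, add_zero]
  have hC := hxy.1
  rw [Affine.equation_iff] at hC
  obtain ⟨l, hl, h₂, hdbl⟩ := ss_tangent e1 e3 hxy
  obtain ⟨h₁, hφ⟩ := frobPt_some_pow W hxy
  obtain ⟨h₁', hφ'⟩ := frobPt_some_pow W h₁
  obtain ⟨hX, hY⟩ := hid x y l hC hl
  rw [hφ, hφ', hdbl]
  exact add_some_eq_zero (W⁄k) h₁' h₂ hX hY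

/-- the common part of the cases of trace `±2` -/
lemma ss_two_aux (e1 : W.a₁ = 0) (e3 : W.a₃ = 1) {x y : k} (hxy : (W⁄k).Nonsingular x y)
    {l : k} (hl : l * (2 * y + (W⁄k).a₁ * x + (W⁄k).a₃)
        = 3 * x ^ 2 + 2 * (W⁄k).a₂ * x + (W⁄k).a₄ - (W⁄k).a₁ * y)
    (hD : (x ^ 2) ^ 2 - cX (W⁄k).a₁ (W⁄k).a₂ x x l ≠ 0) :
    ∃ m n : k,
      m * ((x ^ 2) ^ 2 - cX (W⁄k).a₁ (W⁄k).a₂ x x l)
        = (y ^ 2) ^ 2 - cY (W⁄k).a₁ (W⁄k).a₃ x y l (cX (W⁄k).a₁ (W⁄k).a₂ x x l) ∧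
      n * (2 * y ^ 2 + (W⁄k).a₁ * x ^ 2 + (W⁄k).a₃)
        = 3 * (x ^ 2) ^ 2 + 2 * (W⁄k).a₂ * x ^ 2 + (W⁄k).a₄ - (W⁄k).a₁ * y ^ 2 ∧
      ∃ (hL : (W⁄k).Nonsingular
          (cX (W⁄k).a₁ (W⁄k).a₂ ((x ^ 2) ^ 2) (cX (W⁄k).a₁ (W⁄k).a₂ x x l) m)
          (cY (W⁄k).a₁ (W⁄k).a₃ ((x ^ 2) ^ 2) ((y ^ 2) ^ 2) m
            (cX (W⁄k).a₁ (W⁄k).a₂ ((x ^ 2) ^ 2) (cX (W⁄k).a₁ (W⁄k).a₂ x x l) m)))
        (hR : (W⁄k).Nonsingular (cX (W⁄k).a₁ (W⁄k).a₂ (x ^ 2) (x ^ 2) n)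
          (cY (W⁄k).a₁ (W⁄k).a₃ (x ^ 2) (y ^ 2) n (cX (W⁄k).a₁ (W⁄k).a₂ (x ^ 2) (x ^ 2) n))),
        frobPt W k (frobPt W k (Point.some x y hxy))
            + (Point.some x y hxy + Point.some x y hxy) = Point.some _ _ hL ∧
          frobPt W k (Point.some x y hxy) + frobPt W k (Point.some x y hxy)
            = Point.some _ _ hR := by
  have hD2 := ss_den_ne_zero (k := k) e1 e3 x y
  obtain ⟨h₂, hdbl⟩ := tangent_some (W⁄k) hxy hD2 hl rfl rfl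
  obtain ⟨h₁, hφ⟩ := frobPt_some_pow W hxy
  obtain ⟨h₁', hφ'⟩ := frobPt_some_pow W h₁
  have hm := div_mul_cancel₀
    ((y ^ 2) ^ 2 - cY (W⁄k).a₁ (W⁄k).a₃ x y l (cX (W⁄k).a₁ (W⁄k).a₂ x x l)) hD
  obtain ⟨hL, hchord⟩ := chord_some (W⁄k) h₁' h₂ hD hm rfl rfl
  have hDn := ss_den_ne_zero (k := k) e1 e3 (x ^ 2) (y ^ 2)
  have hn := div_mul_cancel₀
    (3 * (x ^ 2) ^ 2 + 2 * (W⁄k).a₂ * x ^ 2 + (W⁄k).a₄ - (W⁄k).a₁ * y ^ 2) hDn
  obtain ⟨hR, htan⟩ := tangent_some (W⁄k) h₁ hDn hn rfl rfl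
  refine ⟨_, _, hm, hn, hL, hR, ?_, ?_⟩
  · rw [hφ, hφ', hdbl]
    exact hchord
  · rw [hφ]
    exact htan

/-- supersingular case, trace `2` -/
theorem ss_pos2 (e1 : W.a₁ = 0) (e3 : W.a₃ = 1)
    (hid : SSIdPos2 (W⁄k).a₁ (W⁄k).a₂ (W⁄k).a₃ (W⁄k).a₄ (W⁄k).a₆) (P : (W⁄k).Point) :
    frobPt W k (frobPt W k P) + (P + P) = frobPt W k P + frobPt W k P := by
  rcases P with _ | ⟨x, y, hxy⟩
  · change frobPt W k (frobPt W k 0) + (0 + 0) = frobPt W k 0 + frobPt W k 0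
    simp only [map_zero, add_zero]
  have hC := hxy.1
  rw [Affine.equation_iff] at hC
  obtain ⟨l, hl, -, -⟩ := ss_tangent e1 e3 hxy
  obtain ⟨hD, hmn⟩ := hid x y l hC hl
  obtain ⟨m, n, hm, hn, hL, hR, eL, eR⟩ := ss_two_aux e1 e3 hxy hl hD
  obtain ⟨hX, hY⟩ := hmn m n hm hn
  rw [eL, eR]
  obtain ⟨h', e⟩ := some_eq_some_of (W⁄k) hL hX hY
  rw [e]

/-- supersingular case, trace `-2` -/
theorem ss_neg2 (e1 : W.a₁ = 0) (e3 : W.a₃ = 1)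
    (hid : SSIdNeg2 (W⁄k).a₁ (W⁄k).a₂ (W⁄k).a₃ (W⁄k).a₄ (W⁄k).a₆) (P : (W⁄k).Point) :
    frobPt W k (frobPt W k P) + (P + P) = -(frobPt W k P + frobPt W k P) := by
  rcases P with _ | ⟨x, y, hxy⟩
  · change frobPt W k (frobPt W k 0) + (0 + 0) = -(frobPt W k 0 + frobPt W k 0)
    simp only [map_zero, add_zero, neg_zero]
  have hC := hxy.1
  rw [Affine.equation_iff] at hC
  obtain ⟨l, hl, -, -⟩ := ss_tangent e1 e3 hxy
  obtain ⟨hD, hmn⟩ := hid x y l hC hl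
  obtain ⟨m, n, hm, hn, hL, hR, eL, eR⟩ := ss_two_aux e1 e3 hxy hl hD
  obtain ⟨hX, hY⟩ := hmn m n hm hn
  rw [eL, eR]
  obtain ⟨hN, eN⟩ := neg_some_eq (W⁄k) hR
  rw [eN]
  obtain ⟨h', e⟩ := some_eq_some_of (W⁄k) hL hX hY
  rw [e]
  rfl

end Skeleton

end Fermat.Agent.FrobTrace.Char2
end MergeWrap_Lib_FrobTrace_Char2_SS

section MergeWrap_Lib_FrobTrace_Char2_SSId -- from Lib/FrobTrace/Char2/SSId.lean

/-!
# FrobTrace / Char2 / SSId: the identity certificates for the 8 supersingular curves over `F₂`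
(helper51; generated by a script)

In characteristic 2 all slopes are polynomials: the tangent slope at `(x, y)` is `x² + a₄`, the
chord slope from `φ²P` to `2P` is `x⁴ + a₂`.
-/

set_option autoImplicit false

namespace Fermat.Agent.FrobTrace.Char2

theorem ssId_c00100 {k : Type*} [Field k] (h2 : (2 : k) = 0) :
    SSIdZero (0 : k) 0 1 0 0 := by
  unfold SSIdZero
  intro x y l hC hl
  have hl' : l = x ^ 2 := by
    linear_combination (1) * hl + (x ^ 2 - y * l) * h2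
  subst hl'
  constructor
  · simp only [cX]
    linear_combination (x) * h2
  · simp only [cX, cY, nY]
    linear_combination (x ^ 3 + y ^ 2 + y + 1) * hC + (2 * x ^ 3 - y ^ 3 - y ^ 2 - y) * h2

theorem ssId_c00101 {k : Type*} [Field k] (h2 : (2 : k) = 0) :
    SSIdZero (0 : k) 0 1 0 1 := by
  unfold SSIdZero
  intro x y l hC hl
  have hl' : l = x ^ 2 := by
    linear_combination (1) * hl + (x ^ 2 - y * l) * h2
  subst hl'
  constructor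
  · simp only [cX]
    linear_combination (x) * h2
  · simp only [cX, cY, nY]
    linear_combination (x ^ 3 + y ^ 2 + y) * hC + (2 * x ^ 3 - y ^ 3) * h2

theorem ssId_c00110 {k : Type*} [Field k] (h2 : (2 : k) = 0) :
    SSIdNeg2 (0 : k) 0 1 1 0 := by
  unfold SSIdNeg2
  intro x y l hC hl
  have hl' : l = x ^ 2 + 1 := by
    linear_combination (1) * hl + (x ^ 2 - y * l) * h2
  subst hl'
  have hD1 : (x ^ 2) ^ 2 - cX 0 0 x x (x ^ 2 + 1) = 1 := by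
    simp only [cX]
    linear_combination (-x ^ 2 + x - 1) * h2
  refine ⟨by rw [hD1]; exact one_ne_zero, ?_⟩
  intro m n hm hn
  have hm' : m = x ^ 4 := by
    simp only [cX, cY] at hm
    linear_combination (1) * hm + (x ^ 3 + x + y ^ 2 + y + 1) * hC + (x ^ 6 + 2 * x ^ 4 - x ^ 3
      + x ^ 2 * m + 2 * x ^ 2 - x * m - x - y ^ 3 - y ^ 2 + m + 1) * h2
  have hn' : n = x ^ 4 + 1 := by
    linear_combination (1) * hn + (x ^ 4 - y ^ 2 * n) * h2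
  subst hm' hn'
  constructor
  · simp only [cX]
    linear_combination (-2 * x ^ 4 + x - 1) * h2
  · simp only [cX, cY, nY]
    linear_combination (x ^ 3 + x + y ^ 2 + y) * hC + (-x ^ 12 + 3 * x ^ 6 - x ^ 5 + 2 * x ^ 2
      - y ^ 4 - y ^ 3 - y ^ 2 - 1) * h2

theorem ssId_c00111 {k : Type*} [Field k] (h2 : (2 : k) = 0) :
    SSIdPos2 (0 : k) 0 1 1 1 := by
  unfold SSIdPos2
  intro x y l hC hl
  have hl' : l = x ^ 2 + 1 := by
    linear_combination (1) * hl + (x ^ 2 - y * l) * h2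
  subst hl'
  have hD1 : (x ^ 2) ^ 2 - cX 0 0 x x (x ^ 2 + 1) = 1 := by
    simp only [cX]
    linear_combination (-x ^ 2 + x - 1) * h2
  refine ⟨by rw [hD1]; exact one_ne_zero, ?_⟩
  intro m n hm hn
  have hm' : m = x ^ 4 := by
    simp only [cX, cY] at hm
    linear_combination (1) * hm + (x ^ 3 + x + y ^ 2 + y) * hC + (x ^ 6 + 2 * x ^ 4 - x ^ 3 + x ^ 2 * m
      + 2 * x ^ 2 - x * m - x - y ^ 3 + y + m + 1) * h2
  have hn' : n = x ^ 4 + 1 := by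
    linear_combination (1) * hn + (x ^ 4 - y ^ 2 * n) * h2
  subst hm' hn'
  constructor
  · simp only [cX]
    linear_combination (-2 * x ^ 4 + x - 1) * h2
  · simp only [cX, cY]
    linear_combination (x ^ 3 + x + y ^ 2 + y + 1) * hC + (3 * x ^ 8 - x ^ 5 + 3 * x ^ 4 + x ^ 3
      - x ^ 2 + x - y ^ 4 - y ^ 3 + 1) * h2

theorem ssId_c01100 {k : Type*} [Field k] (h2 : (2 : k) = 0) :
    SSIdNeg2 (0 : k) 1 1 0 0 := by
  unfold SSIdNeg2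
  intro x y l hC hl
  have hl' : l = x ^ 2 := by
    linear_combination (1) * hl + (x ^ 2 + x - y * l) * h2
  subst hl'
  have hD1 : (x ^ 2) ^ 2 - cX 0 1 x x (x ^ 2) = 1 := by
    simp only [cX]
    linear_combination (x) * h2
  refine ⟨by rw [hD1]; exact one_ne_zero, ?_⟩
  intro m n hm hn
  have hm' : m = x ^ 4 + 1 := by
    simp only [cX, cY] at hm
    linear_combination (1) * hm + (x ^ 3 + x ^ 2 + y ^ 2 + y + 1) * hC + (x ^ 6 + x ^ 5 - x ^ 3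
      - x * m - y ^ 3 - y ^ 2) * h2
  have hn' : n = x ^ 4 := by
    linear_combination (1) * hn + (x ^ 4 + x ^ 2 - y ^ 2 * n) * h2
  subst hm' hn'
  constructor
  · simp only [cX]
    linear_combination (x ^ 2 + x + 1) * h2
  · simp only [cX, cY, nY]
    linear_combination (x ^ 3 + x ^ 2 + y ^ 2 + y) * hC + (-x ^ 12 + 2 * x ^ 6 + x ^ 4 - x - y ^ 4
      - y ^ 3 - y ^ 2 - 1) * h2

theorem ssId_c01101 {k : Type*} [Field k] (h2 : (2 : k) = 0) :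
    SSIdPos2 (0 : k) 1 1 0 1 := by
  unfold SSIdPos2
  intro x y l hC hl
  have hl' : l = x ^ 2 := by
    linear_combination (1) * hl + (x ^ 2 + x - y * l) * h2
  subst hl'
  have hD1 : (x ^ 2) ^ 2 - cX 0 1 x x (x ^ 2) = 1 := by
    simp only [cX]
    linear_combination (x) * h2
  refine ⟨by rw [hD1]; exact one_ne_zero, ?_⟩
  intro m n hm hn
  have hm' : m = x ^ 4 + 1 := by
    simp only [cX, cY] at hm
    linear_combination (1) * hm + (x ^ 3 + x ^ 2 + y ^ 2 + y) * hC + (x ^ 6 + x ^ 5 - x ^ 3 - x * m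
      - y ^ 3 + y) * h2
  have hn' : n = x ^ 4 := by
    linear_combination (1) * hn + (x ^ 4 + x ^ 2 - y ^ 2 * n) * h2
  subst hm' hn'
  constructor
  · simp only [cX]
    linear_combination (x ^ 2 + x + 1) * h2
  · simp only [cX, cY]
    linear_combination (x ^ 3 + x ^ 2 + y ^ 2 + y + 1) * hC + (-x ^ 6 + x ^ 3 + x ^ 2 - x - y ^ 4
      - y ^ 3) * h2

theorem ssId_c01110 {k : Type*} [Field k] (h2 : (2 : k) = 0) :
    SSIdZero (0 : k) 1 1 1 0 := by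
  unfold SSIdZero
  intro x y l hC hl
  have hl' : l = x ^ 2 + 1 := by
    linear_combination (1) * hl + (x ^ 2 + x - y * l) * h2
  subst hl'
  constructor
  · simp only [cX]
    linear_combination (-x ^ 2 + x) * h2
  · simp only [cX, cY, nY]
    linear_combination (x ^ 3 + x ^ 2 + x + y ^ 2 + y + 1) * hC + (x ^ 5 + 3 * x ^ 3 + 2 * x - y ^ 3
      - y ^ 2 - y) * h2

theorem ssId_c01111 {k : Type*} [Field k] (h2 : (2 : k) = 0) :
    SSIdZero (0 : k) 1 1 1 1 := by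
  unfold SSIdZero
  intro x y l hC hl
  have hl' : l = x ^ 2 + 1 := by
    linear_combination (1) * hl + (x ^ 2 + x - y * l) * h2
  subst hl'
  constructor
  · simp only [cX]
    linear_combination (-x ^ 2 + x) * h2
  · simp only [cX, cY, nY]
    linear_combination (x ^ 3 + x ^ 2 + x + y ^ 2 + y) * hC + (x ^ 5 + 3 * x ^ 3 + 2 * x - y ^ 3) * h2

end Fermat.Agent.FrobTrace.Char2
end MergeWrap_Lib_FrobTrace_Char2_SSId

section MergeWrap_Lib_FrobTrace_Char2_Final -- from Lib/FrobTrace/Char2/Final.lean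

/-!
# FrobTrace / Char2 / Final: `φ² - a φ + 2 = 0` for every smooth Weierstrass equation over `F₂`
(helper51)
-/

set_option autoImplicit false

open WeierstrassCurve WeierstrassCurve.Affine

namespace Fermat.Agent.FrobTrace.Char2

open Fermat.Agent.S52 (frobPt)

section Conv

variable {G : Type*} [AddCommGroup G]

lemma conv_pos (a b c : G) (h : a - b + (c + c) = 0) :
    a - (1 : ℤ) • b + ((2 : ℕ) : ℤ) • c = 0 := by
  rw [one_zsmul, Nat.cast_ofNat, two_zsmul]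
  exact h

lemma conv_neg (a b c : G) (h : a + b + (c + c) = 0) :
    a - (-1 : ℤ) • b + ((2 : ℕ) : ℤ) • c = 0 := by
  rw [neg_one_zsmul, sub_neg_eq_add, Nat.cast_ofNat, two_zsmul]
  exact h

lemma conv_zero (a b c : G) (h : a + (c + c) = 0) :
    a - (0 : ℤ) • b + ((2 : ℕ) : ℤ) • c = 0 := by
  rw [zero_zsmul, sub_zero, Nat.cast_ofNat, two_zsmul]
  exact h

lemma conv_pos2 (a b c : G) (h : a + (c + c) = b + b) :
    a - (2 : ℤ) • b + ((2 : ℕ) : ℤ) • c = 0 := by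
  rw [Nat.cast_ofNat, two_zsmul, two_zsmul]
  have : a - (b + b) + (c + c) = a + (c + c) - (b + b) := by abel
  rw [this, h, sub_self]

lemma conv_neg2 (a b c : G) (h : a + (c + c) = -(b + b)) :
    a - (-2 : ℤ) • b + ((2 : ℕ) : ℤ) • c = 0 := by
  rw [neg_zsmul, sub_neg_eq_add, Nat.cast_ofNat, two_zsmul, two_zsmul]
  have : a + (b + b) + (c + c) = a + (c + c) + (b + b) := by abel
  rw [this, h, neg_add_cancel]

end Conv

/-- the number of points over `F₂` -/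
lemma card_point_two (W : WeierstrassCurve (ZMod 2)) (hΔ : W.Δ ≠ 0) :
    Nat.card W.toAffine.Point = 1 + Fintype.card {xy : ZMod 2 × ZMod 2 //
      xy.2 ^ 2 + W.a₁ * xy.1 * xy.2 + W.a₃ * xy.2
        = xy.1 ^ 3 + W.a₂ * xy.1 ^ 2 + W.a₄ * xy.1 + W.a₆} := by
  rw [Nat.card_congr (Affine.nonsingularPointEquiv W.toAffine)]
  have e1 : {xy : ZMod 2 × ZMod 2 // W.toAffine.Nonsingular xy.1 xy.2}
      ≃ {xy : ZMod 2 × ZMod 2 // xy.2 ^ 2 + W.a₁ * xy.1 * xy.2 + W.a₃ * xy.2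
        = xy.1 ^ 3 + W.a₂ * xy.1 ^ 2 + W.a₄ * xy.1 + W.a₆} :=
    Equiv.subtypeEquivRight (fun xy => by
      rw [← Affine.equation_iff_nonsingular_of_Δ_ne_zero hΔ, Affine.equation_iff])
  change Nat.card (Option _) = _
  rw [Finite.card_option, Nat.card_congr e1, Nat.card_eq_fintype_card, add_comm]

/-- the trace of Frobenius over `F₂` from the coefficients -/
lemma trace_eq_of_coeffs (W : WeierstrassCurve (ZMod 2)) (hΔ : W.Δ ≠ 0)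
    {c1 c2 c3 c4 c6 : ZMod 2} (e1 : W.a₁ = c1) (e2 : W.a₂ = c2) (e3 : W.a₃ = c3)
    (e4 : W.a₄ = c4) (e6 : W.a₆ = c6) (t : ℤ)
    (ht : (2 : ℤ) - (Fintype.card {xy : ZMod 2 × ZMod 2 //
      xy.2 ^ 2 + c1 * xy.1 * xy.2 + c3 * xy.2
        = xy.1 ^ 3 + c2 * xy.1 ^ 2 + c4 * xy.1 + c6} : ℤ) = t) :
    W.traceOfFrobenius = t := by
  subst e1 e2 e3 e4 e6
  rw [WeierstrassCurve.traceOfFrobenius, WeierstrassCurve.card, card_point_two W hΔ,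
    Nat.card_zmod, ← ht]
  push_cast
  ring

lemma disc_eq_of_coeffs (W : WeierstrassCurve (ZMod 2))
    {c1 c2 c3 c4 c6 : ZMod 2} (e1 : W.a₁ = c1) (e2 : W.a₂ = c2) (e3 : W.a₃ = c3)
    (e4 : W.a₄ = c4) (e6 : W.a₆ = c6) :
    W.Δ = (⟨c1, c2, c3, c4, c6⟩ : WeierstrassCurve (ZMod 2)).Δ := by
  subst e1 e2 e3 e4 e6
  rfl

section Curves

variable (W : WeierstrassCurve (ZMod 2)) (hΔ : W.Δ ≠ 0)
variable (k : Type*) [Field k] [Algebra (ZMod 2) k] [IsAlgClosed k] [DecidableEq k]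

omit [IsAlgClosed k] [DecidableEq k] in
lemma coeffs_eq {c1 c2 c3 c4 c6 : ZMod 2} (e1 : W.a₁ = c1) (e2 : W.a₂ = c2) (e3 : W.a₃ = c3)
    (e4 : W.a₄ = c4) (e6 : W.a₆ = c6) (p : k → k → k → k → k → Prop)
    (h : p (algebraMap (ZMod 2) k c1) (algebraMap (ZMod 2) k c2) (algebraMap (ZMod 2) k c3)
      (algebraMap (ZMod 2) k c4) (algebraMap (ZMod 2) k c6)) :
    p (W⁄k).a₁ (W⁄k).a₂ (W⁄k).a₃ (W⁄k).a₄ (W⁄k).a₆ := by
  subst e1 e2 e3 e4 e6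
  exact h

include hΔ in
theorem charEq_c00100 (e1 : W.a₁ = 0) (e2 : W.a₂ = 0) (e3 : W.a₃ = 1)
    (e4 : W.a₄ = 0) (e6 : W.a₆ = 0) (P : (W⁄k).Point) :
    frobPt W k (frobPt W k P) - W.traceOfFrobenius • frobPt W k P + ((2 : ℕ) : ℤ) • P = 0 := by
  have h2 : (2 : k) = 0 := two_eq_zero_of_algebra
  have ht : W.traceOfFrobenius = 0 := trace_eq_of_coeffs W hΔ e1 e2 e3 e4 e6 (0) (by decide)
  have hid : SSIdZero (W⁄k).a₁ (W⁄k).a₂ (W⁄k).a₃ (W⁄k).a₄ (W⁄k).a₆ := by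
    apply coeffs_eq W k e1 e2 e3 e4 e6 (fun a b c d e => SSIdZero a b c d e)
    simp only [map_zero, map_one]
    exact ssId_c00100 h2
  rw [ht]
  exact conv_zero _ _ _ (ss_zero (W := W) (k := k) e1 e3 hid P)

include hΔ in
theorem charEq_c00101 (e1 : W.a₁ = 0) (e2 : W.a₂ = 0) (e3 : W.a₃ = 1)
    (e4 : W.a₄ = 0) (e6 : W.a₆ = 1) (P : (W⁄k).Point) :
    frobPt W k (frobPt W k P) - W.traceOfFrobenius • frobPt W k P + ((2 : ℕ) : ℤ) • P = 0 := by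
  have h2 : (2 : k) = 0 := two_eq_zero_of_algebra
  have ht : W.traceOfFrobenius = 0 := trace_eq_of_coeffs W hΔ e1 e2 e3 e4 e6 (0) (by decide)
  have hid : SSIdZero (W⁄k).a₁ (W⁄k).a₂ (W⁄k).a₃ (W⁄k).a₄ (W⁄k).a₆ := by
    apply coeffs_eq W k e1 e2 e3 e4 e6 (fun a b c d e => SSIdZero a b c d e)
    simp only [map_zero, map_one]
    exact ssId_c00101 h2
  rw [ht]
  exact conv_zero _ _ _ (ss_zero (W := W) (k := k) e1 e3 hid P)

include hΔ in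
theorem charEq_c00110 (e1 : W.a₁ = 0) (e2 : W.a₂ = 0) (e3 : W.a₃ = 1)
    (e4 : W.a₄ = 1) (e6 : W.a₆ = 0) (P : (W⁄k).Point) :
    frobPt W k (frobPt W k P) - W.traceOfFrobenius • frobPt W k P + ((2 : ℕ) : ℤ) • P = 0 := by
  have h2 : (2 : k) = 0 := two_eq_zero_of_algebra
  have ht : W.traceOfFrobenius = -2 := trace_eq_of_coeffs W hΔ e1 e2 e3 e4 e6 (-2) (by decide)
  have hid : SSIdNeg2 (W⁄k).a₁ (W⁄k).a₂ (W⁄k).a₃ (W⁄k).a₄ (W⁄k).a₆ := by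
    apply coeffs_eq W k e1 e2 e3 e4 e6 (fun a b c d e => SSIdNeg2 a b c d e)
    simp only [map_zero, map_one]
    exact ssId_c00110 h2
  rw [ht]
  exact conv_neg2 _ _ _ (ss_neg2 (W := W) (k := k) e1 e3 hid P)

include hΔ in
theorem charEq_c00111 (e1 : W.a₁ = 0) (e2 : W.a₂ = 0) (e3 : W.a₃ = 1)
    (e4 : W.a₄ = 1) (e6 : W.a₆ = 1) (P : (W⁄k).Point) :
    frobPt W k (frobPt W k P) - W.traceOfFrobenius • frobPt W k P + ((2 : ℕ) : ℤ) • P = 0 := by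
  have h2 : (2 : k) = 0 := two_eq_zero_of_algebra
  have ht : W.traceOfFrobenius = 2 := trace_eq_of_coeffs W hΔ e1 e2 e3 e4 e6 (2) (by decide)
  have hid : SSIdPos2 (W⁄k).a₁ (W⁄k).a₂ (W⁄k).a₃ (W⁄k).a₄ (W⁄k).a₆ := by
    apply coeffs_eq W k e1 e2 e3 e4 e6 (fun a b c d e => SSIdPos2 a b c d e)
    simp only [map_zero, map_one]
    exact ssId_c00111 h2
  rw [ht]
  exact conv_pos2 _ _ _ (ss_pos2 (W := W) (k := k) e1 e3 hid P)

include hΔ in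
theorem charEq_c01100 (e1 : W.a₁ = 0) (e2 : W.a₂ = 1) (e3 : W.a₃ = 1)
    (e4 : W.a₄ = 0) (e6 : W.a₆ = 0) (P : (W⁄k).Point) :
    frobPt W k (frobPt W k P) - W.traceOfFrobenius • frobPt W k P + ((2 : ℕ) : ℤ) • P = 0 := by
  have h2 : (2 : k) = 0 := two_eq_zero_of_algebra
  have ht : W.traceOfFrobenius = -2 := trace_eq_of_coeffs W hΔ e1 e2 e3 e4 e6 (-2) (by decide)
  have hid : SSIdNeg2 (W⁄k).a₁ (W⁄k).a₂ (W⁄k).a₃ (W⁄k).a₄ (W⁄k).a₆ := by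
    apply coeffs_eq W k e1 e2 e3 e4 e6 (fun a b c d e => SSIdNeg2 a b c d e)
    simp only [map_zero, map_one]
    exact ssId_c01100 h2
  rw [ht]
  exact conv_neg2 _ _ _ (ss_neg2 (W := W) (k := k) e1 e3 hid P)

include hΔ in
theorem charEq_c01101 (e1 : W.a₁ = 0) (e2 : W.a₂ = 1) (e3 : W.a₃ = 1)
    (e4 : W.a₄ = 0) (e6 : W.a₆ = 1) (P : (W⁄k).Point) :
    frobPt W k (frobPt W k P) - W.traceOfFrobenius • frobPt W k P + ((2 : ℕ) : ℤ) • P = 0 := by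
  have h2 : (2 : k) = 0 := two_eq_zero_of_algebra
  have ht : W.traceOfFrobenius = 2 := trace_eq_of_coeffs W hΔ e1 e2 e3 e4 e6 (2) (by decide)
  have hid : SSIdPos2 (W⁄k).a₁ (W⁄k).a₂ (W⁄k).a₃ (W⁄k).a₄ (W⁄k).a₆ := by
    apply coeffs_eq W k e1 e2 e3 e4 e6 (fun a b c d e => SSIdPos2 a b c d e)
    simp only [map_zero, map_one]
    exact ssId_c01101 h2
  rw [ht]
  exact conv_pos2 _ _ _ (ss_pos2 (W := W) (k := k) e1 e3 hid P)

include hΔ in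
theorem charEq_c01110 (e1 : W.a₁ = 0) (e2 : W.a₂ = 1) (e3 : W.a₃ = 1)
    (e4 : W.a₄ = 1) (e6 : W.a₆ = 0) (P : (W⁄k).Point) :
    frobPt W k (frobPt W k P) - W.traceOfFrobenius • frobPt W k P + ((2 : ℕ) : ℤ) • P = 0 := by
  have h2 : (2 : k) = 0 := two_eq_zero_of_algebra
  have ht : W.traceOfFrobenius = 0 := trace_eq_of_coeffs W hΔ e1 e2 e3 e4 e6 (0) (by decide)
  have hid : SSIdZero (W⁄k).a₁ (W⁄k).a₂ (W⁄k).a₃ (W⁄k).a₄ (W⁄k).a₆ := by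
    apply coeffs_eq W k e1 e2 e3 e4 e6 (fun a b c d e => SSIdZero a b c d e)
    simp only [map_zero, map_one]
    exact ssId_c01110 h2
  rw [ht]
  exact conv_zero _ _ _ (ss_zero (W := W) (k := k) e1 e3 hid P)

include hΔ in
theorem charEq_c01111 (e1 : W.a₁ = 0) (e2 : W.a₂ = 1) (e3 : W.a₃ = 1)
    (e4 : W.a₄ = 1) (e6 : W.a₆ = 1) (P : (W⁄k).Point) :
    frobPt W k (frobPt W k P) - W.traceOfFrobenius • frobPt W k P + ((2 : ℕ) : ℤ) • P = 0 := by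
  have h2 : (2 : k) = 0 := two_eq_zero_of_algebra
  have ht : W.traceOfFrobenius = 0 := trace_eq_of_coeffs W hΔ e1 e2 e3 e4 e6 (0) (by decide)
  have hid : SSIdZero (W⁄k).a₁ (W⁄k).a₂ (W⁄k).a₃ (W⁄k).a₄ (W⁄k).a₆ := by
    apply coeffs_eq W k e1 e2 e3 e4 e6 (fun a b c d e => SSIdZero a b c d e)
    simp only [map_zero, map_one]
    exact ssId_c01111 h2
  rw [ht]
  exact conv_zero _ _ _ (ss_zero (W := W) (k := k) e1 e3 hid P)

include hΔ in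
theorem charEq_c10001 (e1 : W.a₁ = 1) (e2 : W.a₂ = 0) (e3 : W.a₃ = 0)
    (e4 : W.a₄ = 0) (e6 : W.a₆ = 1) (P : (W⁄k).Point) :
    frobPt W k (frobPt W k P) - W.traceOfFrobenius • frobPt W k P + ((2 : ℕ) : ℤ) • P = 0 := by
  have h2 : (2 : k) = 0 := two_eq_zero_of_algebra
  have ht : W.traceOfFrobenius = -1 := trace_eq_of_coeffs W hΔ e1 e2 e3 e4 e6 (-1) (by decide)
  have hid : OrdIdNeg (W⁄k).a₁ (W⁄k).a₂ (W⁄k).a₃ (W⁄k).a₄ (W⁄k).a₆ := by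
    apply coeffs_eq W k e1 e2 e3 e4 e6 (fun a b c d e => OrdIdNeg a b c d e)
    simp only [map_zero, map_one]
    exact ordId_c10001 h2
  rw [ht]
  exact conv_neg _ _ _ (ord_neg (W := W) (k := k) e1 hΔ hid P)

include hΔ in
theorem charEq_c10010 (e1 : W.a₁ = 1) (e2 : W.a₂ = 0) (e3 : W.a₃ = 0)
    (e4 : W.a₄ = 1) (e6 : W.a₆ = 0) (P : (W⁄k).Point) :
    frobPt W k (frobPt W k P) - W.traceOfFrobenius • frobPt W k P + ((2 : ℕ) : ℤ) • P = 0 := by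
  have h2 : (2 : k) = 0 := two_eq_zero_of_algebra
  have ht : W.traceOfFrobenius = -1 := trace_eq_of_coeffs W hΔ e1 e2 e3 e4 e6 (-1) (by decide)
  have hid : OrdIdNeg (W⁄k).a₁ (W⁄k).a₂ (W⁄k).a₃ (W⁄k).a₄ (W⁄k).a₆ := by
    apply coeffs_eq W k e1 e2 e3 e4 e6 (fun a b c d e => OrdIdNeg a b c d e)
    simp only [map_zero, map_one]
    exact ordId_c10010 h2
  rw [ht]
  exact conv_neg _ _ _ (ord_neg (W := W) (k := k) e1 hΔ hid P)

include hΔ in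
theorem charEq_c10101 (e1 : W.a₁ = 1) (e2 : W.a₂ = 0) (e3 : W.a₃ = 1)
    (e4 : W.a₄ = 0) (e6 : W.a₆ = 1) (P : (W⁄k).Point) :
    frobPt W k (frobPt W k P) - W.traceOfFrobenius • frobPt W k P + ((2 : ℕ) : ℤ) • P = 0 := by
  have h2 : (2 : k) = 0 := two_eq_zero_of_algebra
  have ht : W.traceOfFrobenius = 1 := trace_eq_of_coeffs W hΔ e1 e2 e3 e4 e6 (1) (by decide)
  have hid : OrdIdPos (W⁄k).a₁ (W⁄k).a₂ (W⁄k).a₃ (W⁄k).a₄ (W⁄k).a₆ := by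
    apply coeffs_eq W k e1 e2 e3 e4 e6 (fun a b c d e => OrdIdPos a b c d e)
    simp only [map_zero, map_one]
    exact ordId_c10101 h2
  rw [ht]
  exact conv_pos _ _ _ (ord_pos (W := W) (k := k) e1 hΔ hid P)

include hΔ in
theorem charEq_c10111 (e1 : W.a₁ = 1) (e2 : W.a₂ = 0) (e3 : W.a₃ = 1)
    (e4 : W.a₄ = 1) (e6 : W.a₆ = 1) (P : (W⁄k).Point) :
    frobPt W k (frobPt W k P) - W.traceOfFrobenius • frobPt W k P + ((2 : ℕ) : ℤ) • P = 0 := by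
  have h2 : (2 : k) = 0 := two_eq_zero_of_algebra
  have ht : W.traceOfFrobenius = 1 := trace_eq_of_coeffs W hΔ e1 e2 e3 e4 e6 (1) (by decide)
  have hid : OrdIdPos (W⁄k).a₁ (W⁄k).a₂ (W⁄k).a₃ (W⁄k).a₄ (W⁄k).a₆ := by
    apply coeffs_eq W k e1 e2 e3 e4 e6 (fun a b c d e => OrdIdPos a b c d e)
    simp only [map_zero, map_one]
    exact ordId_c10111 h2
  rw [ht]
  exact conv_pos _ _ _ (ord_pos (W := W) (k := k) e1 hΔ hid P)

include hΔ in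
theorem charEq_c11001 (e1 : W.a₁ = 1) (e2 : W.a₂ = 1) (e3 : W.a₃ = 0)
    (e4 : W.a₄ = 0) (e6 : W.a₆ = 1) (P : (W⁄k).Point) :
    frobPt W k (frobPt W k P) - W.traceOfFrobenius • frobPt W k P + ((2 : ℕ) : ℤ) • P = 0 := by
  have h2 : (2 : k) = 0 := two_eq_zero_of_algebra
  have ht : W.traceOfFrobenius = 1 := trace_eq_of_coeffs W hΔ e1 e2 e3 e4 e6 (1) (by decide)
  have hid : OrdIdPos (W⁄k).a₁ (W⁄k).a₂ (W⁄k).a₃ (W⁄k).a₄ (W⁄k).a₆ := by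
    apply coeffs_eq W k e1 e2 e3 e4 e6 (fun a b c d e => OrdIdPos a b c d e)
    simp only [map_zero, map_one]
    exact ordId_c11001 h2
  rw [ht]
  exact conv_pos _ _ _ (ord_pos (W := W) (k := k) e1 hΔ hid P)

include hΔ in
theorem charEq_c11010 (e1 : W.a₁ = 1) (e2 : W.a₂ = 1) (e3 : W.a₃ = 0)
    (e4 : W.a₄ = 1) (e6 : W.a₆ = 0) (P : (W⁄k).Point) :
    frobPt W k (frobPt W k P) - W.traceOfFrobenius • frobPt W k P + ((2 : ℕ) : ℤ) • P = 0 := by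
  have h2 : (2 : k) = 0 := two_eq_zero_of_algebra
  have ht : W.traceOfFrobenius = 1 := trace_eq_of_coeffs W hΔ e1 e2 e3 e4 e6 (1) (by decide)
  have hid : OrdIdPos (W⁄k).a₁ (W⁄k).a₂ (W⁄k).a₃ (W⁄k).a₄ (W⁄k).a₆ := by
    apply coeffs_eq W k e1 e2 e3 e4 e6 (fun a b c d e => OrdIdPos a b c d e)
    simp only [map_zero, map_one]
    exact ordId_c11010 h2
  rw [ht]
  exact conv_pos _ _ _ (ord_pos (W := W) (k := k) e1 hΔ hid P)

include hΔ in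
theorem charEq_c11100 (e1 : W.a₁ = 1) (e2 : W.a₂ = 1) (e3 : W.a₃ = 1)
    (e4 : W.a₄ = 0) (e6 : W.a₆ = 0) (P : (W⁄k).Point) :
    frobPt W k (frobPt W k P) - W.traceOfFrobenius • frobPt W k P + ((2 : ℕ) : ℤ) • P = 0 := by
  have h2 : (2 : k) = 0 := two_eq_zero_of_algebra
  have ht : W.traceOfFrobenius = -1 := trace_eq_of_coeffs W hΔ e1 e2 e3 e4 e6 (-1) (by decide)
  have hid : OrdIdNeg (W⁄k).a₁ (W⁄k).a₂ (W⁄k).a₃ (W⁄k).a₄ (W⁄k).a₆ := by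
    apply coeffs_eq W k e1 e2 e3 e4 e6 (fun a b c d e => OrdIdNeg a b c d e)
    simp only [map_zero, map_one]
    exact ordId_c11100 h2
  rw [ht]
  exact conv_neg _ _ _ (ord_neg (W := W) (k := k) e1 hΔ hid P)

include hΔ in
theorem charEq_c11110 (e1 : W.a₁ = 1) (e2 : W.a₂ = 1) (e3 : W.a₃ = 1)
    (e4 : W.a₄ = 1) (e6 : W.a₆ = 0) (P : (W⁄k).Point) :
    frobPt W k (frobPt W k P) - W.traceOfFrobenius • frobPt W k P + ((2 : ℕ) : ℤ) • P = 0 := by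
  have h2 : (2 : k) = 0 := two_eq_zero_of_algebra
  have ht : W.traceOfFrobenius = -1 := trace_eq_of_coeffs W hΔ e1 e2 e3 e4 e6 (-1) (by decide)
  have hid : OrdIdNeg (W⁄k).a₁ (W⁄k).a₂ (W⁄k).a₃ (W⁄k).a₄ (W⁄k).a₆ := by
    apply coeffs_eq W k e1 e2 e3 e4 e6 (fun a b c d e => OrdIdNeg a b c d e)
    simp only [map_zero, map_one]
    exact ordId_c11110 h2
  rw [ht]
  exact conv_neg _ _ _ (ord_neg (W := W) (k := k) e1 hΔ hid P)

end Curves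

lemma disc_c00000 : (⟨0, 0, 0, 0, 0⟩ : WeierstrassCurve (ZMod 2)).Δ = 0 := by decide
lemma disc_c00001 : (⟨0, 0, 0, 0, 1⟩ : WeierstrassCurve (ZMod 2)).Δ = 0 := by decide
lemma disc_c00010 : (⟨0, 0, 0, 1, 0⟩ : WeierstrassCurve (ZMod 2)).Δ = 0 := by decide
lemma disc_c00011 : (⟨0, 0, 0, 1, 1⟩ : WeierstrassCurve (ZMod 2)).Δ = 0 := by decide
lemma disc_c01000 : (⟨0, 1, 0, 0, 0⟩ : WeierstrassCurve (ZMod 2)).Δ = 0 := by decide
lemma disc_c01001 : (⟨0, 1, 0, 0, 1⟩ : WeierstrassCurve (ZMod 2)).Δ = 0 := by decide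
lemma disc_c01010 : (⟨0, 1, 0, 1, 0⟩ : WeierstrassCurve (ZMod 2)).Δ = 0 := by decide
lemma disc_c01011 : (⟨0, 1, 0, 1, 1⟩ : WeierstrassCurve (ZMod 2)).Δ = 0 := by decide
lemma disc_c10000 : (⟨1, 0, 0, 0, 0⟩ : WeierstrassCurve (ZMod 2)).Δ = 0 := by decide
lemma disc_c10011 : (⟨1, 0, 0, 1, 1⟩ : WeierstrassCurve (ZMod 2)).Δ = 0 := by decide
lemma disc_c10100 : (⟨1, 0, 1, 0, 0⟩ : WeierstrassCurve (ZMod 2)).Δ = 0 := by decide
lemma disc_c10110 : (⟨1, 0, 1, 1, 0⟩ : WeierstrassCurve (ZMod 2)).Δ = 0 := by decide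
lemma disc_c11000 : (⟨1, 1, 0, 0, 0⟩ : WeierstrassCurve (ZMod 2)).Δ = 0 := by decide
lemma disc_c11011 : (⟨1, 1, 0, 1, 1⟩ : WeierstrassCurve (ZMod 2)).Δ = 0 := by decide
lemma disc_c11101 : (⟨1, 1, 1, 0, 1⟩ : WeierstrassCurve (ZMod 2)).Δ = 0 := by decide
lemma disc_c11111 : (⟨1, 1, 1, 1, 1⟩ : WeierstrassCurve (ZMod 2)).Δ = 0 := by decide

/-- **Cayley–Hamilton for Frobenius over `F₂`.** -/
theorem frobCharEq_two [Fact (Nat.Prime 2)] (W : WeierstrassCurve (ZMod 2)) (hΔ : W.Δ ≠ 0)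
    (k : Type) [Field k] [Algebra (ZMod 2) k] [IsAlgClosed k] [DecidableEq k]
    (P : (W⁄k).Point) :
    frobPt W k (frobPt W k P) - W.traceOfFrobenius • frobPt W k P + ((2 : ℕ) : ℤ) • P = 0 := by
  rcases zmod_two_cases W.a₁ with e1 | e1 <;> rcases zmod_two_cases W.a₂ with e2 | e2 <;>
    rcases zmod_two_cases W.a₃ with e3 | e3 <;> rcases zmod_two_cases W.a₄ with e4 | e4 <;>
    rcases zmod_two_cases W.a₆ with e6 | e6
  · exact absurd ((disc_eq_of_coeffs W e1 e2 e3 e4 e6).trans disc_c00000) hΔ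
  · exact absurd ((disc_eq_of_coeffs W e1 e2 e3 e4 e6).trans disc_c00001) hΔ
  · exact absurd ((disc_eq_of_coeffs W e1 e2 e3 e4 e6).trans disc_c00010) hΔ
  · exact absurd ((disc_eq_of_coeffs W e1 e2 e3 e4 e6).trans disc_c00011) hΔ
  · exact charEq_c00100 W hΔ k e1 e2 e3 e4 e6 P
  · exact charEq_c00101 W hΔ k e1 e2 e3 e4 e6 P
  · exact charEq_c00110 W hΔ k e1 e2 e3 e4 e6 P
  · exact charEq_c00111 W hΔ k e1 e2 e3 e4 e6 P
  · exact absurd ((disc_eq_of_coeffs W e1 e2 e3 e4 e6).trans disc_c01000) hΔ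
  · exact absurd ((disc_eq_of_coeffs W e1 e2 e3 e4 e6).trans disc_c01001) hΔ
  · exact absurd ((disc_eq_of_coeffs W e1 e2 e3 e4 e6).trans disc_c01010) hΔ
  · exact absurd ((disc_eq_of_coeffs W e1 e2 e3 e4 e6).trans disc_c01011) hΔ
  · exact charEq_c01100 W hΔ k e1 e2 e3 e4 e6 P
  · exact charEq_c01101 W hΔ k e1 e2 e3 e4 e6 P
  · exact charEq_c01110 W hΔ k e1 e2 e3 e4 e6 P
  · exact charEq_c01111 W hΔ k e1 e2 e3 e4 e6 P
  · exact absurd ((disc_eq_of_coeffs W e1 e2 e3 e4 e6).trans disc_c10000) hΔ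
  · exact charEq_c10001 W hΔ k e1 e2 e3 e4 e6 P
  · exact charEq_c10010 W hΔ k e1 e2 e3 e4 e6 P
  · exact absurd ((disc_eq_of_coeffs W e1 e2 e3 e4 e6).trans disc_c10011) hΔ
  · exact absurd ((disc_eq_of_coeffs W e1 e2 e3 e4 e6).trans disc_c10100) hΔ
  · exact charEq_c10101 W hΔ k e1 e2 e3 e4 e6 P
  · exact absurd ((disc_eq_of_coeffs W e1 e2 e3 e4 e6).trans disc_c10110) hΔ
  · exact charEq_c10111 W hΔ k e1 e2 e3 e4 e6 P
  · exact absurd ((disc_eq_of_coeffs W e1 e2 e3 e4 e6).trans disc_c11000) hΔ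
  · exact charEq_c11001 W hΔ k e1 e2 e3 e4 e6 P
  · exact charEq_c11010 W hΔ k e1 e2 e3 e4 e6 P
  · exact absurd ((disc_eq_of_coeffs W e1 e2 e3 e4 e6).trans disc_c11011) hΔ
  · exact charEq_c11100 W hΔ k e1 e2 e3 e4 e6 P
  · exact absurd ((disc_eq_of_coeffs W e1 e2 e3 e4 e6).trans disc_c11101) hΔ
  · exact charEq_c11110 W hΔ k e1 e2 e3 e4 e6 P
  · exact absurd ((disc_eq_of_coeffs W e1 e2 e3 e4 e6).trans disc_c11111) hΔ

end Fermat.Agent.FrobTrace.Char2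
end MergeWrap_Lib_FrobTrace_Char2_Final

section MergeWrap_Lib_FrobTrace_Char3_Defs -- from Lib/FrobTrace/Char3/Defs.lean

/-!
# FrobTrace / Char3: `φ² - a φ + ℓ = 0` for `y² = x³ + a₂ x² + a₄ x + a₆` over `F_ℓ`, `ℓ` odd
(helper51; port of the F1 files of helper4, helper10, helper64, helper65, helper88, helper96)

Definitions: the curve `medW a₂ a₄ a₆`, the cubic, the unreduced Manin numerator.
-/

set_option autoImplicit false

open Polynomial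

namespace Fermat.Agent.FrobTrace.Char3

/-- The Weierstrass curve `y² = x³ + a₂ x² + a₄ x + a₆`. -/
def medW {R : Type*} [CommRing R] (a2 a4 a6 : R) : WeierstrassCurve R := ⟨0, a2, 0, a4, a6⟩

/-- the cubic `X³ + a₂ X² + a₄ X + a₆` -/
noncomputable def cubic {R : Type*} [CommRing R] (a2 a4 a6 : R) : R[X] :=
  X ^ 3 + C a2 * X ^ 2 + C a4 * X + C a6

/-- unreduced numerator of `x(P - φP)` (sign `+1`) resp. `x(P + φP)` (sign `-1`), `q = ℓ`: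
`f (1 ± f^((q-1)/2))² - (X + X^q + a₂)(X^q - X)²`. -/
noncomputable def maninNum {R : Type*} [CommRing R] (a2 a4 a6 : R) (q : ℕ) (s : R) : R[X] :=
  cubic a2 a4 a6 * (1 + C s * cubic a2 a4 a6 ^ ((q - 1) / 2)) ^ 2
    - (X + X ^ q + C a2) * (X ^ q - X) ^ 2

end Fermat.Agent.FrobTrace.Char3
end MergeWrap_Lib_FrobTrace_Char3_Defs

section MergeWrap_Lib_FrobTrace_Char3_MedHom -- from Lib/FrobTrace/Char3/MedHom.lean

/-!
# FrobTrace / Char3 / MedHom: the medium model `Y² = X³ + b₂ X² + 8 b₄ X + 16 b₆`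
(helper51; port of helper75's `S52/ShortModel.lean` and helper65's `Lib/FrobTrace/ShortHom.lean`)

Over a field in which `2` is invertible, `(x, y) ↦ (4 x, 4 (2 y + a₁ x + a₃))` is a group
isomorphism of `W` onto `medModel W = medW b₂ (8 b₄) (16 b₆)`, compatible with base change and with
Frobenius; the slopes transform as `λ' = 2 λ + a₁`.
-/

set_option autoImplicit false

open WeierstrassCurve WeierstrassCurve.Affine

namespace Fermat.Agent.FrobTrace.Char3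

open Fermat.Agent.S52 (frobPt)

section Field

variable {F : Type*} [Field F] (W : WeierstrassCurve F)

/-- The medium model `Y² = X³ + b₂ X² + 8 b₄ X + 16 b₆` of a Weierstrass curve. -/
def medModel : WeierstrassCurve F := medW W.b₂ (8 * W.b₄) (16 * W.b₆)

/-- `x`-coordinate of the image of a point on the medium model. -/
def toMedX (x : F) : F := 4 * x

/-- `y`-coordinate of the image of a point on the medium model. -/
def toMedY (x y : F) : F := 4 * (2 * y + W.a₁ * x + W.a₃)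

/-- `x`-coordinate of the preimage of a point of the medium model. -/
noncomputable def ofMedX (X : F) : F := X / 4

/-- `y`-coordinate of the preimage of a point of the medium model. -/
noncomputable def ofMedY (X Y : F) : F := (Y / 4 - W.a₁ * ofMedX X - W.a₃) / 2

lemma medModel_a₁ : (medModel W).a₁ = 0 := rfl
lemma medModel_a₂ : (medModel W).a₂ = W.b₂ := rfl
lemma medModel_a₃ : (medModel W).a₃ = 0 := rfl
lemma medModel_a₄ : (medModel W).a₄ = 8 * W.b₄ := rfl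
lemma medModel_a₆ : (medModel W).a₆ = 16 * W.b₆ := rfl

lemma medModel_Δ : (medModel W).Δ = 2 ^ 12 * W.Δ := by
  simp only [medModel, medW, WeierstrassCurve.Δ, WeierstrassCurve.b₂, WeierstrassCurve.b₄,
    WeierstrassCurve.b₆, WeierstrassCurve.b₈]
  ring

lemma medModel_Δ_ne_zero (h2 : (2 : F) ≠ 0) (hΔ : W.Δ ≠ 0) : (medModel W).Δ ≠ 0 := by
  rw [medModel_Δ]
  exact mul_ne_zero (pow_ne_zero _ h2) hΔ

variable {W}

lemma medHom_four_ne_zero (h2 : (2 : F) ≠ 0) : (4 : F) ≠ 0 := by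
  have : (4 : F) = 2 ^ 2 := by norm_num
  rw [this]
  exact pow_ne_zero _ h2

lemma medHom_eight_ne_zero (h2 : (2 : F) ≠ 0) : (8 : F) ≠ 0 := by
  have : (8 : F) = 2 ^ 3 := by norm_num
  rw [this]
  exact pow_ne_zero _ h2

lemma medHom_sixteen_ne_zero (h2 : (2 : F) ≠ 0) : (16 : F) ≠ 0 := by
  have : (16 : F) = 2 ^ 4 := by norm_num
  rw [this]
  exact pow_ne_zero _ h2

lemma medHom_sixtyfour_ne_zero (h2 : (2 : F) ≠ 0) : (64 : F) ≠ 0 := by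
  have : (64 : F) = 2 ^ 6 := by norm_num
  rw [this]
  exact pow_ne_zero _ h2

lemma medModel_equation_iff (X Y : F) :
    (medModel W).toAffine.Equation X Y ↔
      Y ^ 2 = X ^ 3 + W.b₂ * X ^ 2 + (8 * W.b₄) * X + (16 * W.b₆) := by
  rw [Affine.equation_iff]
  simp [medModel, medW]

lemma medModel_nonsingular_iff (X Y : F) :
    (medModel W).toAffine.Nonsingular X Y ↔
      (medModel W).toAffine.Equation X Y ∧
        (3 * X ^ 2 + 2 * W.b₂ * X + (8 * W.b₄) ≠ 0 ∨ 2 * Y ≠ 0) := by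
  rw [Affine.nonsingular_iff]
  simp only [medModel, medW]
  constructor
  · rintro ⟨h, h' | h'⟩
    · refine ⟨h, Or.inl ?_⟩
      intro h0
      apply h'
      linear_combination (-1 : F) * h0
    · refine ⟨h, Or.inr ?_⟩
      intro h0
      apply h'
      linear_combination h0
  · rintro ⟨h, h' | h'⟩
    · refine ⟨h, Or.inl ?_⟩
      intro h0
      apply h'
      linear_combination (-1 : F) * h0
    · refine ⟨h, Or.inr ?_⟩
      intro h0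
      apply h'
      linear_combination h0

lemma toMed_equation {x y : F} (h : W.toAffine.Equation x y) :
    (medModel W).toAffine.Equation (toMedX x) (toMedY W x y) := by
  rw [medModel_equation_iff]
  rw [Affine.equation_iff] at h
  simp only [toMedX, toMedY, WeierstrassCurve.b₂, WeierstrassCurve.b₄, WeierstrassCurve.b₆]
  linear_combination (64 : F) * h

lemma toMed_nonsingular (h2 : (2 : F) ≠ 0) {x y : F}
    (h : W.toAffine.Nonsingular x y) :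
    (medModel W).toAffine.Nonsingular (toMedX x) (toMedY W x y) := by
  rw [medModel_nonsingular_iff]
  rw [Affine.nonsingular_iff] at h
  obtain ⟨he, hns⟩ := h
  refine ⟨toMed_equation he, ?_⟩
  by_cases hη : 2 * y + W.a₁ * x + W.a₃ = 0
  · left
    have hx : W.a₁ * y ≠ 3 * x ^ 2 + 2 * W.a₂ * x + W.a₄ := by
      rcases hns with h' | h'
      · exact h'
      · exact absurd (by linear_combination hη) h'
    intro h0
    apply hx
    have key : (16 : F) * (W.a₁ * y - (3 * x ^ 2 + 2 * W.a₂ * x + W.a₄)) = 0 := by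
      simp only [toMedX, WeierstrassCurve.b₂, WeierstrassCurve.b₄] at h0
      linear_combination (-1 : F) * h0 + (8 * W.a₁) * hη
    have := (mul_eq_zero.mp key).resolve_left (medHom_sixteen_ne_zero h2)
    linear_combination this
  · right
    have : 2 * toMedY W x y = 8 * (2 * y + W.a₁ * x + W.a₃) := by
      simp only [toMedY]; ring
    rw [this]
    exact mul_ne_zero (medHom_eight_ne_zero h2) hη

lemma ofMed_toMed_X (h2 : (2 : F) ≠ 0) (x : F) :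
    ofMedX (toMedX x) = x := by
  have h4 := medHom_four_ne_zero h2
  simp only [ofMedX, toMedX]
  field_simp

lemma ofMed_toMed_Y (h2 : (2 : F) ≠ 0) (x y : F) :
    ofMedY W (toMedX x) (toMedY W x y) = y := by
  have h4 := medHom_four_ne_zero h2
  simp only [ofMedY, ofMed_toMed_X h2, toMedY]
  field_simp
  ring

lemma toMed_ofMed_X (h2 : (2 : F) ≠ 0) (X : F) :
    toMedX (ofMedX X) = X := by
  have h4 := medHom_four_ne_zero h2
  simp only [ofMedX, toMedX]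
  field_simp

lemma toMed_ofMed_Y (h2 : (2 : F) ≠ 0) (X Y : F) :
    toMedY W (ofMedX X) (ofMedY W X Y) = Y := by
  have h4 := medHom_four_ne_zero h2
  simp only [ofMedY, toMedY]
  field_simp
  ring

lemma ofMed_nonsingular (h2 : (2 : F) ≠ 0) {X Y : F}
    (h : (medModel W).toAffine.Nonsingular X Y) :
    W.toAffine.Nonsingular (ofMedX X) (ofMedY W X Y) := by
  set x := ofMedX X with hx
  set y := ofMedY W X Y with hy
  have hX : X = toMedX x := (toMed_ofMed_X h2 X).symm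
  have hY : Y = toMedY W x y := (toMed_ofMed_Y h2 X Y).symm
  rw [medModel_nonsingular_iff, medModel_equation_iff] at h
  obtain ⟨he, hns⟩ := h
  rw [Affine.nonsingular_iff, Affine.equation_iff]
  have heq : y ^ 2 + W.a₁ * x * y + W.a₃ * y = x ^ 3 + W.a₂ * x ^ 2 + W.a₄ * x + W.a₆ := by
    have key : (64 : F) * (y ^ 2 + W.a₁ * x * y + W.a₃ * y
        - (x ^ 3 + W.a₂ * x ^ 2 + W.a₄ * x + W.a₆)) = 0 := by
      rw [hX, hY] at he
      simp only [toMedX, toMedY, WeierstrassCurve.b₂, WeierstrassCurve.b₄,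
        WeierstrassCurve.b₆] at he
      linear_combination he
    have := (mul_eq_zero.mp key).resolve_left (medHom_sixtyfour_ne_zero h2)
    linear_combination this
  refine ⟨heq, ?_⟩
  by_contra hcon
  push Not at hcon
  obtain ⟨hc1, hc2⟩ := hcon
  rcases hns with h' | h'
  · apply h'
    rw [hX]
    simp only [toMedX, WeierstrassCurve.b₂, WeierstrassCurve.b₄]
    linear_combination (-16 : F) * hc1 + (8 * W.a₁) * hc2
  · apply h'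
    rw [hY]
    simp only [toMedY]
    linear_combination (8 : F) * hc2

variable (W)

/-- The explicit bijection between the points of `W` and the points of its medium model. -/
noncomputable def toMedEquiv (h2 : (2 : F) ≠ 0) :
    W.toAffine.Point ≃ (medModel W).toAffine.Point where
  toFun P :=
    match P with
    | .zero => .zero
    | .some x y h => .some (toMedX x) (toMedY W x y) (toMed_nonsingular h2 h)
  invFun Q :=
    match Q with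
    | .zero => .zero
    | .some X Y h => .some (ofMedX X) (ofMedY W X Y) (ofMed_nonsingular h2 h)
  left_inv P := by
    cases P with
    | zero => rfl
    | some x y h =>
      simp only
      congr 1
      · exact ofMed_toMed_X h2 x
      · exact ofMed_toMed_Y h2 x y
  right_inv Q := by
    cases Q with
    | zero => rfl
    | some X Y h =>
      simp only
      congr 1
      · exact toMed_ofMed_X h2 X
      · exact toMed_ofMed_Y h2 X Y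

theorem card_eq_card_medModel (h2 : (2 : F) ≠ 0) :
    W.card = (medModel W).card :=
  Nat.card_congr (toMedEquiv W h2)

theorem traceOfFrobenius_eq_medModel (h2 : (2 : F) ≠ 0) :
    W.traceOfFrobenius = (medModel W).traceOfFrobenius := by
  simp only [WeierstrassCurve.traceOfFrobenius, card_eq_card_medModel W h2]

lemma medHom_negY' (X Y : F) : (medModel W).toAffine.negY X Y = -Y := by
  simp [Affine.negY, medModel_a₁, medModel_a₃]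

lemma medHom_negY (x y : F) :
    (medModel W).toAffine.negY (toMedX x) (toMedY W x y)
      = toMedY W x (W.toAffine.negY x y) := by
  rw [medHom_negY']
  simp only [toMedY, Affine.negY]
  ring

lemma medHom_toMedX_inj (h2 : (2 : F) ≠ 0) {x₁ x₂ : F}
    (h : toMedX x₁ = toMedX x₂) : x₁ = x₂ := by
  simp only [toMedX] at h
  have : (4 : F) * (x₁ - x₂) = 0 := by linear_combination h
  rcases mul_eq_zero.mp this with h' | h'
  · exact absurd h' (medHom_four_ne_zero h2)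
  · exact sub_eq_zero.mp h'

lemma medHom_toMedY_inj (h2 : (2 : F) ≠ 0) {x y₁ y₂ : F}
    (h : toMedY W x y₁ = toMedY W x y₂) : y₁ = y₂ := by
  simp only [toMedY] at h
  have : (8 : F) * (y₁ - y₂) = 0 := by linear_combination h
  rcases mul_eq_zero.mp this with h' | h'
  · exact absurd h' (medHom_eight_ne_zero h2)
  · exact sub_eq_zero.mp h'

variable [DecidableEq F]

/-- the slopes transform as `λ' = 2 λ + a₁` -/
lemma medHom_slope (h2 : (2 : F) ≠ 0) {x₁ x₂ y₁ y₂ : F}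
    (h₁ : W.toAffine.Equation x₁ y₁) (h₂ : W.toAffine.Equation x₂ y₂)
    (hxy : ¬(x₁ = x₂ ∧ y₁ = W.toAffine.negY x₂ y₂)) :
    (medModel W).toAffine.slope (toMedX x₁) (toMedX x₂) (toMedY W x₁ y₁)
        (toMedY W x₂ y₂)
      = 2 * W.toAffine.slope x₁ x₂ y₁ y₂ + W.a₁ := by
  have h4 := medHom_four_ne_zero h2
  have h8 := medHom_eight_ne_zero h2
  by_cases hx : x₁ = x₂
  · have hy : y₁ ≠ W.toAffine.negY x₂ y₂ := fun h => hxy ⟨hx, h⟩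
    have hy' : toMedY W x₁ y₁ ≠ (medModel W).toAffine.negY (toMedX x₂) (toMedY W x₂ y₂) := by
      rw [medHom_negY]
      subst hx
      exact fun h => hy (medHom_toMedY_inj W h2 h)
    rw [Affine.slope_of_Y_ne (congrArg _ hx) hy', Affine.slope_of_Y_ne hx hy]
    have hyy : y₁ = y₂ := Affine.Y_eq_of_Y_ne h₁ h₂ hx hy
    subst hx hyy
    have hD : y₁ - W.toAffine.negY x₁ y₁ ≠ 0 := sub_ne_zero.mpr hy
    have hD' : toMedY W x₁ y₁ - (medModel W).toAffine.negY (toMedX x₁) (toMedY W x₁ y₁)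
        ≠ 0 := sub_ne_zero.mpr hy'
    rw [div_eq_iff hD']
    have e1 : toMedY W x₁ y₁ - (medModel W).toAffine.negY (toMedX x₁) (toMedY W x₁ y₁)
        = 8 * (y₁ - W.toAffine.negY x₁ y₁) := by
      rw [medHom_negY']
      simp only [toMedY, Affine.negY]
      ring
    rw [e1, medModel_a₂, medModel_a₁, medModel_a₄]
    field_simp
    simp only [toMedX, toMedY, Affine.negY, WeierstrassCurve.b₂, WeierstrassCurve.b₄]
    ring
  · have hX : toMedX x₁ ≠ toMedX x₂ := fun h => hx (medHom_toMedX_inj h2 h)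
    rw [Affine.slope_of_X_ne hX, Affine.slope_of_X_ne hx]
    have hne : x₁ - x₂ ≠ 0 := sub_ne_zero.mpr hx
    have hne' : toMedX x₁ - toMedX x₂ ≠ 0 := sub_ne_zero.mpr hX
    rw [div_eq_iff hne']
    simp only [toMedX, toMedY]
    field_simp
    ring

omit [DecidableEq F] in
lemma medHom_toMedEquiv_some (h2 : (2 : F) ≠ 0) {x y : F}
    (h : W.toAffine.Nonsingular x y) :
    toMedEquiv W h2 (Point.some x y h)
      = Point.some (toMedX x) (toMedY W x y) (toMed_nonsingular h2 h) := rfl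

omit [DecidableEq F] in
lemma medHom_toMedEquiv_zero (h2 : (2 : F) ≠ 0) :
    toMedEquiv W h2 (0 : W.toAffine.Point) = 0 := rfl

/-- **additivity** of the bijection onto the medium model -/
theorem medHom_toMedEquiv_add (h2 : (2 : F) ≠ 0)
    (P Q : W.toAffine.Point) :
    toMedEquiv W h2 (P + Q) = toMedEquiv W h2 P + toMedEquiv W h2 Q := by
  rcases P with _ | ⟨x₁, y₁, h₁⟩
  · change toMedEquiv W h2 (0 + Q) = 0 + toMedEquiv W h2 Q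
    rw [zero_add, zero_add]
  rcases Q with _ | ⟨x₂, y₂, h₂⟩
  · change toMedEquiv W h2 (Point.some x₁ y₁ h₁ + 0)
      = toMedEquiv W h2 (Point.some x₁ y₁ h₁) + 0
    rw [add_zero, add_zero]
  by_cases hxy : x₁ = x₂ ∧ y₁ = W.toAffine.negY x₂ y₂
  · rw [Point.add_of_Y_eq hxy.1 hxy.2, medHom_toMedEquiv_zero,
      medHom_toMedEquiv_some, medHom_toMedEquiv_some]
    symm
    apply Point.add_of_Y_eq
    · rw [hxy.1]
    · rw [medHom_negY, hxy.1, hxy.2]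
  · have hXY : ¬(toMedX x₁ = toMedX x₂ ∧
        toMedY W x₁ y₁ = (medModel W).toAffine.negY (toMedX x₂) (toMedY W x₂ y₂)) := by
      rintro ⟨hX, hY⟩
      have hx := medHom_toMedX_inj h2 hX
      apply hxy
      refine ⟨hx, ?_⟩
      subst hx
      rw [medHom_negY] at hY
      exact medHom_toMedY_inj W h2 hY
    rw [Point.add_some hxy, medHom_toMedEquiv_some, medHom_toMedEquiv_some,
      medHom_toMedEquiv_some, Point.add_some hXY]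
    have hsl := medHom_slope W h2 h₁.1 h₂.1 hxy
    have hX : toMedX (W.toAffine.addX x₁ x₂ (W.toAffine.slope x₁ x₂ y₁ y₂))
        = (medModel W).toAffine.addX (toMedX x₁) (toMedX x₂)
            ((medModel W).toAffine.slope (toMedX x₁) (toMedX x₂) (toMedY W x₁ y₁)
              (toMedY W x₂ y₂)) := by
      rw [hsl]
      simp only [Affine.addX, medModel_a₁, medModel_a₂, toMedX, WeierstrassCurve.b₂]
      ring
    have hY : toMedY W (W.toAffine.addX x₁ x₂ (W.toAffine.slope x₁ x₂ y₁ y₂))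
          (W.toAffine.addY x₁ x₂ y₁ (W.toAffine.slope x₁ x₂ y₁ y₂))
        = (medModel W).toAffine.addY (toMedX x₁) (toMedX x₂) (toMedY W x₁ y₁)
            ((medModel W).toAffine.slope (toMedX x₁) (toMedX x₂) (toMedY W x₁ y₁)
              (toMedY W x₂ y₂)) := by
      rw [hsl]
      simp only [Affine.addY, Affine.negAddY, Affine.addX, Affine.negY, medModel_a₁, medModel_a₂,
        medModel_a₃, toMedX, toMedY, WeierstrassCurve.b₂]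
      ring
    simp only [Point.some.injEq]
    exact ⟨hX, hY⟩

/-- the bijection onto the medium model as an additive isomorphism -/
noncomputable def medHomAddEquiv (h2 : (2 : F) ≠ 0) :
    W.toAffine.Point ≃+ (medModel W).toAffine.Point :=
  { toMedEquiv W h2 with
    map_add' := medHom_toMedEquiv_add W h2 }

/-- transport of points along an equality of curves -/
noncomputable def medHomCongr {W₁ W₂ : Affine F} (h : W₁ = W₂) : W₁.Point ≃+ W₂.Point :=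
  h ▸ AddEquiv.refl _

lemma medHomCongr_some {W₁ W₂ : Affine F} (h : W₁ = W₂) {x y : F}
    (hxy : W₁.Nonsingular x y) :
    medHomCongr h (Point.some x y hxy) = Point.some x y (h ▸ hxy) := by
  subst h
  rfl

lemma medHomCongr_zero {W₁ W₂ : Affine F} (h : W₁ = W₂) :
    medHomCongr h (0 : W₁.Point) = 0 := map_zero _

end Field

section BaseChange

variable {R : Type*} [CommRing R] (W : WeierstrassCurve R)
variable (k : Type*) [Field k] [Algebra R k]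

lemma medHom_baseChange_eq :
    medModel (W.baseChange k) = (medW W.b₂ (8 * W.b₄) (16 * W.b₆)).baseChange k := by
  simp only [medModel, WeierstrassCurve.baseChange, medW, WeierstrassCurve.map_b₂,
    WeierstrassCurve.map_b₄, WeierstrassCurve.map_b₆]
  ext <;> simp [WeierstrassCurve.map, map_mul, map_ofNat]

variable [DecidableEq k]

/-- the medium model as a group isomorphism over an extension field -/
noncomputable def medHomBase (h2 : (2 : k) ≠ 0) :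
    (W⁄k).Point ≃+ ((medW W.b₂ (8 * W.b₄) (16 * W.b₆))⁄k).Point :=
  (medHomAddEquiv (W.baseChange k) h2).trans (medHomCongr (medHom_baseChange_eq W k))

lemma medHomBase_zero (h2 : (2 : k) ≠ 0) :
    medHomBase W k h2 0 = 0 := map_zero _

lemma medHomBase_some (h2 : (2 : k) ≠ 0) {x y : k}
    (h : (W⁄k).Nonsingular x y) :
    ∃ h' : ((medW W.b₂ (8 * W.b₄) (16 * W.b₆))⁄k).Nonsingular
        (toMedX x) (toMedY (W.baseChange k) x y),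
      medHomBase W k h2 (Point.some x y h) = Point.some _ _ h' := by
  have h0 := toMed_nonsingular (W := W.baseChange k) h2 h
  have h1 : ((medW W.b₂ (8 * W.b₄) (16 * W.b₆))⁄k).Nonsingular
      (toMedX x) (toMedY (W.baseChange k) x y) := by
    have e := medHom_baseChange_eq W k
    exact (congrArg (fun E : WeierstrassCurve.Affine k =>
      E.Nonsingular (toMedX x) (toMedY (W.baseChange k) x y)) e).mp h0
  refine ⟨h1, ?_⟩
  simp only [medHomBase, AddEquiv.trans_apply]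
  exact medHomCongr_some (medHom_baseChange_eq W k) _

/-- compatibility with maps induced by algebra homomorphisms -/
theorem medHomBase_map {k' : Type*} [Field k'] [Algebra R k'] [DecidableEq k']
    (h2 : (2 : k) ≠ 0) (h2' : (2 : k') ≠ 0)
    (f : k →ₐ[R] k') (P : (W⁄k).Point) :
    medHomBase W k' h2' (Affine.Point.map (W' := W) f P)
      = Affine.Point.map (W' := medW W.b₂ (8 * W.b₄) (16 * W.b₆)) f (medHomBase W k h2 P) := by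
  rcases P with _ | ⟨x, y, h⟩
  · change medHomBase W k' h2' (Affine.Point.map (W' := W) f 0)
      = Affine.Point.map (W' := medW W.b₂ (8 * W.b₄) (16 * W.b₆)) f (medHomBase W k h2 0)
    rw [map_zero, medHomBase_zero, medHomBase_zero, map_zero]
  · obtain ⟨h', e'⟩ := medHomBase_some W k h2 h
    rw [e', Affine.Point.map_some, Affine.Point.map_some]
    obtain ⟨h'', e''⟩ := medHomBase_some W k' h2'
      ((Affine.baseChange_nonsingular (W := W) f.injective x y).mpr h)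
    rw [e'']
    simp only [Point.some.injEq]
    constructor
    · simp only [toMedX, map_mul, map_ofNat]
    · simp only [toMedY, WeierstrassCurve.baseChange, WeierstrassCurve.map_a₁,
        WeierstrassCurve.map_a₃, map_add, map_mul, map_ofNat, AlgHom.commutes]

end BaseChange

lemma two_ne_zero_of_odd_prime {ℓ : ℕ} [Fact ℓ.Prime] (hℓ : ℓ ≠ 2) : (2 : ZMod ℓ) ≠ 0 := by
  have hprime : ℓ.Prime := Fact.out
  have : ((2 : ℕ) : ZMod ℓ) ≠ 0 := by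
    rw [Ne, ZMod.natCast_eq_zero_iff]
    intro h
    exact hℓ ((Nat.prime_dvd_prime_iff_eq hprime Nat.prime_two).mp h)
  exact_mod_cast this

theorem medW_Δ_ne_zero {ℓ : ℕ} [Fact ℓ.Prime] (hℓ : ℓ ≠ 2) (W : WeierstrassCurve (ZMod ℓ))
    (hΔ : W.Δ ≠ 0) : (medW W.b₂ (8 * W.b₄) (16 * W.b₆)).Δ ≠ 0 :=
  medModel_Δ_ne_zero W (two_ne_zero_of_odd_prime hℓ) hΔ

theorem exists_medHom {ℓ : ℕ} [Fact ℓ.Prime] (hℓ : ℓ ≠ 2) (W : WeierstrassCurve (ZMod ℓ))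
    (k : Type*) [Field k] [Algebra (ZMod ℓ) k] [DecidableEq k] :
    ∃ h : (W⁄k).Point →+ ((medW W.b₂ (8 * W.b₄) (16 * W.b₆))⁄k).Point,
      Function.Injective h ∧
      ∀ P, h (frobPt W k P) = frobPt (medW W.b₂ (8 * W.b₄) (16 * W.b₆)) k (h P) := by
  have h2 := two_ne_zero_of_odd_prime hℓ
  have hinj := FaithfulSMul.algebraMap_injective (ZMod ℓ) k
  have h2k : (2 : k) ≠ 0 := by
    rw [← map_ofNat (algebraMap (ZMod ℓ) k) 2]
    exact (map_ne_zero_iff _ hinj).mpr h2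
  refine ⟨(medHomBase W k h2k).toAddMonoidHom, (medHomBase W k h2k).injective, ?_⟩
  intro P
  exact medHomBase_map W k h2k h2k (FiniteField.frobeniusAlgHom (ZMod ℓ) k) P

end Fermat.Agent.FrobTrace.Char3
end MergeWrap_Lib_FrobTrace_Char3_MedHom

section MergeWrap_Lib_FrobTrace_Char3_OddRat -- from Lib/FrobTrace/Char3/OddRat.lean

/-!
# FrobTrace / Char3 / OddRat: the subgroup of odd-rational points
(port of `F1/OddRat.lean` (helper4, helper10) to `y² = x³ + a₂ x² + a₄ x + a₆`, `ℓ` odd; helper51)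

`E = medW a₂ a₄ a₆` over `ZMod ℓ`, `L` a field over `ZMod ℓ` and over `k`, `(ξ, η)` a point of `E(L)`.
A point of `E(L)` is *odd-rational* if it is `O` or `(x, η s)` with `x, s ∈ k(ξ)`.
-/

set_option autoImplicit false
set_option linter.unusedSectionVars false

open Polynomial WeierstrassCurve WeierstrassCurve.Affine IntermediateField

namespace Fermat.Agent.FrobTrace.Char3

open Fermat.Agent.S52 (frobPt)
open Fermat.Agent.F1 (XRat ht ht_eq hpair xRat_zero)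

variable {ℓ : ℕ} [Fact ℓ.Prime] (a2 a4 a6 : ZMod ℓ)
variable (k : Type*) [Field k] [Algebra (ZMod ℓ) k]
variable {L : Type*} [Field L] [Algebra (ZMod ℓ) L] [Algebra k L] [IsScalarTower (ZMod ℓ) k L]
variable (ξ η : L)

/-- odd-rationality of a point relative to `(ξ, η)`. -/
def IsOddRat : ((medW a2 a4 a6)⁄L).Point → Prop
  | .zero => True
  | .some x y _ => x ∈ k⟮ξ⟯ ∧ ∃ s ∈ k⟮ξ⟯, y = η * s

section aux

variable {a2 a4 a6}

lemma oddRat_a₁ : ((medW a2 a4 a6)⁄L).a₁ = 0 := by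
  simp [medW, WeierstrassCurve.baseChange]

lemma oddRat_a₂ : ((medW a2 a4 a6)⁄L).a₂ = algebraMap (ZMod ℓ) L a2 := by
  simp [medW, WeierstrassCurve.baseChange]

lemma oddRat_a₃ : ((medW a2 a4 a6)⁄L).a₃ = 0 := by
  simp [medW, WeierstrassCurve.baseChange]

lemma oddRat_a₄ : ((medW a2 a4 a6)⁄L).a₄ = algebraMap (ZMod ℓ) L a4 := by
  simp [medW, WeierstrassCurve.baseChange]

lemma oddRat_a₆ : ((medW a2 a4 a6)⁄L).a₆ = algebraMap (ZMod ℓ) L a6 := by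
  simp [medW, WeierstrassCurve.baseChange]

lemma oddRat_negY (x y : L) : ((medW a2 a4 a6)⁄L).negY x y = -y := by
  rw [Affine.negY, oddRat_a₁, oddRat_a₃]
  ring

lemma oddRat_equation {x y : L} (h : ((medW a2 a4 a6)⁄L).Equation x y) :
    y ^ 2 = x ^ 3 + algebraMap (ZMod ℓ) L a2 * x ^ 2 + algebraMap (ZMod ℓ) L a4 * x
      + algebraMap (ZMod ℓ) L a6 := by
  have := (Affine.equation_iff x y).mp h
  rw [oddRat_a₁, oddRat_a₂, oddRat_a₃, oddRat_a₄, oddRat_a₆] at this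
  linear_combination this

variable {ξ}

lemma oddRat_coeff_mem (c : ZMod ℓ) : algebraMap (ZMod ℓ) L c ∈ k⟮ξ⟯ := by
  rw [IsScalarTower.algebraMap_apply (ZMod ℓ) k L]
  exact IntermediateField.algebraMap_mem _ _

variable {η}

lemma oddRat_sq_mem (hns : ((medW a2 a4 a6)⁄L).Nonsingular ξ η) : η ^ 2 ∈ k⟮ξ⟯ := by
  rw [oddRat_equation hns.1]
  have hξ : ξ ∈ k⟮ξ⟯ := mem_adjoin_simple_self k ξ
  exact add_mem (add_mem (add_mem (pow_mem hξ 3) (mul_mem (oddRat_coeff_mem k a2) (pow_mem hξ 2)))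
    (mul_mem (oddRat_coeff_mem k a4) hξ)) (oddRat_coeff_mem k a6)

end aux

variable [DecidableEq L]

variable {a2 a4 a6 ξ η}

/-- the slope of the chord/tangent through two odd-rational points is `η σ` with `σ ∈ k(ξ)`. -/
lemma oddRat_slope (hns : ((medW a2 a4 a6)⁄L).Nonsingular ξ η) {x₁ x₂ s₁ s₂ : L}
    (hx₁ : x₁ ∈ k⟮ξ⟯) (hx₂ : x₂ ∈ k⟮ξ⟯) (hs₁ : s₁ ∈ k⟮ξ⟯) (hs₂ : s₂ ∈ k⟮ξ⟯)
    (hxy : ¬(x₁ = x₂ ∧ η * s₁ = ((medW a2 a4 a6)⁄L).negY x₂ (η * s₂))) :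
    ∃ σ ∈ k⟮ξ⟯, ((medW a2 a4 a6)⁄L).slope x₁ x₂ (η * s₁) (η * s₂) = η * σ := by
  by_cases hx : x₁ = x₂
  · have hy : η * s₁ ≠ ((medW a2 a4 a6)⁄L).negY x₂ (η * s₂) := fun h => hxy ⟨hx, h⟩
    rw [Affine.slope_of_Y_ne hx hy, oddRat_negY, oddRat_a₁, oddRat_a₂, oddRat_a₄]
    by_cases hden : η * s₁ - -(η * s₁) = 0
    · refine ⟨0, zero_mem _, ?_⟩
      rw [hden, div_zero, mul_zero]
    · have hη : η ≠ 0 := by
        rintro rfl
        simp at hden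
      have hss : s₁ + s₁ ≠ 0 := by
        intro h0
        apply hden
        have : η * s₁ - -(η * s₁) = η * (s₁ + s₁) := by ring
        rw [this, h0, mul_zero]
      have hη2 : η ^ 2 ≠ 0 := pow_ne_zero 2 hη
      refine ⟨(3 * x₁ ^ 2 + 2 * algebraMap (ZMod ℓ) L a2 * x₁ + algebraMap (ZMod ℓ) L a4)
          / (η ^ 2 * (s₁ + s₁)), ?_, ?_⟩
      · refine div_mem (add_mem (add_mem (mul_mem ?_ (pow_mem hx₁ 2))
          (mul_mem (mul_mem ?_ (oddRat_coeff_mem k a2)) hx₁)) (oddRat_coeff_mem k a4))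
          (mul_mem (oddRat_sq_mem k hns) (add_mem hs₁ hs₁))
        · exact ofNat_mem _ 3
        · exact ofNat_mem _ 2
      · field_simp
        ring
  · rw [Affine.slope_of_X_ne hx]
    refine ⟨(s₁ - s₂) / (x₁ - x₂), div_mem (sub_mem hs₁ hs₂) (sub_mem hx₁ hx₂), ?_⟩
    have : x₁ - x₂ ≠ 0 := sub_ne_zero.mpr hx
    field_simp

lemma isOddRat_zero : IsOddRat a2 a4 a6 k ξ η (0 : ((medW a2 a4 a6)⁄L).Point) := trivial

lemma isOddRat_some {x y : L} (h : ((medW a2 a4 a6)⁄L).Nonsingular x y) :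
    IsOddRat a2 a4 a6 k ξ η (Point.some x y h) ↔ x ∈ k⟮ξ⟯ ∧ ∃ s ∈ k⟮ξ⟯, y = η * s := Iff.rfl

lemma isOddRat_neg {Q : ((medW a2 a4 a6)⁄L).Point} (hQ : IsOddRat a2 a4 a6 k ξ η Q) :
    IsOddRat a2 a4 a6 k ξ η (-Q) := by
  rcases Q with _ | ⟨x, y, h⟩
  · exact hQ
  · obtain ⟨hx, s, hs, rfl⟩ := hQ
    rw [Point.neg_some, isOddRat_some]
    refine ⟨hx, -s, neg_mem hs, ?_⟩
    rw [oddRat_negY]
    ring

lemma isOddRat_add (hns : ((medW a2 a4 a6)⁄L).Nonsingular ξ η) {P Q : ((medW a2 a4 a6)⁄L).Point}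
    (hP : IsOddRat a2 a4 a6 k ξ η P) (hQ : IsOddRat a2 a4 a6 k ξ η Q) :
    IsOddRat a2 a4 a6 k ξ η (P + Q) := by
  rcases P with _ | ⟨x₁, y₁, h₁⟩
  · rw [← Point.zero_def, zero_add]
    exact hQ
  rcases Q with _ | ⟨x₂, y₂, h₂⟩
  · rw [← Point.zero_def, add_zero]
    exact hP
  obtain ⟨hx₁, s₁, hs₁, rfl⟩ := hP
  obtain ⟨hx₂, s₂, hs₂, rfl⟩ := hQ
  by_cases hxy : x₁ = x₂ ∧ η * s₁ = ((medW a2 a4 a6)⁄L).negY x₂ (η * s₂)
  · rw [Point.add_of_Y_eq hxy.1 hxy.2]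
    exact isOddRat_zero k
  · rw [Point.add_some hxy, isOddRat_some]
    obtain ⟨σ, hσ, hsl⟩ := oddRat_slope k hns hx₁ hx₂ hs₁ hs₂ hxy
    have hX : ((medW a2 a4 a6)⁄L).addX x₁ x₂ (((medW a2 a4 a6)⁄L).slope x₁ x₂ (η * s₁) (η * s₂))
        = η ^ 2 * σ ^ 2 - algebraMap (ZMod ℓ) L a2 - x₁ - x₂ := by
      rw [hsl, Affine.addX, oddRat_a₁, oddRat_a₂]
      ring
    have hXmem : η ^ 2 * σ ^ 2 - algebraMap (ZMod ℓ) L a2 - x₁ - x₂ ∈ k⟮ξ⟯ :=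
      sub_mem (sub_mem (sub_mem (mul_mem (oddRat_sq_mem k hns) (pow_mem hσ 2))
        (oddRat_coeff_mem k a2)) hx₁) hx₂
    refine ⟨by rw [hX]; exact hXmem,
      -(σ * (η ^ 2 * σ ^ 2 - algebraMap (ZMod ℓ) L a2 - x₁ - x₂ - x₁) + s₁), ?_, ?_⟩
    · exact neg_mem (add_mem (mul_mem hσ (sub_mem hXmem hx₁)) hs₁)
    · rw [Affine.addY, Affine.negAddY, oddRat_negY, hX, hsl]
      ring


/-- the subgroup of odd-rational points. -/
def oddRat (hns : ((medW a2 a4 a6)⁄L).Nonsingular ξ η) :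
    AddSubgroup ((medW a2 a4 a6)⁄L).Point where
  carrier := {Q | IsOddRat a2 a4 a6 k ξ η Q}
  zero_mem' := trivial
  add_mem' := fun hP hQ => isOddRat_add k hns hP hQ
  neg_mem' := fun hQ => isOddRat_neg k hQ

variable (hns : ((medW a2 a4 a6)⁄L).Nonsingular ξ η)

lemma mem_oddRat_iff {Q : ((medW a2 a4 a6)⁄L).Point} :
    Q ∈ oddRat k hns ↔ IsOddRat a2 a4 a6 k ξ η Q := Iff.rfl

theorem gen_mem_oddRat : Point.some ξ η hns ∈ oddRat k hns :=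
  ⟨mem_adjoin_simple_self k ξ, 1, one_mem _, (mul_one η).symm⟩

omit [IsScalarTower (ZMod ℓ) k L] hns in
lemma oddRat_frobPt_some {x y : L} (h : ((medW a2 a4 a6)⁄L).Nonsingular x y) :
    ∃ h', frobPt (medW a2 a4 a6) L (Point.some x y h) = Point.some (x ^ ℓ) (y ^ ℓ) h' := by
  have e : frobPt (medW a2 a4 a6) L (Point.some x y h)
      = Point.some (FiniteField.frobeniusAlgHom (ZMod ℓ) L x)
          (FiniteField.frobeniusAlgHom (ZMod ℓ) L y)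
          ((WeierstrassCurve.Affine.baseChange_nonsingular (medW a2 a4 a6)
            (FiniteField.frobeniusAlgHom (ZMod ℓ) L).injective ..).mpr h) := rfl
  have hx : FiniteField.frobeniusAlgHom (ZMod ℓ) L x = x ^ ℓ := by
    rw [FiniteField.coe_frobeniusAlgHom, ZMod.card]
  have hy : FiniteField.frobeniusAlgHom (ZMod ℓ) L y = y ^ ℓ := by
    rw [FiniteField.coe_frobeniusAlgHom, ZMod.card]
  have key : ∀ (u v : L) (hu : u = x ^ ℓ) (hv : v = y ^ ℓ)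
      (huv : ((medW a2 a4 a6)⁄L).Nonsingular u v),
      ∃ h', Point.some u v huv = Point.some (x ^ ℓ) (y ^ ℓ) h' := by
    rintro u v rfl rfl huv
    exact ⟨huv, rfl⟩
  rw [e]
  exact key _ _ hx hy _

/-- the hypothesis `ℓ ≠ 2` is needed: `η ^ ℓ = η (η²)^((ℓ-1)/2)`. -/
theorem frob_mem_oddRat (hℓ : ℓ ≠ 2) {Q : ((medW a2 a4 a6)⁄L).Point} (hQ : Q ∈ oddRat k hns) :
    frobPt (medW a2 a4 a6) L Q ∈ oddRat k hns := by
  rcases Q with _ | ⟨x, y, h⟩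
  · rw [← Point.zero_def, map_zero]
    exact (oddRat k hns).zero_mem
  · obtain ⟨hx, s, hs, rfl⟩ := hQ
    obtain ⟨h', e⟩ := oddRat_frobPt_some (a2 := a2) (a4 := a4) (a6 := a6) h
    rw [e, mem_oddRat_iff, isOddRat_some]
    have hodd : Odd ℓ := by
      rcases (Fact.out : ℓ.Prime).eq_two_or_odd' with h2 | h2
      · exact absurd h2 hℓ
      · exact h2
    obtain ⟨m, hm⟩ := hodd
    refine ⟨pow_mem hx ℓ, (η ^ 2) ^ m * s ^ ℓ,
      mul_mem (pow_mem (oddRat_sq_mem k hns) m) (pow_mem hs ℓ), ?_⟩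
    have e1 : η ^ ℓ = η * (η ^ 2) ^ m := by
      rw [hm]
      ring
    rw [mul_pow, e1]
    ring

omit [Algebra (ZMod ℓ) k] [IsScalarTower (ZMod ℓ) k L] [DecidableEq L] hns in
/-- an element of `k(ξ)` is a quotient of values of coprime polynomials. -/
lemma oddRat_exists_coprime_rep {x : L} (hx : x ∈ k⟮ξ⟯) :
    ∃ f g : k[X], IsCoprime f g ∧ aeval ξ g ≠ 0 ∧ aeval ξ f = aeval ξ g * x := by
  obtain ⟨r, s, hrs⟩ := (mem_adjoin_simple_iff k x).mp hx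
  by_cases hs : aeval ξ s = 0
  · refine ⟨0, 1, isCoprime_zero_left.mpr isUnit_one, by simp, ?_⟩
    rw [hrs, hs, div_zero]
    simp
  · have hs0 : s ≠ 0 := by
      rintro rfl
      simp at hs
    set z : RatFunc k := algebraMap k[X] (RatFunc k) r / algebraMap k[X] (RatFunc k) s with hz
    have hcross : z.num * s = r * z.denom := (RatFunc.num_mul_eq_mul_denom_iff hs0).mpr hz
    obtain ⟨e, he⟩ : z.denom ∣ s := RatFunc.denom_div_dvd r s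
    have hg : aeval ξ z.denom ≠ 0 := by
      intro h0
      apply hs
      rw [he, map_mul, h0, zero_mul]
    refine ⟨z.num, z.denom, RatFunc.isCoprime_num_denom z, hg, ?_⟩
    have h1 := congrArg (aeval ξ) hcross
    rw [map_mul, map_mul] at h1
    rw [hrs]
    field_simp
    linear_combination h1

theorem exists_xRat_of_mem {Q : ((medW a2 a4 a6)⁄L).Point} (hQ : Q ∈ oddRat k hns) :
    ∃ f g : k[X], XRat ξ Q f g := by
  rcases Q with _ | ⟨x, y, h⟩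
  · exact ⟨1, 0, xRat_zero ξ⟩
  · obtain ⟨hx, -⟩ := hQ
    obtain ⟨f, g, hfg, hg, hf⟩ := oddRat_exists_coprime_rep k hx
    refine ⟨f, g, hfg, aeval ξ g, hg, ?_, ?_⟩
    · rw [Point.xRep_some]
      simpa using hf
    · rw [Point.xRep_some]
      simp

theorem ht_gen (htr : Transcendental k ξ) : ht k ξ (Point.some ξ η hns) = 1 := by
  have h : XRat (k := k) ξ (Point.some ξ η hns) X 1 := by
    refine ⟨isCoprime_one_right, 1, one_ne_zero, ?_, ?_⟩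
    · rw [Point.xRep_some]; simp
    · rw [Point.xRep_some]; simp
  rw [ht_eq htr h]
  simp [hpair]

omit hns in
theorem ht_frob (htr : Transcendental k ξ) {Q : ((medW a2 a4 a6)⁄L).Point}
    (hQ : ∃ f g : k[X], XRat ξ Q f g) :
    ht k ξ (frobPt (medW a2 a4 a6) L Q) = ℓ * ht k ξ Q := by
  obtain ⟨f, g, hfg⟩ := hQ
  have hℓ0 : ℓ ≠ 0 := (Fact.out : ℓ.Prime).ne_zero
  have h' : XRat (k := k) ξ (frobPt (medW a2 a4 a6) L Q) (f ^ ℓ) (g ^ ℓ) := by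
    obtain ⟨hcop, c, hc, hf, hg⟩ := hfg
    refine ⟨hcop.pow, c ^ ℓ, pow_ne_zero ℓ hc, ?_, ?_⟩
    · rw [map_pow, hf, mul_pow]
      congr 1
      rcases Q with _ | ⟨x, y, h⟩
      · rw [← Point.zero_def, map_zero, Point.xRep_zero]
        simp
      · obtain ⟨h', e⟩ := oddRat_frobPt_some (a2 := a2) (a4 := a4) (a6 := a6) h
        rw [e, Point.xRep_some, Point.xRep_some]
        simp
    · rw [map_pow, hg, mul_pow]
      congr 1
      rcases Q with _ | ⟨x, y, h⟩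
      · rw [← Point.zero_def, map_zero, Point.xRep_zero]
        simp [hℓ0]
      · obtain ⟨h', e⟩ := oddRat_frobPt_some (a2 := a2) (a4 := a4) (a6 := a6) h
        rw [e, Point.xRep_some, Point.xRep_some]
        simp
  rw [ht_eq htr h', ht_eq htr hfg, hpair, hpair, natDegree_pow, natDegree_pow,
    Nat.mul_max_mul_left]

/-- height `0` ⇒ constant x-coordinate ⇒ (parity: the cubic has odd degree) `y = 0`. -/
theorem two_nsmul_eq_zero_of_ht_eq_zero (htr : Transcendental k ξ)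
    {Q : ((medW a2 a4 a6)⁄L).Point} (hQ : Q ∈ oddRat k hns) (h0 : ht k ξ Q = 0) : 2 • Q = 0 := by
  rcases Q with _ | ⟨x, y, h⟩
  · rw [← Point.zero_def, smul_zero]
  obtain ⟨hx, s, hs, rfl⟩ := hQ
  -- the x-coordinate is constant
  obtain ⟨f, g, hfg, hg, hf⟩ := oddRat_exists_coprime_rep k hx
  have hX : XRat (k := k) ξ (Point.some x (η * s) h) f g := by
    refine ⟨hfg, aeval ξ g, hg, ?_, ?_⟩
    · rw [Point.xRep_some]; simpa using hf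
    · rw [Point.xRep_some]; simp
  rw [ht_eq htr hX, hpair] at h0
  have hf0 : f.natDegree = 0 := by omega
  have hg0 : g.natDegree = 0 := by omega
  obtain ⟨a, rfl⟩ : ∃ a, f = C a := ⟨_, eq_C_of_natDegree_eq_zero hf0⟩
  obtain ⟨b, rfl⟩ : ∃ b, g = C b := ⟨_, eq_C_of_natDegree_eq_zero hg0⟩
  rw [aeval_C] at hg hf
  have hxe : x = algebraMap k L (a / b) := by
    rw [map_div₀]
    field_simp
    rw [hf, aeval_C]
    ring
  -- `s = 0`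
  have hs0 : s = 0 := by
    by_contra hsne
    obtain ⟨p, q, hpq⟩ := (mem_adjoin_simple_iff k s).mp hs
    have hq : aeval ξ q ≠ 0 := by
      intro hq0
      apply hsne
      rw [hpq, hq0, div_zero]
    have hp : aeval ξ p ≠ 0 := by
      intro hp0
      apply hsne
      rw [hpq, hp0, zero_div]
    have hp0 : p ≠ 0 := by rintro rfl; simp at hp
    have hq0 : q ≠ 0 := by rintro rfl; simp at hq
    have e1 := oddRat_equation h.1
    have e2 := oddRat_equation hns.1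
    set A2 : k := algebraMap (ZMod ℓ) k a2 with hA2
    set A' : k := algebraMap (ZMod ℓ) k a4 with hA'
    set B' : k := algebraMap (ZMod ℓ) k a6 with hB'
    have hA2L : algebraMap (ZMod ℓ) L a2 = algebraMap k L A2 := by
      rw [hA2, ← IsScalarTower.algebraMap_apply]
    have hAL : algebraMap (ZMod ℓ) L a4 = algebraMap k L A' := by
      rw [hA', ← IsScalarTower.algebraMap_apply]
    have hBL : algebraMap (ZMod ℓ) L a6 = algebraMap k L B' := by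
      rw [hB', ← IsScalarTower.algebraMap_apply]
    set F : k[X] := X ^ 3 + C A2 * X ^ 2 + C A' * X + C B' with hF
    set κ : k := (a / b) ^ 3 + A2 * (a / b) ^ 2 + A' * (a / b) + B' with hκ
    have hFdeg : F.natDegree = 3 := by
      rw [hF]
      compute_degree!
    have hF0 : F ≠ 0 := by
      intro h0
      rw [h0, natDegree_zero] at hFdeg
      omega
    have hFξ : aeval ξ F = η ^ 2 := by
      rw [e2, hF, hA2L, hAL, hBL]
      simp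
    have hκx : algebraMap k L κ = (η * s) ^ 2 := by
      rw [e1, hxe, hκ, hA2L, hAL, hBL]
      simp
    have hpoly : F * p ^ 2 = C κ * q ^ 2 := by
      apply (transcendental_iff_injective.mp htr)
      rw [map_mul, map_mul, map_pow, map_pow, hFξ, aeval_C, hκx, hpq]
      field_simp
    have hdeg := congrArg natDegree hpoly
    rw [natDegree_mul hF0 (pow_ne_zero 2 hp0), natDegree_pow, hFdeg] at hdeg
    by_cases hκ0 : κ = 0
    · rw [hκ0, map_zero, zero_mul] at hpoly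
      exact mul_ne_zero hF0 (pow_ne_zero 2 hp0) hpoly
    · rw [natDegree_C_mul hκ0, natDegree_pow] at hdeg
      omega
  -- conclusion
  rw [two_nsmul]
  apply Point.add_self_of_Y_eq
  rw [oddRat_negY, hs0]
  simp

end Fermat.Agent.FrobTrace.Char3
end MergeWrap_Lib_FrobTrace_Char3_OddRat

section MergeWrap_Lib_FrobTrace_Char3_Count -- from Lib/FrobTrace/Char3/Count.lean

/-!
# FrobTrace / Char3 / Count: Manin's count
(port of `F1/Count.lean` (helper65) to `y² = x³ + a₂ x² + a₄ x + a₆`, `ℓ` odd; helper51)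

The rational function `x(P - φP) = maninNum ℓ 1 / maninDen ℓ`, in lowest terms `p/q`, has height
`#E(F_ℓ) = ℓ + 1 - traceOfFrobenius`.

Pure polynomial argument over `ZMod ℓ`: with `f = X³ + a₂ X² + a₄ X + a₆` squarefree and `m = ℓ / 2`,
`Num = f (f^m + 1)² - (X^ℓ + X + a₂)(X^ℓ - X)²` is monic of degree `2ℓ + 1`, `Den = ∏_c (X - c)²`,
and `X - c` cancels exactly `canc c` times, where `canc c = 1, 0, 2` according as `f(c)` is zero,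
a nonzero square, a non-square; so `2 - canc c = #{y | y² = f(c)}`.
-/

set_option autoImplicit false

open Polynomial WeierstrassCurve

namespace Fermat.Agent.FrobTrace.Char3

open Fermat.Agent.F1 (maninDen hpair)

namespace Manin

variable {ℓ : ℕ} [Fact ℓ.Prime]

/-- Numerator of the `x`-coordinate of `P - Frob(P)`, normalised. -/
noncomputable def mNum (a2 A B : ZMod ℓ) : (ZMod ℓ)[X] :=
  cubic a2 A B * (cubic a2 A B ^ (ℓ / 2) + 1) ^ 2 - (X ^ ℓ + X + C a2) * (X ^ ℓ - X) ^ 2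

/-- The multiplicity with which `X - c` cancels. -/
noncomputable def canc (a2 A B c : ZMod ℓ) : ℕ :=
  if (cubic a2 A B).eval c = 0 then 1 else if IsSquare ((cubic a2 A B).eval c) then 0 else 2

lemma canc_le_two (a2 A B c : ZMod ℓ) : canc a2 A B c ≤ 2 := by
  unfold canc; split_ifs <;> omega

@[simp] lemma eval_cubic (a2 A B c : ZMod ℓ) :
    (cubic a2 A B).eval c = c ^ 3 + a2 * c ^ 2 + A * c + B := by
  simp [cubic]

lemma eval_X_pow_sub_X (c : ZMod ℓ) : (X ^ ℓ - X : (ZMod ℓ)[X]).eval c = 0 := by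
  simp [ZMod.pow_card]

lemma X_sub_C_dvd_X_pow_sub_X (c : ZMod ℓ) : (X - C c) ∣ (X ^ ℓ - X : (ZMod ℓ)[X]) :=
  dvd_iff_isRoot.mpr (eval_X_pow_sub_X c)

lemma eval_mNum (a2 A B c : ZMod ℓ) :
    (mNum a2 A B).eval c = (cubic a2 A B).eval c * (((cubic a2 A B).eval c) ^ (ℓ / 2) + 1) ^ 2 := by
  have h := eval_X_pow_sub_X c
  simp only [mNum, eval_sub, eval_mul, eval_pow, eval_add, eval_one, eval_X, eval_C] at h ⊢
  rw [h]; ring

lemma half_pos (_hℓ2 : ℓ ≠ 2) : 0 < ℓ / 2 := by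
  have := (Fact.out : ℓ.Prime).two_le
  omega

lemma two_mul_half_add_one (hℓ2 : ℓ ≠ 2) : 2 * (ℓ / 2) + 1 = ℓ := by
  have hodd := (Fact.out : ℓ.Prime).eq_two_or_odd.resolve_left hℓ2
  omega

lemma two_ne_zero' (hℓ2 : ℓ ≠ 2) : (2 : ZMod ℓ) ≠ 0 := by
  intro h
  have : ((2 : ℕ) : ZMod ℓ) = 0 := by exact_mod_cast h
  rw [ZMod.natCast_eq_zero_iff] at this
  have hp := (Fact.out : ℓ.Prime)
  have := (Nat.prime_dvd_prime_iff_eq hp Nat.prime_two).mp this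
  exact hℓ2 this

/-- Euler's criterion, in the form we need. -/
lemma pow_half_eq (hℓ2 : ℓ ≠ 2) {a : ZMod ℓ} (ha : a ≠ 0) :
    (IsSquare a ∧ a ^ (ℓ / 2) = 1) ∨ (¬ IsSquare a ∧ a ^ (ℓ / 2) = -1) := by
  have h1 := ZMod.euler_criterion (p := ℓ) ha
  rcases ZMod.pow_div_two_eq_neg_one_or_one ℓ ha with h | h
  · left; exact ⟨h1.mpr h, h⟩
  · right
    refine ⟨fun hs => ?_, h⟩
    have := h1.mp hs
    rw [h] at this
    have h2 : (2 : ZMod ℓ) = 0 := by linear_combination -this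
    exact two_ne_zero' hℓ2 h2

/-- `(X - c)^{canc c}` divides the numerator. -/
lemma pow_canc_dvd_mNum (hℓ2 : ℓ ≠ 2) (a2 A B c : ZMod ℓ) :
    (X - C c) ^ canc a2 A B c ∣ mNum a2 A B := by
  unfold canc
  split_ifs with h0 hsq
  · rw [pow_one, dvd_iff_isRoot, IsRoot, eval_mNum, h0, zero_mul]
  · simp
  · have hm : (cubic a2 A B).eval c ^ (ℓ / 2) = -1 := by
      rcases pow_half_eq hℓ2 h0 with ⟨hs, _⟩ | ⟨_, h⟩
      · exact absurd hs hsq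
      · exact h
    have h1 : (X - C c) ∣ cubic a2 A B ^ (ℓ / 2) + 1 := by
      rw [dvd_iff_isRoot, IsRoot, eval_add, eval_pow, eval_one, hm]; ring
    have h2 : (X - C c) ^ 2 ∣ (cubic a2 A B ^ (ℓ / 2) + 1) ^ 2 := pow_dvd_pow_of_dvd h1 2
    have h3 : (X - C c) ^ 2 ∣ (X ^ ℓ - X : (ZMod ℓ)[X]) ^ 2 :=
      pow_dvd_pow_of_dvd (X_sub_C_dvd_X_pow_sub_X c) 2
    exact dvd_sub (Dvd.dvd.mul_left h2 _) (Dvd.dvd.mul_left h3 _)

/-- the discriminant of the cubic -/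
def disc3 {R : Type*} [CommRing R] (a2 a4 a6 : R) : R :=
  a2 ^ 2 * a4 ^ 2 - 4 * a4 ^ 3 - 4 * a2 ^ 3 * a6 + 18 * a2 * a4 * a6 - 27 * a6 ^ 2

/-- The discriminant identity. -/
lemma disc_of_double_root {a2 a4 a6 c : ZMod ℓ} (h1 : c ^ 3 + a2 * c ^ 2 + a4 * c + a6 = 0)
    (h2 : 3 * c ^ 2 + 2 * a2 * c + a4 = 0) : disc3 a2 a4 a6 = 0 := by
  unfold disc3
  linear_combination (15 * a2 * a4 + (-6) * a2 ^ 2 * c + (-4) * a2 ^ 3 + 18 * a4 * c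
      + (-27) * a6) * h1
    + ((-7) * a2 * a4 * c + 3 * a2 * a6 + a2 ^ 2 * a4 + 2 * a2 ^ 2 * c ^ 2 + 2 * a2 ^ 3 * c
      + (-6) * a4 * c ^ 2 + (-4) * a4 ^ 2 + 9 * a6 * c) * h2

/-- The cubic is squarefree. -/
lemma not_sq_dvd_cubic {a2 A B : ZMod ℓ} (hdisc : disc3 a2 A B ≠ 0) (c : ZMod ℓ) :
    ¬ (X - C c) ^ 2 ∣ cubic a2 A B := by
  rintro ⟨h, hh⟩
  have e1 : (cubic a2 A B).eval c = 0 := by rw [hh]; simp
  have e2 : (derivative (cubic a2 A B)).eval c = 0 := by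
    rw [hh]; simp [derivative_mul, derivative_pow]
  have e2' : (derivative (cubic a2 A B)).eval c = 3 * c ^ 2 + 2 * a2 * c + A := by
    simp [cubic, derivative_pow]
    ring
  rw [eval_cubic] at e1
  rw [e2'] at e2
  exact hdisc (disc_of_double_root e1 e2)

/-- `(X - c)^{canc c + 1}` does not divide the numerator when `canc c < 2`. -/
lemma not_pow_canc_succ_dvd (hℓ2 : ℓ ≠ 2) {a2 A B : ZMod ℓ} (hdisc : disc3 a2 A B ≠ 0)
    (c : ZMod ℓ) (hc : canc a2 A B c < 2) : ¬ (X - C c) ^ (canc a2 A B c + 1) ∣ mNum a2 A B := by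
  unfold canc at hc ⊢
  split_ifs at hc ⊢ with h0 hsq
  · -- simple zero of the cubic
    intro hdvd
    have h3 : (X - C c) ^ 2 ∣ (X ^ ℓ + X + C a2) * (X ^ ℓ - X : (ZMod ℓ)[X]) ^ 2 :=
      Dvd.dvd.mul_left (pow_dvd_pow_of_dvd (X_sub_C_dvd_X_pow_sub_X c) 2) _
    have h4 : (X - C c) ^ 2 ∣ cubic a2 A B * (cubic a2 A B ^ (ℓ / 2) + 1) ^ 2 := by
      have := dvd_add hdvd h3
      simpa [mNum] using this
    have hcop : IsCoprime ((X - C c) ^ 2) ((cubic a2 A B ^ (ℓ / 2) + 1) ^ 2) := by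
      apply IsCoprime.pow
      rw [(irreducible_X_sub_C c).coprime_iff_not_dvd, dvd_iff_isRoot, IsRoot, eval_add, eval_pow,
        eval_one, h0, zero_pow (half_pos hℓ2).ne', zero_add]
      exact one_ne_zero
    exact not_sq_dvd_cubic hdisc c (hcop.dvd_of_dvd_mul_right h4)
  · -- nonzero square
    rw [zero_add, pow_one, dvd_iff_isRoot, IsRoot, eval_mNum]
    have hm : (cubic a2 A B).eval c ^ (ℓ / 2) = 1 := by
      rcases pow_half_eq hℓ2 h0 with ⟨_, h⟩ | ⟨hs, _⟩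
      · exact h
      · exact absurd hsq hs
    rw [hm]
    have h2 := two_ne_zero' hℓ2
    have : ((1 : ZMod ℓ) + 1) ^ 2 ≠ 0 := by
      rw [one_add_one_eq_two]; exact pow_ne_zero 2 h2
    exact mul_ne_zero h0 this
  · omega

/-! ### The cancelling factor and the reduced denominator -/

/-- The common factor `∏ (X - c)^{canc c}`. -/
noncomputable def gPoly (a2 A B : ZMod ℓ) : (ZMod ℓ)[X] := ∏ c : ZMod ℓ, (X - C c) ^ canc a2 A B c

/-- The reduced denominator `∏ (X - c)^{2 - canc c}`. -/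
noncomputable def dPoly (a2 A B : ZMod ℓ) : (ZMod ℓ)[X] := ∏ c : ZMod ℓ, (X - C c) ^ (2 - canc a2 A B c)

lemma gPoly_dvd_mNum (hℓ2 : ℓ ≠ 2) (a2 A B : ZMod ℓ) : gPoly a2 A B ∣ mNum a2 A B := by
  unfold gPoly
  apply Fintype.prod_dvd_of_coprime
  · intro c d hcd
    exact (isCoprime_X_sub_C_of_isUnit_sub (sub_ne_zero.mpr hcd).isUnit).pow
  · intro c
    exact pow_canc_dvd_mNum hℓ2 a2 A B c

lemma prod_X_sub_C_eq : ∏ c : ZMod ℓ, (X - C c) = (X ^ ℓ - X : (ZMod ℓ)[X]) := by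
  have hp := (Fact.out : ℓ.Prime)
  have hroots : (X ^ ℓ - X : (ZMod ℓ)[X]).roots = Finset.univ.val := by
    have := FiniteField.roots_X_pow_card_sub_X (ZMod ℓ)
    rwa [ZMod.card] at this
  have hmonic : (X ^ ℓ - X : (ZMod ℓ)[X]).Monic := by
    apply monic_X_pow_sub
    rw [degree_X]
    exact_mod_cast hp.one_lt
  have hdeg : (X ^ ℓ - X : (ZMod ℓ)[X]).natDegree = ℓ :=
    FiniteField.X_pow_card_sub_X_natDegree_eq (ZMod ℓ) hp.one_lt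
  have hcard : Multiset.card (X ^ ℓ - X : (ZMod ℓ)[X]).roots
      = (X ^ ℓ - X : (ZMod ℓ)[X]).natDegree := by
    rw [hroots, hdeg]
    simp [ZMod.card]
  have h := prod_multiset_X_sub_C_of_monic_of_roots_card_eq hmonic hcard
  rw [hroots] at h
  exact h

lemma gPoly_mul_dPoly (a2 A B : ZMod ℓ) : gPoly a2 A B * dPoly a2 A B = maninDen (ZMod ℓ) ℓ := by
  unfold gPoly dPoly maninDen
  rw [← Finset.prod_mul_distrib]
  have h : ∀ c : ZMod ℓ, (X - C c : (ZMod ℓ)[X]) ^ canc a2 A B c * (X - C c) ^ (2 - canc a2 A B c)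
      = (X - C c) ^ 2 := by
    intro c
    rw [← pow_add]
    congr 1
    have := canc_le_two a2 A B c
    omega
  simp_rw [h]
  rw [Finset.prod_pow, prod_X_sub_C_eq]

lemma gPoly_monic (a2 A B : ZMod ℓ) : (gPoly a2 A B).Monic :=
  monic_prod_of_monic _ _ fun c _ => (monic_X_sub_C c).pow _

lemma dPoly_monic (a2 A B : ZMod ℓ) : (dPoly a2 A B).Monic :=
  monic_prod_of_monic _ _ fun c _ => (monic_X_sub_C c).pow _

lemma natDegree_gPoly (a2 A B : ZMod ℓ) : (gPoly a2 A B).natDegree = ∑ c : ZMod ℓ, canc a2 A B c := by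
  unfold gPoly
  rw [natDegree_prod_of_monic _ _ fun c _ => (monic_X_sub_C c).pow _]
  refine Finset.sum_congr rfl fun c _ => ?_
  rw [(monic_X_sub_C c).natDegree_pow, natDegree_X_sub_C, mul_one]

lemma natDegree_dPoly (a2 A B : ZMod ℓ) :
    (dPoly a2 A B).natDegree = ∑ c : ZMod ℓ, (2 - canc a2 A B c) := by
  unfold dPoly
  rw [natDegree_prod_of_monic _ _ fun c _ => (monic_X_sub_C c).pow _]
  refine Finset.sum_congr rfl fun c _ => ?_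
  rw [(monic_X_sub_C c).natDegree_pow, natDegree_X_sub_C, mul_one]

lemma sum_canc_add (a2 A B : ZMod ℓ) :
    (∑ c : ZMod ℓ, canc a2 A B c) + ∑ c : ZMod ℓ, (2 - canc a2 A B c) = 2 * ℓ := by
  rw [← Finset.sum_add_distrib]
  have h : ∀ c : ZMod ℓ, canc a2 A B c + (2 - canc a2 A B c) = 2 := by
    intro c
    have := canc_le_two a2 A B c
    omega
  simp_rw [h]
  simp [ZMod.card, mul_comm]

/-! ### Degree of the numerator -/

lemma cubic_pow_card (a2 A B : ZMod ℓ) :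
    cubic a2 A B ^ ℓ = X ^ (3 * ℓ) + C a2 * X ^ (2 * ℓ) + C A * X ^ ℓ + C B := by
  rw [← ZMod.expand_card]
  unfold cubic
  simp only [map_add, map_mul, map_pow, expand_X, expand_C]
  rw [← pow_mul, ← pow_mul, mul_comm ℓ 3, mul_comm ℓ 2]

/-- lower-order part of the numerator -/
noncomputable def mRest (a2 A B : ZMod ℓ) : (ZMod ℓ)[X] :=
  X ^ (ℓ + 2) + 2 * cubic a2 A B ^ (ℓ / 2 + 1) + C A * X ^ ℓ + C A * X + 2 * C B
    + 2 * C a2 * X ^ (ℓ + 1)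

lemma mNum_eq (hℓ2 : ℓ ≠ 2) (a2 A B : ZMod ℓ) : mNum a2 A B = X ^ (2 * ℓ + 1) + mRest a2 A B := by
  have h1 := cubic_pow_card a2 A B
  have h2 : ∀ n : ℕ, n = 2 * (ℓ / 2) + 1 →
      cubic a2 A B ^ n = cubic a2 A B * (cubic a2 A B ^ (ℓ / 2)) ^ 2 := by
    rintro n rfl
    ring
  rw [h2 ℓ (two_mul_half_add_one hℓ2).symm] at h1
  unfold mNum mRest
  have h3 : cubic a2 A B = X ^ 3 + C a2 * X ^ 2 + C A * X + C B := rfl
  linear_combination h1 + (1 : (ZMod ℓ)[X]) * h3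

omit [Fact ℓ.Prime] in
lemma natDegree_cubic_le (a2 A B : ZMod ℓ) : (cubic a2 A B).natDegree ≤ 3 := by
  unfold cubic
  compute_degree

lemma natDegree_mRest_le (hℓ2 : ℓ ≠ 2) (a2 A B : ZMod ℓ) : (mRest a2 A B).natDegree ≤ 2 * ℓ := by
  have hℓ := two_mul_half_add_one hℓ2
  have hm := half_pos hℓ2
  have hc : (cubic a2 A B ^ (ℓ / 2 + 1)).natDegree ≤ 2 * ℓ := by
    refine (natDegree_pow_le_of_le _ (natDegree_cubic_le a2 A B)).trans ?_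
    omega
  unfold mRest
  refine natDegree_add_le_of_degree_le (natDegree_add_le_of_degree_le (natDegree_add_le_of_degree_le
    (natDegree_add_le_of_degree_le (natDegree_add_le_of_degree_le ?_ ?_) ?_) ?_) ?_) ?_
  · rw [natDegree_X_pow]; omega
  · refine (natDegree_mul_le_of_le (m := 0) ?_ hc).trans (by omega)
    exact (natDegree_ofNat 2).le
  · refine (natDegree_C_mul_le _ _).trans ?_
    rw [natDegree_X_pow]; omega
  · refine (natDegree_C_mul_le _ _).trans ?_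
    rw [natDegree_X]; omega
  · refine (natDegree_mul_le_of_le (n := 0) (m := 0) ?_ ?_).trans (by omega)
    · exact (natDegree_ofNat 2).le
    · exact (natDegree_C B).le
  · refine (natDegree_mul_le_of_le (m := 0) (n := ℓ + 1) ?_ ?_).trans (by omega)
    · refine (natDegree_mul_le_of_le (n := 0) (m := 0) ?_ ?_).trans (by omega)
      · exact (natDegree_ofNat 2).le
      · exact (natDegree_C a2).le
    · rw [natDegree_X_pow]

lemma natDegree_mNum (hℓ2 : ℓ ≠ 2) (a2 A B : ZMod ℓ) : (mNum a2 A B).natDegree = 2 * ℓ + 1 := by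
  rw [mNum_eq hℓ2, natDegree_add_eq_left_of_natDegree_lt, natDegree_X_pow]
  rw [natDegree_X_pow]
  exact Nat.lt_succ_of_le (natDegree_mRest_le hℓ2 a2 A B)

lemma mNum_ne_zero (hℓ2 : ℓ ≠ 2) (a2 A B : ZMod ℓ) : mNum a2 A B ≠ 0 := by
  intro h
  have := natDegree_mNum hℓ2 a2 A B
  rw [h, natDegree_zero] at this
  omega

/-! ### The reduced fraction -/

lemma exists_reduced (hℓ2 : ℓ ≠ 2) {a2 A B : ZMod ℓ} (hdisc : disc3 a2 A B ≠ 0) :
    ∃ p : (ZMod ℓ)[X], mNum a2 A B = gPoly a2 A B * p ∧ IsCoprime p (dPoly a2 A B) ∧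
      p.natDegree = 1 + ∑ c : ZMod ℓ, (2 - canc a2 A B c) := by
  obtain ⟨p, hp⟩ := gPoly_dvd_mNum hℓ2 a2 A B
  refine ⟨p, hp, ?_, ?_⟩
  · unfold dPoly
    apply IsCoprime.prod_right
    intro c _
    by_cases hc : canc a2 A B c < 2
    · apply IsCoprime.pow_right
      rw [isCoprime_comm, (irreducible_X_sub_C c).coprime_iff_not_dvd]
      intro hdvd
      apply not_pow_canc_succ_dvd hℓ2 hdisc c hc
      rw [hp, pow_succ]
      refine mul_dvd_mul ?_ hdvd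
      unfold gPoly
      exact Finset.dvd_prod_of_mem (fun c => (X - C c) ^ canc a2 A B c) (Finset.mem_univ c)
    · have : 2 - canc a2 A B c = 0 := by omega
      rw [this, pow_zero]
      exact isCoprime_one_right
  · have hne := mNum_ne_zero hℓ2 a2 A B
    have hp0 : p ≠ 0 := by
      rintro rfl
      rw [mul_zero] at hp
      exact hne hp
    have hd := natDegree_mNum hℓ2 a2 A B
    rw [hp, (gPoly_monic a2 A B).natDegree_mul' hp0, natDegree_gPoly] at hd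
    have := sum_canc_add a2 A B
    omega

/-! ### Counting points -/

lemma ringChar_ne_two (hℓ2 : ℓ ≠ 2) : ringChar (ZMod ℓ) ≠ 2 := by
  rw [ZMod.ringChar_zmod_n]; exact hℓ2

open Classical in
lemma card_sqrt (hℓ2 : ℓ ≠ 2) (a2 A B c : ZMod ℓ) :
    Fintype.card {y : ZMod ℓ // y ^ 2 = c ^ 3 + a2 * c ^ 2 + A * c + B} = 2 - canc a2 A B c := by
  have h := quadraticChar_card_sqrts (ringChar_ne_two hℓ2) (c ^ 3 + a2 * c ^ 2 + A * c + B)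
  have hcard : Fintype.card {y : ZMod ℓ // y ^ 2 = c ^ 3 + a2 * c ^ 2 + A * c + B}
      = ({x : ZMod ℓ | x ^ 2 = c ^ 3 + a2 * c ^ 2 + A * c + B}.toFinset).card := by
    rw [Fintype.card_subtype]
    congr 1
    ext x
    simp
  rw [hcard]
  unfold canc
  rw [eval_cubic]
  split_ifs with h0 hsq
  · rw [quadraticChar_eq_zero_iff.mpr h0] at h
    omega
  · rw [(quadraticChar_one_iff_isSquare h0).mpr hsq] at h
    omega
  · rw [quadraticChar_neg_one_iff_not_isSquare.mpr hsq] at h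
    omega

lemma medW_disc {a2 A B : ZMod ℓ} (hΔ : (medW a2 A B).Δ ≠ 0) :
    disc3 a2 A B ≠ 0 := by
  intro h
  apply hΔ
  unfold disc3 at h
  simp only [medW, WeierstrassCurve.Δ, WeierstrassCurve.b₂, WeierstrassCurve.b₄,
    WeierstrassCurve.b₆, WeierstrassCurve.b₈]
  linear_combination (16 : ZMod ℓ) * h

open Classical in
lemma card_points (hℓ2 : ℓ ≠ 2) {a2 A B : ZMod ℓ} (hΔ : (medW a2 A B).Δ ≠ 0) :
    Nat.card (medW a2 A B).toAffine.Point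
      = 1 + ∑ c : ZMod ℓ, (2 - canc a2 A B c) := by
  rw [Nat.card_congr (Affine.nonsingularPointEquiv (medW a2 A B).toAffine)]
  have e1 : {xy : ZMod ℓ × ZMod ℓ //
      (medW a2 A B).toAffine.Nonsingular xy.1 xy.2}
      ≃ Σ c : ZMod ℓ, {y : ZMod ℓ // y ^ 2 = c ^ 3 + a2 * c ^ 2 + A * c + B} :=
    (Equiv.subtypeEquivRight (fun xy => by
      rw [← Affine.equation_iff_nonsingular_of_Δ_ne_zero hΔ, Affine.equation_iff]
      simp [medW])).trans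
      (Equiv.subtypeProdEquivSigmaSubtype
        (fun (c y : ZMod ℓ) => y ^ 2 = c ^ 3 + a2 * c ^ 2 + A * c + B))
  change Nat.card (Option _) = _
  rw [Finite.card_option, Nat.card_congr e1, Nat.card_eq_fintype_card, Fintype.card_sigma,
    add_comm]
  congr 1
  exact Finset.sum_congr rfl fun c _ => card_sqrt hℓ2 a2 A B c


/-- The normalised numerator is the numerator of `Defs`. -/
lemma maninNum_one_eq (hℓ2 : ℓ ≠ 2) (a2 A B : ZMod ℓ) : maninNum a2 A B ℓ 1 = mNum a2 A B := by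
  have hhalf : (ℓ - 1) / 2 = ℓ / 2 := by
    have := two_mul_half_add_one hℓ2
    omega
  unfold maninNum mNum
  rw [hhalf, map_one]
  ring

end Manin

open Manin in
theorem manin_count (ℓ : ℕ) [Fact ℓ.Prime] (hℓ2 : ℓ ≠ 2) (a2 A B : ZMod ℓ)
    (hΔ : (medW a2 A B).Δ ≠ 0) :
    ∃ p q : (ZMod ℓ)[X], IsCoprime p q ∧ q ≠ 0 ∧
      p * maninDen (ZMod ℓ) ℓ = q * maninNum a2 A B ℓ 1 ∧
      ((hpair p q : ℕ) : ℤ) = (ℓ : ℤ) + 1 - (medW a2 A B).traceOfFrobenius := by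
  obtain ⟨p, hp, hcop, hdeg⟩ := exists_reduced hℓ2 (medW_disc hΔ)
  refine ⟨p, dPoly a2 A B, hcop, (dPoly_monic a2 A B).ne_zero, ?_, ?_⟩
  · rw [maninNum_one_eq hℓ2, hp, ← gPoly_mul_dPoly]
    ring
  · have hcard := card_points hℓ2 hΔ
    have hmax : hpair p (dPoly a2 A B) = 1 + ∑ c : ZMod ℓ, (2 - canc a2 A B c) := by
      unfold hpair
      rw [hdeg, natDegree_dPoly]
      omega
    rw [hmax, ← hcard]
    simp only [WeierstrassCurve.traceOfFrobenius, WeierstrassCurve.card, Nat.card_zmod]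
    ring

end Fermat.Agent.FrobTrace.Char3
end MergeWrap_Lib_FrobTrace_Char3_Count

section MergeWrap_Lib_FrobTrace_Char3_SubFrob -- from Lib/FrobTrace/Char3/SubFrob.lean

/-!
# FrobTrace / Char3 / SubFrob: the chord formula for `Q - φ Q` and `Q + φ Q`
(port of `F1/SubFrob.lean` (helper88) to `y² = x³ + a₂ x² + a₄ x + a₆`, `ℓ` odd; helper51)
-/

set_option autoImplicit false

open Polynomial WeierstrassCurve WeierstrassCurve.Affine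

namespace Fermat.Agent.FrobTrace.Char3

open Fermat.Agent.S52 (frobPt)
open Fermat.Agent.F1 (maninDen)

variable {ℓ : ℕ} [Fact ℓ.Prime] {a2 a4 a6 : ZMod ℓ}
variable {L : Type*} [Field L] [Algebra (ZMod ℓ) L]

/-- the curve equation over `L` -/
theorem sf_equation {x y : L} (h : ((medW a2 a4 a6)⁄L).Nonsingular x y) :
    y ^ 2 = x ^ 3 + algebraMap (ZMod ℓ) L a2 * x ^ 2 + algebraMap (ZMod ℓ) L a4 * x
      + algebraMap (ZMod ℓ) L a6 := by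
  have h1 := h.1
  rw [Affine.equation_iff] at h1
  simpa [medW] using h1

theorem sf_aeval_cubic (x : L) :
    aeval x (cubic a2 a4 a6) = x ^ 3 + algebraMap (ZMod ℓ) L a2 * x ^ 2
      + algebraMap (ZMod ℓ) L a4 * x + algebraMap (ZMod ℓ) L a6 := by
  simp [cubic]

theorem sf_aeval_maninNum (x : L) (s : ZMod ℓ) :
    aeval x (maninNum a2 a4 a6 ℓ s) =
      aeval x (cubic a2 a4 a6)
          * (1 + algebraMap (ZMod ℓ) L s * aeval x (cubic a2 a4 a6) ^ ((ℓ - 1) / 2)) ^ 2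
        - (x + x ^ ℓ + algebraMap (ZMod ℓ) L a2) * (x ^ ℓ - x) ^ 2 := by
  simp [maninNum]

theorem sf_aeval_maninDen (x : L) :
    aeval x (maninDen (ZMod ℓ) ℓ) = (x ^ ℓ - x) ^ 2 := by
  simp [maninDen]

omit [Algebra (ZMod ℓ) L] in
theorem sf_pow_half (hℓ : ℓ ≠ 2) (y : L) : y * (y ^ 2) ^ ((ℓ - 1) / 2) = y ^ ℓ := by
  have hodd : ℓ % 2 = 1 := by
    rcases (Fact.out : ℓ.Prime).eq_two_or_odd with h2 | h2
    · exact absurd h2 hℓ
    · exact h2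
  have h2 : 2 * ((ℓ - 1) / 2) + 1 = ℓ := by omega
  rw [← pow_mul, ← pow_succ', h2]

variable [DecidableEq L]

/-- Frobenius on an affine point is the coordinatewise `ℓ`-th power. -/
theorem sf_frobPt_some {x y : L} (h : ((medW a2 a4 a6)⁄L).Nonsingular x y) :
    ∃ h' : ((medW a2 a4 a6)⁄L).Nonsingular (x ^ ℓ) (y ^ ℓ),
      frobPt (medW a2 a4 a6) L (Point.some x y h) = Point.some (x ^ ℓ) (y ^ ℓ) h' := by
  have key : ∀ (x' y' : L) (_ : x' = x ^ ℓ) (_ : y' = y ^ ℓ)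
      (h' : ((medW a2 a4 a6)⁄L).Nonsingular x' y'),
      ∃ h'' : ((medW a2 a4 a6)⁄L).Nonsingular (x ^ ℓ) (y ^ ℓ),
        Point.some x' y' h' = Point.some (x ^ ℓ) (y ^ ℓ) h'' := by
    intro x' y' hx hy h'
    subst hx hy
    exact ⟨h', rfl⟩
  have hcard : Fintype.card (ZMod ℓ) = ℓ := ZMod.card ℓ
  refine key _ _ ?_ ?_ _
  · simp [hcard]
  · simp [hcard]

set_option linter.unusedSectionVars false in
theorem sf_sub_eq {x y : L} (h : ((medW a2 a4 a6)⁄L).Nonsingular x y)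
    (h' : ((medW a2 a4 a6)⁄L).Nonsingular (x ^ ℓ) (y ^ ℓ)) (hx : x ^ ℓ ≠ x) :
    Point.some x y h - Point.some (x ^ ℓ) (y ^ ℓ) h' =
      Point.some _ _ (Affine.nonsingular_add h ((Affine.nonsingular_neg ..).mpr h')
        fun hxy => hx hxy.left.symm) := by
  rw [sub_eq_add_neg, Point.neg_some, Point.add_of_X_ne (Ne.symm hx)]

theorem xRep_sub_frob (hℓ : ℓ ≠ 2) {x y : L} (h : ((medW a2 a4 a6)⁄L).Nonsingular x y)
    (hx : x ^ ℓ ≠ x) :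
    ∃ c : L, c ≠ 0 ∧
      aeval x (maninNum a2 a4 a6 ℓ 1) =
        c * (Point.some x y h - frobPt (medW a2 a4 a6) L (Point.some x y h)).xRep 0 ∧
      aeval x (maninDen (ZMod ℓ) ℓ) =
        c * (Point.some x y h - frobPt (medW a2 a4 a6) L (Point.some x y h)).xRep 1 := by
  obtain ⟨h', hf⟩ := sf_frobPt_some h
  have hne : x ^ ℓ - x ≠ 0 := sub_ne_zero.mpr hx
  have hne' : x - x ^ ℓ ≠ 0 := sub_ne_zero.mpr (Ne.symm hx)
  have hsub := sf_sub_eq h h' hx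
  rw [← hf] at hsub
  refine ⟨(x ^ ℓ - x) ^ 2, pow_ne_zero _ hne, ?_, ?_⟩
  · rw [hsub, Point.xRep_some, sf_aeval_maninNum, sf_aeval_cubic, ← sf_equation h]
    simp only [Matrix.cons_val_zero]
    rw [Affine.addX, Affine.slope_of_X_ne (Ne.symm hx)]
    have hy := sf_pow_half hℓ y
    simp only [medW, Affine.negY, WeierstrassCurve.baseChange, WeierstrassCurve.map_a₁,
      WeierstrassCurve.map_a₂, WeierstrassCurve.map_a₃, map_zero, map_one]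
    field_simp
    rw [← hy]
    ring
  · rw [hsub, Point.xRep_some, sf_aeval_maninDen]
    simp

theorem xRep_add_frob (hℓ : ℓ ≠ 2) {x y : L} (h : ((medW a2 a4 a6)⁄L).Nonsingular x y)
    (hx : x ^ ℓ ≠ x) :
    ∃ c : L, c ≠ 0 ∧
      aeval x (maninNum a2 a4 a6 ℓ (-1)) =
        c * (Point.some x y h + frobPt (medW a2 a4 a6) L (Point.some x y h)).xRep 0 ∧
      aeval x (maninDen (ZMod ℓ) ℓ) =
        c * (Point.some x y h + frobPt (medW a2 a4 a6) L (Point.some x y h)).xRep 1 := by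
  obtain ⟨h', hf⟩ := sf_frobPt_some h
  have hne : x ^ ℓ - x ≠ 0 := sub_ne_zero.mpr hx
  have hne' : x - x ^ ℓ ≠ 0 := sub_ne_zero.mpr (Ne.symm hx)
  have hadd : Point.some x y h + frobPt (medW a2 a4 a6) L (Point.some x y h) = _ :=
    hf ▸ Point.add_of_X_ne (h₁ := h) (h₂ := h') (Ne.symm hx)
  refine ⟨(x ^ ℓ - x) ^ 2, pow_ne_zero _ hne, ?_, ?_⟩
  · rw [hadd, Point.xRep_some, sf_aeval_maninNum, sf_aeval_cubic, ← sf_equation h]
    simp only [Matrix.cons_val_zero]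
    rw [Affine.addX, Affine.slope_of_X_ne (Ne.symm hx)]
    have hy := sf_pow_half hℓ y
    simp only [medW, WeierstrassCurve.baseChange, WeierstrassCurve.map_a₁,
      WeierstrassCurve.map_a₂, map_zero, map_one, map_neg]
    field_simp
    rw [← hy]
    ring
  · rw [hadd, Point.xRep_some, sf_aeval_maninDen]
    simp

end Fermat.Agent.FrobTrace.Char3
end MergeWrap_Lib_FrobTrace_Char3_SubFrob

section MergeWrap_Lib_FrobTrace_Char3_Mult -- from Lib/FrobTrace/Char3/Mult.lean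

/-!
# FrobTrace / Char3 / Mult: `ht (Q - φ Q) = #E(F_ℓ) · ht Q` on odd-rational points
(port of `F1/Mult.lean` (helper4) to `y² = x³ + a₂ x² + a₄ x + a₆`, `ℓ` odd; helper51)

For an affine point `Q = (x, y)` with `x^ℓ ≠ x` the chord formula gives
`x(Q - φQ) = maninNum(x) / maninDen(x)`; with the reduced Manin pair `(p, q)` (`Count.lean`) and a
representative `x = a(ξ)/b(ξ)` this is `hom2 n p a b (ξ) / hom2 n q a b (ξ)` (`Compose.lean`).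
-/

set_option autoImplicit false

open Polynomial WeierstrassCurve WeierstrassCurve.Affine IntermediateField

namespace Fermat.Agent.FrobTrace.Char3

open Fermat.Agent.S52 (frobPt)
open Fermat.Agent.F1 (XRat ht ht_eq hpair xRat_zero ht_zero ht_parallelogram hom2 hom2_eval
  isCoprime_hom2 hpair_hom2 maninDen hpair_eq_zero_of_pow_mul)



variable {ℓ : ℕ} [Fact ℓ.Prime] {a2 a4 a6 : ZMod ℓ}
variable (k : Type*) [Field k] [Algebra (ZMod ℓ) k]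
variable {L : Type*} [Field L] [Algebra (ZMod ℓ) L] [Algebra k L] [IsScalarTower (ZMod ℓ) k L]
variable [DecidableEq L] {ξ η : L} (hns : ((medW a2 a4 a6)⁄L).Nonsingular ξ η)

omit [DecidableEq L] in
/-- if the x-coordinate is fixed by Frobenius, the height is `0` -/
theorem ht_eq_zero_of_pow_eq (htr : Transcendental k ξ) {x y : L}
    (h : ((medW a2 a4 a6)⁄L).Nonsingular x y) {a b : k[X]} (hQ : XRat ξ (Point.some x y h) a b)
    (hx : x ^ ℓ = x) : ht k ξ (Point.some x y h) = 0 := by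
  rw [ht_eq htr hQ]
  obtain ⟨hab, c, hc, ha, hb⟩ := hQ
  simp only [Point.xRep_some, Matrix.cons_val_zero, Matrix.cons_val_one, mul_one] at ha hb
  have hb0 : b ≠ 0 := by
    rintro rfl
    rw [map_zero] at hb
    exact hc hb.symm
  apply hpair_eq_zero_of_pow_mul hab hb0 (n := ℓ) (Fact.out : ℓ.Prime).two_le
  apply (transcendental_iff_injective.mp htr)
  simp only [map_mul, map_pow, ha, hb]
  rw [mul_pow, hx]
  ring

theorem ht_sub_frob (hℓ : ℓ ≠ 2) (hΔ : (medW a2 a4 a6).Δ ≠ 0) (htr : Transcendental k ξ)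
    {Q : ((medW a2 a4 a6)⁄L).Point} (hQ : Q ∈ oddRat k hns) :
    (ht k ξ (Q - frobPt (medW a2 a4 a6) L Q) : ℤ)
      = ((ℓ : ℤ) + 1 - (medW a2 a4 a6).traceOfFrobenius) * ht k ξ Q := by
  haveI : (medW a2 a4 a6).IsElliptic := ⟨isUnit_iff_ne_zero.mpr hΔ⟩
  have hW : ((medW a2 a4 a6).map (algebraMap (ZMod ℓ) k)).map (algebraMap k L) = (medW a2 a4 a6)⁄L := by
    rw [WeierstrassCurve.map_map, ← IsScalarTower.algebraMap_eq]
    rfl
  have hφQ := frob_mem_oddRat k hns hℓ hQ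
  obtain ⟨a, b, hab⟩ := exists_xRat_of_mem k hns hQ
  -- degenerate case, via the parallelogram law
  have hdeg : ht k ξ Q = 0 → (ht k ξ (Q - frobPt (medW a2 a4 a6) L Q) : ℤ)
      = ((ℓ : ℤ) + 1 - (medW a2 a4 a6).traceOfFrobenius) * ht k ξ Q := by
    intro h0
    have hp := ht_parallelogram ((medW a2 a4 a6).map (algebraMap (ZMod ℓ) k)) hW htr Q
      (frobPt (medW a2 a4 a6) L Q) ⟨a, b, hab⟩ (exists_xRat_of_mem k hns hφQ)
      (exists_xRat_of_mem k hns ((oddRat k hns).add_mem hQ hφQ))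
      (exists_xRat_of_mem k hns ((oddRat k hns).sub_mem hQ hφQ))
    rw [ht_frob k htr ⟨a, b, hab⟩, h0] at hp
    have : ht k ξ (Q - frobPt (medW a2 a4 a6) L Q) = 0 := by omega
    rw [this, h0]
    simp
  match Q, hQ, hφQ, hab, hdeg with
  | .zero, _, _, _, hdeg => exact hdeg (ht_zero htr)
  | .some x y h, hQ, hφQ, hab, hdeg =>
    by_cases hx : x ^ ℓ = x
    · exact hdeg (ht_eq_zero_of_pow_eq k htr h hab hx)
    · obtain ⟨p, q, hpq, hq0, hid, hcount⟩ := manin_count ℓ hℓ a2 a4 a6 hΔ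
      obtain ⟨c₁, hc₁, hN, hD⟩ := xRep_sub_frob hℓ h hx
      set R := Point.some x y h - frobPt (medW a2 a4 a6) L (Point.some x y h) with hR
      -- the pair over `k`
      set pk := p.map (algebraMap (ZMod ℓ) k) with hpk
      set qk := q.map (algebraMap (ZMod ℓ) k) with hqk
      have hcop : IsCoprime pk qk := hpq.map (Polynomial.mapRingHom (algebraMap (ZMod ℓ) k))
      have hdp : pk.natDegree = p.natDegree :=
        natDegree_map_eq_of_injective (algebraMap (ZMod ℓ) k).injective p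
      have hdq : qk.natDegree = q.natDegree :=
        natDegree_map_eq_of_injective (algebraMap (ZMod ℓ) k).injective q
      have hh : hpair pk qk = hpair p q := by simp only [hpair, hdp, hdq]
      have hpx : aeval x pk = aeval x p := by
        rw [hpk, aeval_map_algebraMap]
      have hqx : aeval x qk = aeval x q := by
        rw [hqk, aeval_map_algebraMap]
      -- `[p(x) : q(x)]` is proportional to `R.xRep`
      have hid' : aeval x p * aeval x (maninDen (ZMod ℓ) ℓ) = aeval x q * aeval x (maninNum a2 a4 a6 ℓ 1) := by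
        rw [← map_mul, ← map_mul, hid]
      rw [hN, hD] at hid'
      have hcross : aeval x p * R.xRep 1 = aeval x q * R.xRep 0 := by
        apply mul_left_cancel₀ hc₁
        linear_combination hid'
      have hne : ¬ (aeval x p = 0 ∧ aeval x q = 0) := by
        rintro ⟨h1, h2⟩
        obtain ⟨u, v, huv⟩ := hpq
        have := congrArg (aeval x) huv
        simp [h1, h2] at this
      have hprop : ∃ c₂ : L, c₂ ≠ 0 ∧ aeval x p = c₂ * R.xRep 0 ∧ aeval x q = c₂ * R.xRep 1 := by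
        rcases hRR : R with _ | ⟨x₃, y₃, h₃⟩
        · rw [hRR] at hcross
          simp only [← Point.zero_def, Point.xRep_zero, Matrix.cons_val_zero, Matrix.cons_val_one,
            mul_zero, mul_one] at hcross ⊢
          refine ⟨aeval x p, ?_, rfl, hcross.symm⟩
          intro h1
          exact hne ⟨h1, hcross.symm⟩
        · rw [hRR] at hcross
          simp only [Point.xRep_some, Matrix.cons_val_zero, Matrix.cons_val_one, mul_one]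
            at hcross ⊢
          refine ⟨aeval x q, ?_, hcross, rfl⟩
          intro h2
          exact hne ⟨by rw [hcross, h2, zero_mul], h2⟩
      obtain ⟨c₂, hc₂, hp2, hq2⟩ := hprop
      -- representation of `x`
      obtain ⟨hab1, c, hc, ha, hb⟩ := hab
      simp only [Point.xRep_some, Matrix.cons_val_zero, Matrix.cons_val_one, mul_one] at ha hb
      have hbξ : aeval ξ b ≠ 0 := by rw [hb]; exact hc
      have hxab : aeval ξ a / aeval ξ b = x := by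
        rw [ha, hb]
        field_simp
      have hRrep : XRat ξ R (hom2 (hpair pk qk) pk a b) (hom2 (hpair pk qk) qk a b) := by
        refine ⟨isCoprime_hom2 pk qk a b hcop hab1, aeval ξ b ^ hpair pk qk * c₂,
          mul_ne_zero (pow_ne_zero _ hbξ) hc₂, ?_, ?_⟩
        · rw [hom2_eval (hpair pk qk) pk a b (le_max_left _ _) ξ hbξ, hxab, hpx, hp2]
          ring
        · rw [hom2_eval (hpair pk qk) qk a b (le_max_right _ _) ξ hbξ, hxab, hqx, hq2]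
          ring
      rw [ht_eq htr hRrep, ht_eq htr ⟨hab1, c, hc, by simpa using ha, by simpa using hb⟩,
        hpair_hom2 pk qk a b hcop hab1, hh, ← hcount]
      push_cast
      ring

end Fermat.Agent.FrobTrace.Char3
end MergeWrap_Lib_FrobTrace_Char3_Mult

section MergeWrap_Lib_FrobTrace_Char3_Transfer -- from Lib/FrobTrace/Char3/Transfer.lean

/-!
# FrobTrace / Char3 / Transfer: from the generic identity to every point of `E(k)`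
(port of `F1/Transfer.lean`, `F1/TransferAux.lean` (helper96) to `y² = x³ + a₂ x² + a₄ x + a₆`,
`ℓ` odd; helper51)
-/

set_option autoImplicit false

open Polynomial WeierstrassCurve WeierstrassCurve.Affine

namespace Fermat.Agent.FrobTrace.Char3

open Fermat.Agent.S52 (frobPt)
open Fermat.Agent.F1 (charPt transfer_charPt_add transfer_charPt_two_nsmul transfer_charPt_map
  transfer_exists_generic transfer_translate)

/-- the discriminant identity, over any commutative ring -/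
theorem disc_identity {R : Type*} [CommRing R] (a2 a4 a6 c : R) :
    a2 ^ 2 * a4 ^ 2 - 4 * a4 ^ 3 - 4 * a2 ^ 3 * a6 + 18 * a2 * a4 * a6 - 27 * a6 ^ 2
      = (15 * a2 * a4 + (-6) * a2 ^ 2 * c + (-4) * a2 ^ 3 + 18 * a4 * c + (-27) * a6)
          * (c ^ 3 + a2 * c ^ 2 + a4 * c + a6)
        + ((-7) * a2 * a4 * c + 3 * a2 * a6 + a2 ^ 2 * a4 + 2 * a2 ^ 2 * c ^ 2 + 2 * a2 ^ 3 * c
            + (-6) * a4 * c ^ 2 + (-4) * a4 ^ 2 + 9 * a6 * c) * (3 * c ^ 2 + 2 * a2 * c + a4) := by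
  ring

section TwoDiv

variable {k : Type*} [Field k] [IsAlgClosed k] [DecidableEq k]

/-- `2`-divisibility of `E(k)` for a curve `y² = cubic` over an algebraically closed field of
characteristic `≠ 2`. -/
theorem exists_two_nsmul (W : Affine k) (h1 : W.a₁ = 0) (h3 : W.a₃ = 0)
    (hΔ : W.Δ ≠ 0) (h2k : (2 : k) ≠ 0) (P : W.Point) : ∃ Q : W.Point, 2 • Q = P := by
  rcases P with _ | ⟨x₀, y₀, hP⟩
  · exact ⟨0, by rw [smul_zero]; rfl⟩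
  set A2 := W.a₂ with hA2
  set A := W.a₄ with hA
  set B := W.a₆ with hB
  have hΔ' : 16 * (A2 ^ 2 * A ^ 2 - 4 * A ^ 3 - 4 * A2 ^ 3 * B + 18 * A2 * A * B - 27 * B ^ 2)
      ≠ 0 := by
    have : W.Δ = 16 * (A2 ^ 2 * A ^ 2 - 4 * A ^ 3 - 4 * A2 ^ 3 * B + 18 * A2 * A * B
        - 27 * B ^ 2) := by
      simp only [WeierstrassCurve.Δ, WeierstrassCurve.b₂, WeierstrassCurve.b₄,
        WeierstrassCurve.b₆, WeierstrassCurve.b₈, h1, h3, hA2, hA, hB]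
      ring
    rwa [this] at hΔ
  let p : k[X] := X ^ 4 + (C (-(4 * x₀)) * X ^ 3 + C (-(2 * A) - 4 * x₀ * A2) * X ^ 2
    + C (-(8 * B) - 4 * x₀ * A) * X + C (A ^ 2 - 4 * A2 * B - 4 * x₀ * B))
  have hpdeg : p.degree = 4 := by
    have hlt : (C (-(4 * x₀)) * X ^ 3 + C (-(2 * A) - 4 * x₀ * A2) * X ^ 2
        + C (-(8 * B) - 4 * x₀ * A) * X + C (A ^ 2 - 4 * A2 * B - 4 * x₀ * B) : k[X]).degree
        < 4 := (degree_cubic_le).trans_lt (by norm_num)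
    simp only [p]
    rw [degree_add_eq_left_of_degree_lt (by rwa [degree_X_pow])]
    exact degree_X_pow 4
  obtain ⟨x, hx⟩ := IsAlgClosed.exists_root p (by rw [hpdeg]; norm_num)
  have hx' : x ^ 4 - 2 * A * x ^ 2 - 8 * B * x + A ^ 2 - 4 * A2 * B
      - 4 * x₀ * (x ^ 3 + A2 * x ^ 2 + A * x + B) = 0 := by
    have : eval x p = 0 := hx
    simp only [p, eval_add, eval_mul, eval_pow, eval_X, eval_C] at this
    linear_combination this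
  obtain ⟨y, hy⟩ := IsAlgClosed.exists_pow_nat_eq (x ^ 3 + A2 * x ^ 2 + A * x + B) (n := 2)
    (by norm_num)
  -- `f x ≠ 0`
  have hfx : x ^ 3 + A2 * x ^ 2 + A * x + B ≠ 0 := by
    intro h0
    have h4 : (3 * x ^ 2 + 2 * A2 * x + A) ^ 2 = 0 := by
      linear_combination hx' + (8 * x + 4 * A2 + 4 * x₀) * h0
    have h5 : 3 * x ^ 2 + 2 * A2 * x + A = 0 := by simpa using h4
    apply hΔ'
    rw [disc_identity A2 A B x, h0, h5]
    ring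
  have hy0 : y ≠ 0 := by
    rintro rfl
    apply hfx
    rw [← hy]; ring
  have hEq : W.Equation x y := by
    rw [Affine.equation_iff, h1, h3]
    linear_combination hy
  have hNs : W.Nonsingular x y := (W.equation_iff_nonsingular_of_Δ_ne_zero hΔ).mp hEq
  have hneg : W.negY x y = -y := by simp [Affine.negY, h1, h3]
  have hyne : y ≠ W.negY x y := by
    rw [hneg]
    intro h
    apply hy0
    have : (2 : k) * y = 0 := by linear_combination h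
    rcases mul_eq_zero.mp this with h' | h'
    · exact absurd h' h2k
    · exact h'
  have h2y : (2 : k) * y ≠ 0 := mul_ne_zero h2k hy0
  -- x-coordinate of `2 • Q`
  have hdbl : (2 : ℕ) • (Point.some x y hNs) = Point.some _ _
      (Affine.nonsingular_add hNs hNs (fun hh => hyne hh.2)) := by
    rw [two_nsmul, Point.add_self_of_Y_ne hyne]
  have hslope : W.slope x x y y = (3 * x ^ 2 + 2 * A2 * x + A) / (2 * y) := by
    rw [Affine.slope_of_Y_ne rfl hyne, hneg, h1]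
    congr 1
    · ring
    · ring
  have hX : W.addX x x (W.slope x x y y) = x₀ := by
    rw [hslope, Affine.addX, h1]
    field_simp
    have hy2 : y ^ 2 = x ^ 3 + A2 * x ^ 2 + A * x + B := hy
    linear_combination hx' + (-(8 * x) - 4 * A2 - 4 * x₀) * hy2
  -- conclude `2 • Q = ± P`
  have key := (Point.X_eq_iff (W := W) (h₁ := Affine.nonsingular_add hNs hNs
    (fun hh => hyne hh.2)) (h₂ := hP)).mp hX
  rcases key with h | h
  · exact ⟨Point.some x y hNs, by rw [hdbl, h]⟩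
  · refine ⟨-Point.some x y hNs, ?_⟩
    rw [smul_neg, hdbl, h, neg_neg]

end TwoDiv

/-- the generic identity, as a hypothesis -/
def GenericIdentity {ℓ : ℕ} [Fact ℓ.Prime] (a2 a4 a6 : ZMod ℓ) (a : ℤ)
    (k : Type) [Field k] [Algebra (ZMod ℓ) k] : Prop :=
  ∀ (L : Type) [Field L] [Algebra (ZMod ℓ) L] [Algebra k L] [IsScalarTower (ZMod ℓ) k L]
    [DecidableEq L] (ξ η : L) (hns : ((medW a2 a4 a6)⁄L).Nonsingular ξ η),
    Transcendental k ξ → 2 • charPt (medW a2 a4 a6) a L (Point.some ξ η hns) = 0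

theorem transfer {ℓ : ℕ} [Fact ℓ.Prime] (hℓ : ℓ ≠ 2) (a2 a4 a6 : ZMod ℓ)
    (hΔ : (medW a2 a4 a6).Δ ≠ 0)
    (a : ℤ) (k : Type) [Field k] [Algebra (ZMod ℓ) k] [IsAlgClosed k] [DecidableEq k]
    (hgen : GenericIdentity a2 a4 a6 a k) (P : ((medW a2 a4 a6)⁄k).Point) :
    charPt (medW a2 a4 a6) a k P = 0 := by
  classical
  -- Step 1: `2 • charPt R = 0` for every `R ∈ E(k)` (translation of a generic point)
  have h2 : ∀ R : ((medW a2 a4 a6)⁄k).Point, 2 • charPt (medW a2 a4 a6) a k R = 0 := by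
    intro R
    obtain ⟨ξ, η, hns, hξ⟩ := transfer_exists_generic (medW a2 a4 a6) hΔ k
    obtain ⟨ξ', η', hns', hξ', hsum⟩ := transfer_translate (medW a2 a4 a6) hns hξ R
    have e1 := hgen (AlgebraicClosure (RatFunc k)) ξ η hns hξ
    have e2 := hgen (AlgebraicClosure (RatFunc k)) ξ' η' hns' hξ'
    rw [← hsum, transfer_charPt_add, smul_add, e1, zero_add, transfer_charPt_map, ← map_nsmul]
      at e2
    exact Affine.Point.map_injective _ (e2.trans (map_zero _).symm)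
  -- Step 2: `E(k)` is `2`-divisible
  have h2k : (2 : k) ≠ 0 := by
    have h2' : (2 : ZMod ℓ) ≠ 0 := by
      intro h
      have : ((2 : ℕ) : ZMod ℓ) = 0 := by exact_mod_cast h
      rw [ZMod.natCast_eq_zero_iff] at this
      exact hℓ ((Nat.prime_dvd_prime_iff_eq (Fact.out : ℓ.Prime) Nat.prime_two).mp this)
    have : (2 : k) = algebraMap (ZMod ℓ) k 2 := (map_ofNat (algebraMap (ZMod ℓ) k) 2).symm
    rw [this]
    exact (map_ne_zero_iff _ (FaithfulSMul.algebraMap_injective (ZMod ℓ) k)).mpr h2'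
  have hΔk : ((medW a2 a4 a6)⁄k).Δ ≠ 0 := by
    have : ((medW a2 a4 a6)⁄k).Δ = algebraMap (ZMod ℓ) k (medW a2 a4 a6).Δ :=
      WeierstrassCurve.map_Δ (medW a2 a4 a6) (algebraMap (ZMod ℓ) k)
    rw [this]
    exact (map_ne_zero_iff _ (FaithfulSMul.algebraMap_injective (ZMod ℓ) k)).mpr hΔ
  obtain ⟨Q, hQ⟩ := exists_two_nsmul ((medW a2 a4 a6)⁄k)
    (by simp [medW, WeierstrassCurve.Affine.baseChange])
    (by simp [medW, WeierstrassCurve.Affine.baseChange]) hΔk h2k P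
  rw [← hQ, transfer_charPt_two_nsmul]
  exact h2 Q

end Fermat.Agent.FrobTrace.Char3
end MergeWrap_Lib_FrobTrace_Char3_Transfer

section MergeWrap_Lib_FrobTrace_Char3_Final -- from Lib/FrobTrace/Char3/Final.lean

/-!
# FrobTrace / Char3 / Final: `φ² - a φ + ℓ = 0` on `y² = x³ + a₂ x² + a₄ x + a₆` over `F_ℓ`, `ℓ ≠ 2`
(port of `F1/Final.lean` (helper4); helper51)
-/

set_option autoImplicit false

open Polynomial WeierstrassCurve WeierstrassCurve.Affine IntermediateField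

namespace Fermat.Agent.FrobTrace.Char3

open Fermat.Agent.S52 (frobPt)
open Fermat.Agent.F1 (ht ht_parallelogram charPt)

variable {ℓ : ℕ} [Fact ℓ.Prime] {a2 a4 a6 : ZMod ℓ}

theorem generic_identity (hℓ : ℓ ≠ 2) (hΔ : (medW a2 a4 a6).Δ ≠ 0)
    (k : Type) [Field k] [Algebra (ZMod ℓ) k] :
    GenericIdentity a2 a4 a6 (medW a2 a4 a6).traceOfFrobenius k := by
  intro L _ _ _ _ _ ξ η hns htr
  haveI : (medW a2 a4 a6).IsElliptic := ⟨isUnit_iff_ne_zero.mpr hΔ⟩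
  have hW : ((medW a2 a4 a6).map (algebraMap (ZMod ℓ) k)).map (algebraMap k L) = (medW a2 a4 a6)⁄L := by
    rw [WeierstrassCurve.map_map, ← IsScalarTower.algebraMap_eq]
    rfl
  -- the height on the group of odd-rational points
  let d : oddRat k hns → ℤ := fun Q => (ht k ξ (Q : ((medW a2 a4 a6)⁄L).Point) : ℤ)
  have hpar : Fermat.Agent.F1Quad.Parallelogram d := by
    intro x y
    have h := ht_parallelogram ((medW a2 a4 a6).map (algebraMap (ZMod ℓ) k)) hW htr x.1 y.1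
      (exists_xRat_of_mem k hns x.2) (exists_xRat_of_mem k hns y.2)
      (exists_xRat_of_mem k hns (x + y).2) (exists_xRat_of_mem k hns (x - y).2)
    simp only [d, AddSubgroup.coe_add, AddSubgroup.coe_sub]
    exact_mod_cast h
  -- Frobenius on the group
  let φ : oddRat k hns →+ oddRat k hns :=
    ((frobPt (medW a2 a4 a6) L).comp (oddRat k hns).subtype).codRestrict (oddRat k hns)
      (fun Q => frob_mem_oddRat k hns hℓ Q.2)
  have hφ : ∀ x, d (φ x) = ℓ * d x := by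
    intro x
    have h := ht_frob k htr (exists_xRat_of_mem k hns x.2)
    simp only [d]
    exact_mod_cast h
  have hφc : ∀ x : oddRat k hns, ((φ x : oddRat k hns) : ((medW a2 a4 a6)⁄L).Point)
      = frobPt (medW a2 a4 a6) L x := fun x => rfl
  let e : oddRat k hns := ⟨Point.some ξ η hns, gen_mem_oddRat k hns⟩
  have he : d e = 1 := by
    simp only [d, e]
    exact_mod_cast ht_gen k hns htr
  have hsubfrob : ∀ x : oddRat k hns, d (x - φ x) = ((ℓ : ℤ) + 1 - (medW a2 a4 a6).traceOfFrobenius) * d x := by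
    intro x
    have h := ht_sub_frob k hns hℓ hΔ htr x.2
    simp only [d, AddSubgroup.coe_sub, hφc]
    exact h
  have hf : d (φ e) = ℓ := by rw [hφ, he, mul_one]
  have hg : d (φ (φ e)) = (ℓ : ℤ) ^ 2 := by rw [hφ, hf]; ring
  have hgf : d (φ (φ e) + φ e) = ℓ * d (φ e + e) := by rw [← map_add, hφ]
  have hN : d (φ e - e) = (ℓ : ℤ) + 1 - (medW a2 a4 a6).traceOfFrobenius := by
    rw [hpar.map_sub_comm, hsubfrob, he, mul_one]
  have hge : d (φ (φ e) - e) = d (φ e - e) * d (φ e + e) := by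
    rw [hN, hpar.map_sub_comm]
    have h := hsubfrob (φ e + e)
    have e1 : φ e + e - φ (φ e + e) = e - φ (φ e) := by
      rw [map_add]; abel
    rw [e1] at h
    exact h
  have hend := hpar.endgame e (φ e) (φ (φ e)) (ℓ : ℤ) _ he hf hg hgf hge hN
  have e2 : (ℓ : ℤ) + 1 - ((ℓ : ℤ) + 1 - (medW a2 a4 a6).traceOfFrobenius)
      = (medW a2 a4 a6).traceOfFrobenius := by ring
  rw [e2] at hend
  have h0 : ht k ξ ((φ (φ e) - (medW a2 a4 a6).traceOfFrobenius • φ e + (ℓ : ℤ) • e : oddRat k hns) :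
      ((medW a2 a4 a6)⁄L).Point) = 0 := by
    simp only [d] at hend
    exact_mod_cast hend
  have h2 := two_nsmul_eq_zero_of_ht_eq_zero k hns htr
    (φ (φ e) - (medW a2 a4 a6).traceOfFrobenius • φ e + (ℓ : ℤ) • e : oddRat k hns).2 h0
  simpa [charPt, e, hφc] using h2

/-- **Cayley–Hamilton for Frobenius** on `y² = x³ + a₂ x² + a₄ x + a₆` over `F_ℓ`, `ℓ` odd. -/
theorem frobCharEq_medW (ℓ : ℕ) [Fact ℓ.Prime] (hℓ : ℓ ≠ 2) (a2 a4 a6 : ZMod ℓ)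
    (hΔ : (medW a2 a4 a6).Δ ≠ 0)
    (k : Type) [Field k] [Algebra (ZMod ℓ) k] [IsAlgClosed k] [DecidableEq k]
    (P : ((medW a2 a4 a6)⁄k).Point) :
    frobPt (medW a2 a4 a6) k (frobPt (medW a2 a4 a6) k P)
      - (medW a2 a4 a6).traceOfFrobenius • frobPt (medW a2 a4 a6) k P + (ℓ : ℤ) • P = 0 :=
  transfer hℓ a2 a4 a6 hΔ _ k (generic_identity hℓ hΔ k) P

end Fermat.Agent.FrobTrace.Char3
end MergeWrap_Lib_FrobTrace_Char3_Final

section MergeWrap_Lib_FrobTrace_Char3_CharEqOdd -- from Lib/FrobTrace/Char3/CharEqOdd.lean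

/-!
# FrobTrace / Char3 / CharEqOdd: `φ² - a φ + ℓ = 0` for a general Weierstrass equation over `F_ℓ`,
every odd prime `ℓ` (in particular `ℓ = 3`)
(helper51)
-/

set_option autoImplicit false

open WeierstrassCurve WeierstrassCurve.Affine

namespace Fermat.Agent.FrobTrace.Char3

open Fermat.Agent.S52 (frobPt)

/-- Cayley–Hamilton for Frobenius on the points of an arbitrary (smooth) Weierstrass equation over
`F_ℓ`, `ℓ` an odd prime. -/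
theorem frobCharEq_gen_odd {ℓ : ℕ} [Fact ℓ.Prime] (hℓ : ℓ ≠ 2) (W : WeierstrassCurve (ZMod ℓ))
    (hΔ : W.Δ ≠ 0) (k : Type) [Field k] [Algebra (ZMod ℓ) k] [IsAlgClosed k] [DecidableEq k]
    (P : (W⁄k).Point) :
    frobPt W k (frobPt W k P) - W.traceOfFrobenius • frobPt W k P + (ℓ : ℤ) • P = 0 := by
  have h2 := two_ne_zero_of_odd_prime hℓ
  obtain ⟨h, hinj, hfrob⟩ := exists_medHom hℓ W k
  apply hinj
  have htr : W.traceOfFrobenius = (medW W.b₂ (8 * W.b₄) (16 * W.b₆)).traceOfFrobenius :=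
    traceOfFrobenius_eq_medModel W h2
  rw [map_zero, map_add, map_sub, map_zsmul, map_zsmul, hfrob, hfrob, htr]
  exact frobCharEq_medW ℓ hℓ _ _ _ (medW_Δ_ne_zero hℓ W hΔ) k (h P)

/-- the case `ℓ = 3` -/
theorem frobCharEq_three (W : WeierstrassCurve (ZMod 3))
    (hΔ : W.Δ ≠ 0) (k : Type) [Field k] [Algebra (ZMod 3) k] [IsAlgClosed k] [DecidableEq k]
    (P : (W⁄k).Point) :
    frobPt W k (frobPt W k P) - W.traceOfFrobenius • frobPt W k P + ((3 : ℕ) : ℤ) • P = 0 :=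
  frobCharEq_gen_odd (by norm_num) W hΔ k P

end Fermat.Agent.FrobTrace.Char3
end MergeWrap_Lib_FrobTrace_Char3_CharEqOdd

section MergeWrap_Lib_FrobTrace_CharEqAll -- from Lib/FrobTrace/CharEqAll.lean

/-!
# FrobTrace / CharEqAll: `φ² - a φ + ℓ = 0` for a general Weierstrass equation over `F_ℓ`,
EVERY prime `ℓ` (including `ℓ = 2` and `ℓ = 3`)
(helper51)
-/

set_option autoImplicit false

open WeierstrassCurve WeierstrassCurve.Affine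

namespace Fermat.Agent.FrobTrace

open Fermat.Agent.S52 (frobPt)

/-- **Cayley–Hamilton for Frobenius** on the points of an arbitrary smooth Weierstrass equation
over `F_ℓ`, for every prime `ℓ`. -/
theorem frobCharEq_all {ℓ : ℕ} [Fact ℓ.Prime] (W : WeierstrassCurve (ZMod ℓ))
    (hΔ : W.Δ ≠ 0) (k : Type) [Field k] [Algebra (ZMod ℓ) k] [IsAlgClosed k] [DecidableEq k]
    (P : (W⁄k).Point) :
    frobPt W k (frobPt W k P) - W.traceOfFrobenius • frobPt W k P + (ℓ : ℤ) • P = 0 := by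
  by_cases hℓ : ℓ = 2
  · subst hℓ
    exact Char2.frobCharEq_two W hΔ k P
  · exact Char3.frobCharEq_gen_odd hℓ W hΔ k P

end Fermat.Agent.FrobTrace
end MergeWrap_Lib_FrobTrace_CharEqAll

section MergeWrap_Lib_FrobTrace_MainAll -- from Lib/FrobTrace/MainAll.lean

/-!
# FrobTrace / MainAll: trace and determinant of Frobenius on `E[p^j](Q̄)` at EVERY good prime
(helper51)

`W / ℤ`, `ℓ` ANY good prime (`ℓ = 2, 3` included), `p ≠ ℓ` prime, `τ` a Frobenius element at a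
valuation subring `A | ℓ` of `Q̄`: on `E[p^j](Q̄)`, `tr τ = a_ℓ(W)` and `det τ = ℓ` in `ZMod (p^j)`.

Proof: `det τ = χ_{p^j}(τ) = ℓ` (`galois_det_eq_modChar`, helper96, global argument from the primes
`≥ 5`), `τ² - a_ℓ τ + ℓ = 0` on `E[p^j]` (`frobCharEq_all` through the reduction map), and
Cayley–Hamilton on the free rank-2 module `E[p^j]`: `(tr τ - a_ℓ) τ = 0`, `τ` invertible.
-/

set_option autoImplicit false
set_option linter.style.haveILetI false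

open WeierstrassCurve WeierstrassCurve.Affine WeierstrassCurve.Affine.Point

namespace Fermat.Agent.FrobTrace

open Fermat.Agent.S52 (frobPt)
open Fermat.Agent.Cyclo (Qb GQ modChar)

section LinAlg

/-- Cayley–Hamilton for `2 × 2` matrices over a commutative ring -/
theorem matrix_two_cayley_hamilton {R : Type*} [CommRing R] (M : Matrix (Fin 2) (Fin 2) R) :
    M * M - M.trace • M + M.det • (1 : Matrix (Fin 2) (Fin 2) R) = 0 := by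
  ext i j
  fin_cases i <;> fin_cases j <;>
    simp [Matrix.mul_apply, Fin.sum_univ_two, Matrix.trace_fin_two, Matrix.det_fin_two] <;> ring

/-- a quadratic relation with the right (invertible) constant term determines the trace -/
theorem matrix_trace_eq_of_quadratic_of_det {R : Type*} [CommRing R]
    (M : Matrix (Fin 2) (Fin 2) R) (a b : R)
    (hrel : M * M - a • M + b • (1 : Matrix (Fin 2) (Fin 2) R) = 0) (hdet : M.det = b)
    (hb : IsUnit b) : M.trace = a := by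
  have hCH := matrix_two_cayley_hamilton M
  rw [hdet] at hCH
  have hdiff : (a - M.trace) • M = 0 := by
    have h2 : (a - M.trace) • M
        = (M * M - M.trace • M + b • (1 : Matrix (Fin 2) (Fin 2) R))
          - (M * M - a • M + b • (1 : Matrix (Fin 2) (Fin 2) R)) := by
      simp only [sub_smul]
      abel
    rw [h2, hCH, hrel, sub_zero]
  have hent : ∀ i j, (a - M.trace) * M i j = 0 := by
    intro i j
    have := congrFun (congrFun hdiff i) j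
    simpa using this
  have hd : (a - M.trace) * b = 0 := by
    rw [← hdet, Matrix.det_fin_two]
    have h00 := hent 0 0
    have h01 := hent 0 1
    linear_combination (M 1 1) * h00 - (M 1 0) * h01
  have : a - M.trace = 0 := by
    obtain ⟨u, rfl⟩ := hb
    have := congrArg (fun z => z * (↑u⁻¹ : R)) hd
    simpa [mul_assoc] using this
  exact (sub_eq_zero.mp this).symm

/-- endomorphism form -/
theorem end_trace_eq_of_quadratic_of_det {R V : Type*} [CommRing R] [AddCommGroup V]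
    [Module R V] (bs : Module.Basis (Fin 2) R V) (f : Module.End R V) (a b : R)
    (hrel : f * f - a • f + b • (1 : Module.End R V) = 0) (hdet : LinearMap.det f = b)
    (hb : IsUnit b) : LinearMap.trace R V f = a := by
  rw [LinearMap.trace_eq_matrix_trace R bs f]
  apply matrix_trace_eq_of_quadratic_of_det _ a b _ _ hb
  · have h := congrArg (LinearMap.toMatrix bs bs) hrel
    simpa [LinearMap.toMatrix_mul, Module.End.mul_eq_comp, LinearMap.toMatrix_comp bs bs bs]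
      using h
  · rw [LinearMap.det_toMatrix]
    exact hdet

end LinAlg

section Basis

variable {G : Type*} [AddCommGroup G]

/-- `G[p^j]` is free of rank 2 over `ZMod (p^j)` -/
theorem exists_basis_torsionBy (p : ℕ) [Fact p.Prime]
    (hcard : Nat.card (Submodule.torsionBy ℤ G ((p ^ 1 : ℕ) : ℤ)) = p ^ (2 * 1))
    (hdiv : ∀ x : G, (∃ n : ℕ, (p : ℤ) ^ n • x = 0) → ∃ y : G, (p : ℤ) • y = x)
    (j : ℕ) [Module (ZMod (p ^ j)) (Submodule.torsionBy ℤ G ((p ^ j : ℕ) : ℤ))] :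
    Nonempty (Module.Basis (Fin 2) (ZMod (p ^ j))
      (Submodule.torsionBy ℤ G ((p ^ j : ℕ) : ℤ))) := by
  classical
  obtain ⟨e₁, e₂, he₁, he₂, hind, hspan⟩ := abs_basis (G := G) p hcard hdiv j
  obtain ⟨hind', hspan'⟩ := abs_descend p j 1 e₁ e₂ hind hspan
  have hb₁ : (p : ℤ) ^ 1 • e₁ ∈ Submodule.torsionBy ℤ G ((p ^ j : ℕ) : ℤ) := by
    rw [Submodule.mem_torsionBy_iff, Nat.cast_pow, smul_smul, ← pow_add]; exact he₁
  have hb₂ : (p : ℤ) ^ 1 • e₂ ∈ Submodule.torsionBy ℤ G ((p ^ j : ℕ) : ℤ) := by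
    rw [Submodule.mem_torsionBy_iff, Nat.cast_pow, smul_smul, ← pow_add]; exact he₂
  set v : Fin 2 → Submodule.torsionBy ℤ G ((p ^ j : ℕ) : ℤ) :=
    ![⟨(p : ℤ) ^ 1 • e₁, hb₁⟩, ⟨(p : ℤ) ^ 1 • e₂, hb₂⟩] with hv
  have hv0 : ((v 0 : Submodule.torsionBy ℤ G ((p ^ j : ℕ) : ℤ)) : G) = (p : ℤ) ^ 1 • e₁ := rfl
  have hv1 : ((v 1 : Submodule.torsionBy ℤ G ((p ^ j : ℕ) : ℤ)) : G) = (p : ℤ) ^ 1 • e₂ := rfl
  have hcomb : ∀ (m n : ℤ),
      (((m : ZMod (p ^ j)) • v 0 + (n : ZMod (p ^ j)) • v 1 :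
        Submodule.torsionBy ℤ G ((p ^ j : ℕ) : ℤ)) : G)
        = m • ((p : ℤ) ^ 1 • e₁) + n • ((p : ℤ) ^ 1 • e₂) := by
    intro m n
    rw [Int.cast_smul_eq_zsmul, Int.cast_smul_eq_zsmul, Submodule.coe_add,
      Submodule.coe_smul_of_tower, Submodule.coe_smul_of_tower, hv0, hv1]
  have hli : LinearIndependent (ZMod (p ^ j)) v := by
    rw [Fintype.linearIndependent_iff]
    intro g hg
    rw [Fin.sum_univ_two, ← ZMod.intCast_zmod_cast (g 0), ← ZMod.intCast_zmod_cast (g 1)] at hg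
    have h0 := congrArg Subtype.val hg
    rw [hcomb, ZeroMemClass.coe_zero] at h0
    obtain ⟨hm, hn⟩ := hind' _ _ h0
    have hm' : g 0 = 0 := by
      rw [← ZMod.intCast_zmod_cast (g 0)]
      exact (ZMod.intCast_zmod_eq_zero_iff_dvd _ _).mpr (by rw [Nat.cast_pow]; exact hm)
    have hn' : g 1 = 0 := by
      rw [← ZMod.intCast_zmod_cast (g 1)]
      exact (ZMod.intCast_zmod_eq_zero_iff_dvd _ _).mpr (by rw [Nat.cast_pow]; exact hn)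
    intro i
    fin_cases i
    · exact hm'
    · exact hn'
  have hsp : ⊤ ≤ Submodule.span (ZMod (p ^ j)) (Set.range v) := by
    rintro ⟨x, hx⟩ -
    rw [Submodule.mem_torsionBy_iff, Nat.cast_pow] at hx
    obtain ⟨m, n, hmn⟩ := hspan' x hx
    have : (⟨x, by rw [Submodule.mem_torsionBy_iff, Nat.cast_pow]; exact hx⟩ :
        Submodule.torsionBy ℤ G ((p ^ j : ℕ) : ℤ))
        = (m : ZMod (p ^ j)) • v 0 + (n : ZMod (p ^ j)) • v 1 := by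
      apply Subtype.ext
      rw [hcomb]
      exact hmn
    rw [this]
    exact Submodule.add_mem _
      (Submodule.smul_mem _ _ (Submodule.subset_span ⟨0, rfl⟩))
      (Submodule.smul_mem _ _ (Submodule.subset_span ⟨1, rfl⟩))
  exact ⟨Module.Basis.mk hli hsp⟩

end Basis

/-- **Trace and determinant of Frobenius at every good prime** (`ℓ = 2, 3` included). -/
theorem galois_trace_det_frobenius_all (W : WeierstrassCurve ℤ) {ℓ p : ℕ} [Fact ℓ.Prime]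
    [Fact p.Prime] (hℓp : ℓ ≠ p) (hgood : W.IsGoodPrimeFor ℓ)
    [DecidableEq (AlgebraicClosure ℚ)]
    (A : ValuationSubring (AlgebraicClosure ℚ)) (hA : A.LiesOverPrime ℓ)
    (τ : AlgebraicClosure ℚ ≃ₐ[ℚ] AlgebraicClosure ℚ) (hτ : A.IsFrobeniusAt τ ℓ) (j : ℕ) :
    galoisTrace ℚ (W.map (Int.castRingHom ℚ)) (p ^ j) τ = ((W.apOfModel ℓ : ℤ) : ZMod (p ^ j)) ∧
      LinearMap.det (galoisRepModuleEnd ℚ (K := AlgebraicClosure ℚ) (W.map (Int.castRingHom ℚ))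
        (p ^ j) τ) = (((ℓ : ℤ)) : ZMod (p ^ j)) := by
  classical
  have hℓprime : ℓ.Prime := Fact.out
  have hpprime : p.Prime := Fact.out
  haveI : NeZero (p ^ j) := ⟨pow_ne_zero j hpprime.ne_zero⟩
  -- instances on the residue field
  haveI : CharP (IsLocalRing.ResidueField A) ℓ := charP_residueField A hA
  letI : Algebra (ZMod ℓ) (IsLocalRing.ResidueField A) := ZMod.algebra _ ℓ
  haveI : IsAlgClosed (IsLocalRing.ResidueField A) := isAlgClosed_residueField A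
  -- discriminants
  have hΔZ : W.Δ ≠ 0 := by
    intro h
    exact hgood (by rw [h]; exact dvd_zero _)
  have hΔ : ((W.map (Int.castRingHom ℚ))⁄(AlgebraicClosure ℚ)).Δ ≠ 0 := by
    change ((W.map (Int.castRingHom ℚ)).map (algebraMap ℚ (AlgebraicClosure ℚ))).Δ ≠ 0
    rw [WeierstrassCurve.map_Δ, WeierstrassCurve.map_Δ]
    simpa using hΔZ
  have hΔℓ : (W.reductionMod ℓ).Δ ≠ 0 := by
    change (W.map (Int.castRingHom (ZMod ℓ))).Δ ≠ 0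
    rw [WeierstrassCurve.map_Δ]
    intro h
    apply hgood
    have := (ZMod.intCast_zmod_eq_zero_iff_dvd W.Δ ℓ).mp (by simpa using h)
    exact this
  have hnot : ∀ n : ℕ, ¬ ℓ ∣ p ^ n := by
    intro n h
    have := (Nat.prime_dvd_prime_iff_eq hℓprime hpprime).mp (hℓprime.dvd_of_dvd_pow h)
    exact hℓp this
  -- the determinant
  have hdet : LinearMap.det (galoisRepModuleEnd ℚ (K := AlgebraicClosure ℚ)
      (W.map (Int.castRingHom ℚ)) (p ^ j) τ) = (((ℓ : ℤ)) : ZMod (p ^ j)) := by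
    have h1 := galois_det_eq_modChar W hΔZ (p := p) j τ
    rw [h1, Fermat.Agent.Cyclo.modChar_frobenius (p ^ j) hℓprime (hnot j) A hA τ hτ]
    simp
  refine ⟨?_, hdet⟩
  -- the relation
  obtain ⟨red, hinj, hfrob⟩ := exists_reduction W hgood A hA
  let T : ((W.map (Int.castRingHom ℚ))⁄(AlgebraicClosure ℚ)).Point →+
      ((W.map (Int.castRingHom ℚ))⁄(AlgebraicClosure ℚ)).Point :=
    DistribSMul.toAddMonoidHom _ τ
  have hredT : ∀ x, red (T x) = frobPt (W.reductionMod ℓ) (IsLocalRing.ResidueField A) (red x) :=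
    fun x => hfrob τ hτ x
  have hCH : ∀ x : ((W.map (Int.castRingHom ℚ))⁄(AlgebraicClosure ℚ)).Point,
      (∃ n : ℕ, (p ^ n) • x = 0) → T (T x) - W.apOfModel ℓ • T x + (ℓ : ℤ) • x = 0 := by
    rintro x ⟨n, hn⟩
    apply hinj (p ^ n) (hnot n)
    · have hn' : ((p ^ n : ℕ) : ℤ) • x = 0 := by rw [natCast_zsmul]; exact hn
      have e : ((p ^ n : ℕ) : ℤ) • (T (T x) - W.apOfModel ℓ • T x + (ℓ : ℤ) • x)
          = T (T (((p ^ n : ℕ) : ℤ) • x)) - W.apOfModel ℓ • T (((p ^ n : ℕ) : ℤ) • x)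
            + (ℓ : ℤ) • (((p ^ n : ℕ) : ℤ) • x) := by
        simp only [map_zsmul]
        module
      rw [← natCast_zsmul, e, hn']
      simp [zsmul_zero]
    · rw [map_add, map_sub, map_zsmul, map_zsmul, hredT, hredT]
      exact frobCharEq_all (W.reductionMod ℓ) hΔℓ _ (red x)
  -- a basis of `E[p^j]`
  have hcard1 : Nat.card (Submodule.torsionBy ℤ
      ((W.map (Int.castRingHom ℚ))⁄(AlgebraicClosure ℚ)).Point ((p ^ 1 : ℕ) : ℤ)) = p ^ (2 * 1) := by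
    rw [Fermat.Agent.Torsion.card_torsionBy hΔ (n := p ^ 1) (Nat.one_le_pow _ _ hpprime.pos)]
    ring
  have hdiv : ∀ x : ((W.map (Int.castRingHom ℚ))⁄(AlgebraicClosure ℚ)).Point,
      (∃ n : ℕ, (p : ℤ) ^ n • x = 0) → ∃ y, (p : ℤ) • y = x := by
    intro x _
    obtain ⟨y, hy⟩ := Fermat.Agent.Torsion.smul_surjective hΔ (n := p) hpprime.one_lt.le x
    exact ⟨y, by rw [natCast_zsmul]; exact hy⟩
  obtain ⟨bs⟩ := exists_basis_torsionBy (G := ((W.map (Int.castRingHom ℚ))⁄(AlgebraicClosure ℚ)).Point)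
    p hcard1 hdiv j
  -- conclusion
  rw [galoisTrace_def]
  apply end_trace_eq_of_quadratic_of_det bs _ _ (((ℓ : ℤ)) : ZMod (p ^ j)) _ hdet
  · rw [Int.cast_natCast]
    exact (ZMod.isUnit_iff_coprime ℓ (p ^ j)).mpr
      (Nat.Coprime.pow_right j ((Nat.coprime_primes hℓprime hpprime).mpr hℓp))
  · ext x
    have hx : ∃ n : ℕ, (p ^ n) • (x : ((W.map (Int.castRingHom ℚ))⁄(AlgebraicClosure ℚ)).Point) = 0 := by
      refine ⟨j, ?_⟩
      have := x.2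
      rw [Submodule.mem_torsionBy_iff] at this
      rw [← natCast_zsmul]
      exact this
    have := hCH x hx
    simp only [LinearMap.add_apply, LinearMap.sub_apply, Module.End.mul_apply,
      LinearMap.smul_apply, Module.End.one_apply, LinearMap.zero_apply, Submodule.coe_add,
      Submodule.coe_sub, ZeroMemClass.coe_zero, Int.cast_smul_eq_zsmul,
      Submodule.coe_smul_of_tower]
    exact this

end Fermat.Agent.FrobTrace
end MergeWrap_Lib_FrobTrace_MainAll
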